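import Mathlib
import Fermat.Statements.S56

/-!
# S56 (Taylor–Wiles primes and the tangent bound): the top contract

Statement-level file (helper56, S56 captain).  `result_of_contract` proves the frozen statement
S56 from three `Prop`s:

* `SurjStatement` (pure commutative algebra): a complete noetherian local `𝒪`-algebra `R` with
  residue field `𝒪 / 𝔪_𝒪` whose maximal ideal is generated by `r` elements together with `𝔪_𝒪`
  is a quotient of `𝒪[[X₁, …, X_r]]`.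
* `GenOrdStatement` / `GenFlatStatement` (everything else, one per half of S56): there is `r`
  such that for every `n` there is a Taylor–Wiles set `qv : Fin r → ℕ` of level `n` for which
  the maximal ideal of EVERY deformation ring `DQ.R` of type strict-ordinary (resp. flat), minimal
  at `Smin`, unramified outside `Smin ∪ Q`, is generated by `r` elements together with `𝔪_𝒪`.

Vocabulary: `Hyp` bundles the frozen hypotheses, `IsTWSet` the three frozen conditions on `qv`,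
`condOrd` / `condFlat` the two frozen deformation conditions (definitionally the frozen lambdas),
`GenMax` the generation statement.
-/

set_option autoImplicit false

open Polynomial IsLocalRing

namespace Fermat.Agent.S56.Contract

local notation "GQ" => (AlgebraicClosure ℚ ≃ₐ[ℚ] AlgebraicClosure ℚ)

/-- The frozen hypotheses of S56, bundled. -/
structure Hyp (𝒪 : Type) [CommRing 𝒪] [IsLocalRing 𝒪] (p : ℕ)
    (ρbar : ResidualGaloisRep (ResidueField 𝒪)) (S Smin : Finset ℕ) : Prop where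
  hp2 : p ≠ 2
  hp𝒪 : (p : 𝒪) ∈ maximalIdeal 𝒪
  habs : ρbar.IsAbsolutelyIrreducible
  hdet : (GaloisRepAdic.ofResidualGaloisRep ρbar).DetIsCyclotomic p
  hsplit : ∀ σ : GQ, ∃ α β : ResidueField 𝒪,
    LinearMap.charpoly (ρbar.ρ σ) = (X - C α) * (X - C β)
  hTW : ∀ (K : Type) [Field K] [Algebra (ResidueField 𝒪) K] (G : Subgroup GQ), G.index = 2 →
    ∀ V : Submodule K (ρbar.baseChange K).V,
      (∀ σ ∈ G, ∀ x ∈ V, (ρbar.baseChange K).ρ σ x ∈ V) → V = ⊥ ∨ V = ⊤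
  hpSmin : p ∈ Smin
  hSmin : Smin ⊆ S
  hS : ∀ q ∈ S, q.Prime
  hmin : ∀ q : ℕ, q.Prime → q ≠ p → (q ∈ Smin ↔ ¬ ρbar.IsUnramifiedAt q)

/-- `qv` is a set of `r` Taylor–Wiles primes of level `n` for `ρbar`, outside `S`:
distinct primes `q ∉ S`, `q ≡ 1 mod p ^ (n + 1)`, with `ρbar (Frob_q)` having two distinct
eigenvalues in the residue field. -/
def IsTWSet {k : Type} [Field k] (p : ℕ) (ρbar : ResidualGaloisRep k) (S : Finset ℕ) (n : ℕ)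
    {r : ℕ} (qv : Fin r → ℕ) : Prop :=
  Function.Injective qv ∧
  (∀ i, (qv i).Prime ∧ qv i ∉ S ∧ p ^ (n + 1) ∣ qv i - 1) ∧
  (∀ i, ∀ P : ValuationSubring (AlgebraicClosure ℚ), P.LiesOverPrime (qv i) →
    ∀ φ : GQ, P.IsFrobeniusAt φ (qv i) →
      ∃ α β : k, α ≠ β ∧ LinearMap.charpoly (ρbar.ρ φ) = (X - C α) * (X - C β))

/-- The frozen strict-ordinary deformation condition of level `Smin ∪ Q`. -/
def condOrd (𝒪 : Type) [CommRing 𝒪] (p : ℕ) (Smin : Finset ℕ) {r : ℕ} (qv : Fin r → ℕ) :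
    ∀ ⦃A : Type⦄ [CommRing A] [IsLocalRing A] [Algebra 𝒪 A], GaloisRepAdic A → Prop :=
  fun _A _ _ _ ρ =>
    GaloisRep.strictOrdinaryCondition 𝒪 p (Smin ∪ Finset.univ.image qv) ρ ∧
      ∀ q ∈ Smin, q.Prime → q ≠ p → ρ.IsUnipotentOnInertiaAt q

/-- The frozen flat deformation condition of level `Smin ∪ Q`. -/
def condFlat (𝒪 : Type) [CommRing 𝒪] (p : ℕ) (Smin : Finset ℕ) {r : ℕ} (qv : Fin r → ℕ) :
    ∀ ⦃A : Type⦄ [CommRing A] [IsLocalRing A] [Algebra 𝒪 A], GaloisRepAdic A → Prop :=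
  fun _A _ _ _ ρ =>
    GaloisRep.flatCondition 𝒪 p (Smin ∪ Finset.univ.image qv) ρ ∧
      ∀ q ∈ Smin, q.Prime → q ≠ p → ρ.IsUnipotentOnInertiaAt q

/-- The maximal ideal of the local `𝒪`-algebra `R` is generated by the `x i` and `𝔪_𝒪`. -/
def GenMax (𝒪 : Type) [CommRing 𝒪] [IsLocalRing 𝒪] (R : Type) [CommRing R] [IsLocalRing R]
    [Algebra 𝒪 R] {r : ℕ} (x : Fin r → R) : Prop :=
  maximalIdeal R = Ideal.span (Set.range x) ⊔ (maximalIdeal 𝒪).map (algebraMap 𝒪 R)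

/-- **(SURJ)** A complete noetherian local `𝒪`-algebra with residue field `𝒪 / 𝔪_𝒪` whose
maximal ideal is generated by `r` elements and `𝔪_𝒪` is a quotient of `𝒪[[X₁, …, X_r]]`. -/
def SurjStatement : Prop :=
  ∀ (𝒪 : Type) [CommRing 𝒪] [IsDomain 𝒪] [IsDiscreteValuationRing 𝒪]
    [IsAdicComplete (maximalIdeal 𝒪) 𝒪]
    (R : Type) [CommRing R] [IsLocalRing R] [IsNoetherianRing R]
    [IsAdicComplete (maximalIdeal R) R] [Algebra 𝒪 R] [IsLocalHom (algebraMap 𝒪 R)],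
    Function.Surjective (IsLocalRing.residue R ∘ algebraMap 𝒪 R) →
    ∀ (r : ℕ) (x : Fin r → R), GenMax 𝒪 R x →
      ∃ γ : MvPowerSeries (Fin r) 𝒪 →ₐ[𝒪] R, Function.Surjective γ

/-- **(GEN-ORD)** Taylor–Wiles primes with the tangent bound, strict-ordinary half. -/
def GenOrdStatement : Prop :=
  ∀ (𝒪 : Type) [CommRing 𝒪] [IsDomain 𝒪] [IsDiscreteValuationRing 𝒪]
    [IsAdicComplete (maximalIdeal 𝒪) 𝒪] [Finite (ResidueField 𝒪)]
    (p : ℕ) [Fact p.Prime] (ρbar : ResidualGaloisRep (ResidueField 𝒪)) (S Smin : Finset ℕ),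
    Hyp 𝒪 p ρbar S Smin →
    ∃ r : ℕ, ∀ n : ℕ, ∃ qv : Fin r → ℕ, IsTWSet p ρbar S n qv ∧
      ∀ DQ : GaloisRep.DeformationRingData 𝒪 ρbar (condOrd 𝒪 p Smin qv),
        ∃ x : Fin r → DQ.R, GenMax 𝒪 DQ.R x

/-- **(GEN-FLAT)** Taylor–Wiles primes with the tangent bound, flat half. -/
def GenFlatStatement : Prop :=
  ∀ (𝒪 : Type) [CommRing 𝒪] [IsDomain 𝒪] [IsDiscreteValuationRing 𝒪]
    [IsAdicComplete (maximalIdeal 𝒪) 𝒪] [Finite (ResidueField 𝒪)]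
    (p : ℕ) [Fact p.Prime] (ρbar : ResidualGaloisRep (ResidueField 𝒪)) (S Smin : Finset ℕ),
    Hyp 𝒪 p ρbar S Smin →
    ∃ r : ℕ, ∀ n : ℕ, ∃ qv : Fin r → ℕ, IsTWSet p ρbar S n qv ∧
      ∀ DQ : GaloisRep.DeformationRingData 𝒪 ρbar (condFlat 𝒪 p Smin qv),
        ∃ x : Fin r → DQ.R, GenMax 𝒪 DQ.R x

/-- **S56 from the top contract.** -/
theorem result_of_contract (hSurj : SurjStatement) (hOrd : GenOrdStatement)
    (hFlat : GenFlatStatement)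
    {𝒪 : Type} [CommRing 𝒪] [IsDomain 𝒪] [IsDiscreteValuationRing 𝒪]
    [IsAdicComplete (maximalIdeal 𝒪) 𝒪] [Finite (ResidueField 𝒪)]
    (p : ℕ) [Fact p.Prime] (hp2 : p ≠ 2) (hp𝒪 : (p : 𝒪) ∈ maximalIdeal 𝒪)
    (ρbar : ResidualGaloisRep (ResidueField 𝒪))
    (habs : ρbar.IsAbsolutelyIrreducible)
    (hdet : (GaloisRepAdic.ofResidualGaloisRep ρbar).DetIsCyclotomic p)
    (hsplit : ∀ σ : AlgebraicClosure ℚ ≃ₐ[ℚ] AlgebraicClosure ℚ,
      ∃ α β : ResidueField 𝒪, LinearMap.charpoly (ρbar.ρ σ) = (X - C α) * (X - C β))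
    (hTW : ∀ (K : Type) [Field K] [Algebra (ResidueField 𝒪) K]
      (G : Subgroup (AlgebraicClosure ℚ ≃ₐ[ℚ] AlgebraicClosure ℚ)), G.index = 2 →
      ∀ V : Submodule K (ρbar.baseChange K).V,
        (∀ σ ∈ G, ∀ x ∈ V, (ρbar.baseChange K).ρ σ x ∈ V) → V = ⊥ ∨ V = ⊤)
    (S Smin : Finset ℕ) (hpSmin : p ∈ Smin) (hSmin : Smin ⊆ S) (hS : ∀ q ∈ S, q.Prime)
    (hmin : ∀ q : ℕ, q.Prime → q ≠ p → (q ∈ Smin ↔ ¬ ρbar.IsUnramifiedAt q)) :
    (∃ r : ℕ, ∀ n : ℕ, ∃ qv : Fin r → ℕ, Function.Injective qv ∧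
      (∀ i, (qv i).Prime ∧ qv i ∉ S ∧ p ^ (n + 1) ∣ qv i - 1) ∧
      (∀ i, ∀ P : ValuationSubring (AlgebraicClosure ℚ), P.LiesOverPrime (qv i) →
        ∀ φ : AlgebraicClosure ℚ ≃ₐ[ℚ] AlgebraicClosure ℚ, P.IsFrobeniusAt φ (qv i) →
          ∃ α β : ResidueField 𝒪, α ≠ β ∧ LinearMap.charpoly (ρbar.ρ φ) = (X - C α) * (X - C β)) ∧
      ∀ DQ : GaloisRep.DeformationRingData 𝒪 ρbar (fun _A _ _ _ ρ =>
          GaloisRep.strictOrdinaryCondition 𝒪 p (Smin ∪ Finset.univ.image qv) ρ ∧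
            ∀ q ∈ Smin, q.Prime → q ≠ p → ρ.IsUnipotentOnInertiaAt q),
        ∃ γ : MvPowerSeries (Fin r) 𝒪 →ₐ[𝒪] DQ.R, Function.Surjective γ) ∧
    (∃ r : ℕ, ∀ n : ℕ, ∃ qv : Fin r → ℕ, Function.Injective qv ∧
      (∀ i, (qv i).Prime ∧ qv i ∉ S ∧ p ^ (n + 1) ∣ qv i - 1) ∧
      (∀ i, ∀ P : ValuationSubring (AlgebraicClosure ℚ), P.LiesOverPrime (qv i) →
        ∀ φ : AlgebraicClosure ℚ ≃ₐ[ℚ] AlgebraicClosure ℚ, P.IsFrobeniusAt φ (qv i) →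
          ∃ α β : ResidueField 𝒪, α ≠ β ∧ LinearMap.charpoly (ρbar.ρ φ) = (X - C α) * (X - C β)) ∧
      ∀ DQ : GaloisRep.DeformationRingData 𝒪 ρbar (fun _A _ _ _ ρ =>
          GaloisRep.flatCondition 𝒪 p (Smin ∪ Finset.univ.image qv) ρ ∧
            ∀ q ∈ Smin, q.Prime → q ≠ p → ρ.IsUnipotentOnInertiaAt q),
        ∃ γ : MvPowerSeries (Fin r) 𝒪 →ₐ[𝒪] DQ.R, Function.Surjective γ) := by
  have hyp : Hyp 𝒪 p ρbar S Smin :=
    ⟨hp2, hp𝒪, habs, hdet, hsplit, hTW, hpSmin, hSmin, hS, hmin⟩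
  refine ⟨?_, ?_⟩
  · obtain ⟨r, hr⟩ := hOrd 𝒪 p ρbar S Smin hyp
    refine ⟨r, fun n => ?_⟩
    obtain ⟨qv, ⟨hinj, hq, hfrob⟩, hDQ⟩ := hr n
    refine ⟨qv, hinj, hq, hfrob, fun DQ => ?_⟩
    obtain ⟨x, hx⟩ := hDQ DQ
    exact hSurj 𝒪 DQ.R DQ.residue_surjective r x hx
  · obtain ⟨r, hr⟩ := hFlat 𝒪 p ρbar S Smin hyp
    refine ⟨r, fun n => ?_⟩
    obtain ⟨qv, ⟨hinj, hq, hfrob⟩, hDQ⟩ := hr n
    refine ⟨qv, hinj, hq, hfrob, fun DQ => ?_⟩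
    obtain ⟨x, hx⟩ := hDQ DQ
    exact hSurj 𝒪 DQ.R DQ.residue_surjective r x hx

end Fermat.Agent.S56.Contract
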