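import Mathlib
import Fermat.Prelude.Def_GaloisRep_LocalConditions
import Fermat.Agent.S53.MatRep
import Fermat.Agent.Lib.CycloChar

/-!
# S56, brick D: reading the `ε`-part of a lift to `k[ε]` as an `ad⁰`-valued cocycle

(helper173.)  `k` a field, `k[ε] := DualNumber k`, `r : Γℚ →* M₂(k)` a matrix representation
(in the application `r = matOfBasisRes ρbar b0`), `c : Γℚ → M₂(k)`, and a lift
`ρ : GaloisRepAdic k[ε]` whose matrices in a basis `bb` are `r σ + ε c σ`
(`matOfBasis ρ bb σ = (r σ).map inl + (c σ).map inr`, the shape delivered by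
`TangentDer.exists_tangent_subspace` / `TangentSel.SelMat`).

* `det_map_inl_add_map_inr` : `det (A + ε C) = det A + ε tr (adj A * C)`.
* `trace_adjugate_mul_eq_zero`, `trace_adOf_eq_zero` : if `ρ.DetIsCyclotomic p` then
  `tr (adj (r σ) * c σ) = 0` and `tr (c σ * r σ⁻¹) = 0`  (trace zero).
* `eq_one_and_eq_zero_of_eq_one` : if `ρ.ρ σ = 1` then `r σ = 1` and `c σ = 0`
  (so `c` vanishes, and `r` is trivial, on inertia at every prime where `ρ` is unramified).
* `adOf r c σ := c σ * r σ⁻¹`; `adOf_mul` : `adOf (σ τ) = adOf σ + r σ * adOf τ * r σ⁻¹` for a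
  cocycle `c (σ τ) = c σ * r τ + r σ * c τ`; `adOf_mul_of_trivial` (right invariance under the
  elements with `r s = 1`, `c s = 0`); `inner_iff_adOf` : `c σ = X * r σ - r σ * X` for all `σ`
  iff `adOf σ = X - r σ * X * r σ⁻¹` for all `σ`; `adOf_injective`.
-/

set_option autoImplicit false

open IsLocalRing

namespace Fermat.Agent.S56.TangentAd

open Fermat.Agent.S53.MatRep

local notation "Γℚ" => (AlgebraicClosure ℚ ≃ₐ[ℚ] AlgebraicClosure ℚ)

/-! ### Determinants over the dual numbers -/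

section Det

variable {k : Type} [Field k]

theorem det_map_inl_add_map_inr (A C : Matrix (Fin 2) (Fin 2) k) :
    (A.map (TrivSqZeroExt.inl : k → DualNumber k)
        + C.map (TrivSqZeroExt.inr : k → DualNumber k)).det
      = TrivSqZeroExt.inl A.det + TrivSqZeroExt.inr (Matrix.trace (A.adjugate * C)) := by
  rw [Matrix.det_fin_two, Matrix.det_fin_two, Matrix.adjugate_fin_two, Matrix.trace_fin_two]
  apply TrivSqZeroExt.ext
  · simp
  · simp [Matrix.mul_apply, Fin.sum_univ_two]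
    ring

theorem map_inl_add_map_inr_eq_one_iff (A C : Matrix (Fin 2) (Fin 2) k) :
    A.map (TrivSqZeroExt.inl : k → DualNumber k) + C.map (TrivSqZeroExt.inr : k → DualNumber k)
      = 1 ↔ A = 1 ∧ C = 0 := by
  constructor
  · intro h
    refine ⟨Matrix.ext fun i j => ?_, Matrix.ext fun i j => ?_⟩
    · have h1 := congrArg TrivSqZeroExt.fst (congrFun (congrFun h i) j)
      simp only [Matrix.add_apply, Matrix.map_apply, TrivSqZeroExt.fst_add,
        TrivSqZeroExt.fst_inl, TrivSqZeroExt.fst_inr, add_zero] at h1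
      rw [h1, Matrix.one_apply, Matrix.one_apply]
      split_ifs <;> simp
    · have h1 := congrArg TrivSqZeroExt.snd (congrFun (congrFun h i) j)
      simp only [Matrix.add_apply, Matrix.map_apply, TrivSqZeroExt.snd_add,
        TrivSqZeroExt.snd_inl, TrivSqZeroExt.snd_inr, zero_add] at h1
      rw [h1, Matrix.one_apply, Matrix.zero_apply]
      split_ifs <;> simp
  · rintro ⟨rfl, rfl⟩
    ext i j <;> simp [Matrix.one_apply] <;> split_ifs <;> simp

end Det

/-! ### Reading off a lift -/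

section Lift

variable {k : Type} [Field k]

/-- **Trace zero.**  For a lift with cyclotomic determinant and matrices `r σ + ε c σ`:
`tr (adj (r σ) * c σ) = 0`. -/
theorem trace_adjugate_mul_eq_zero {p : ℕ} [Fact p.Prime] (ρ : GaloisRepAdic (DualNumber k))
    (hdet : ρ.DetIsCyclotomic p) (bb : Module.Basis (Fin 2) (DualNumber k) ρ.V) (σ : Γℚ)
    (A C : Matrix (Fin 2) (Fin 2) k)
    (hmat : matOfBasis ρ bb σ = A.map (TrivSqZeroExt.inl : k → DualNumber k)
      + C.map (TrivSqZeroExt.inr : k → DualNumber k)) :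
    Matrix.trace (A.adjugate * C) = 0 := by
  -- `p = 0` in `k[ε]`
  have hp0 : ((p : ℕ) : DualNumber k) = 0 := by
    have h1 := hdet.1
    have h2 : (((p : ℕ) : DualNumber k)).fst = 0 := by
      by_contra hne
      have hu : IsUnit ((p : ℕ) : DualNumber k) :=
        TrivSqZeroExt.isUnit_iff_isUnit_fst.mpr (IsUnit.mk0 _ hne)
      exact h1 hu
    apply TrivSqZeroExt.ext
    · rw [h2, TrivSqZeroExt.fst_zero]
    · simp
  -- the determinant is a natural number
  obtain ⟨a, ha⟩ : ∃ a : ℕ, ∀ μ : AlgebraicClosure ℚ, μ ^ p ^ 1 = 1 → σ μ = μ ^ a :=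
    ⟨_, fun μ hμ => Fermat.Agent.Lib.CycloChar.cyclo_spec p σ 1 μ hμ⟩
  have hdetσ := hdet.2 1 σ a ha
  have hp1 : (((p ^ 1 : ℕ) : ℕ) : DualNumber k) = 0 := by rw [pow_one]; exact hp0
  rw [hp1, Ideal.span_singleton_eq_bot.mpr rfl, Ideal.mem_bot, sub_eq_zero,
    ← LinearMap.det_toMatrix bb, ← matOfBasis_eq_toMatrix, hmat, det_map_inl_add_map_inr] at hdetσ
  have h3 := congrArg TrivSqZeroExt.snd hdetσ
  simpa using h3

/-- For a lift with matrices `r σ + ε c σ`: if `ρ σ = 1` then `r σ = 1` and `c σ = 0`. -/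
theorem eq_one_and_eq_zero_of_eq_one (ρ : GaloisRepAdic (DualNumber k))
    (bb : Module.Basis (Fin 2) (DualNumber k) ρ.V) (σ : Γℚ) (A C : Matrix (Fin 2) (Fin 2) k)
    (hmat : matOfBasis ρ bb σ = A.map (TrivSqZeroExt.inl : k → DualNumber k)
      + C.map (TrivSqZeroExt.inr : k → DualNumber k))
    (hσ : ρ.ρ σ = 1) : A = 1 ∧ C = 0 := by
  rw [← map_inl_add_map_inr_eq_one_iff, ← hmat, matOfBasis_eq_toMatrix, hσ]
  exact LinearMap.toMatrix_one bb

/-- On inertia at a prime where the lift is unramified, `r = 1` and `c = 0`. -/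
theorem eq_one_and_eq_zero_of_isUnramifiedAt (ρ : GaloisRepAdic (DualNumber k))
    (bb : Module.Basis (Fin 2) (DualNumber k) ρ.V) {q : ℕ} (hq : ρ.IsUnramifiedAt q)
    (P : ValuationSubring (AlgebraicClosure ℚ)) (hP : P.LiesOverPrime q) (σ : Γℚ)
    (hσ : σ ∈ P.inertiaSubgroupIn ℚ) (A C : Matrix (Fin 2) (Fin 2) k)
    (hmat : matOfBasis ρ bb σ = A.map (TrivSqZeroExt.inl : k → DualNumber k)
      + C.map (TrivSqZeroExt.inr : k → DualNumber k)) : A = 1 ∧ C = 0 :=
  eq_one_and_eq_zero_of_eq_one ρ bb σ A C hmat (hq P hP σ hσ)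

end Lift

/-! ### The `ad`-valued cocycle -/

section Ad

variable {k : Type} [Field k] {G : Type} [Group G] (r : G →* Matrix (Fin 2) (Fin 2) k)

/-- The `ad`-valued function `σ ↦ c σ * r σ⁻¹` of a matrix-valued function `c`. -/
def adOf (c : G → Matrix (Fin 2) (Fin 2) k) (σ : G) : Matrix (Fin 2) (Fin 2) k :=
  c σ * r σ⁻¹

theorem adOf_apply (c : G → Matrix (Fin 2) (Fin 2) k) (σ : G) : adOf r c σ = c σ * r σ⁻¹ := rfl

theorem map_mul_map_inv (σ : G) : r σ * r σ⁻¹ = 1 := by
  rw [← map_mul, mul_inv_cancel, map_one]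

theorem map_inv_mul_map (σ : G) : r σ⁻¹ * r σ = 1 := by
  rw [← map_mul, inv_mul_cancel, map_one]

theorem inv_map (σ : G) : (r σ)⁻¹ = r σ⁻¹ :=
  Matrix.inv_eq_right_inv (map_mul_map_inv r σ)

theorem adOf_eq_mul_inv (c : G → Matrix (Fin 2) (Fin 2) k) (σ : G) :
    adOf r c σ = c σ * (r σ)⁻¹ := by
  rw [adOf_apply, inv_map]

theorem adOf_mul_map (c : G → Matrix (Fin 2) (Fin 2) k) (σ : G) : adOf r c σ * r σ = c σ := by
  rw [adOf_apply, mul_assoc, map_inv_mul_map, mul_one]

/-- `c ↦ adOf r c` is additive and `k`-linear. -/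
theorem adOf_add (c c' : G → Matrix (Fin 2) (Fin 2) k) :
    adOf r (c + c') = adOf r c + adOf r c' := by
  funext σ
  simp only [adOf_apply, Pi.add_apply, add_mul]

theorem adOf_smul (a : k) (c : G → Matrix (Fin 2) (Fin 2) k) :
    adOf r (a • c) = a • adOf r c := by
  funext σ
  simp only [adOf_apply, Pi.smul_apply, Matrix.smul_mul]

theorem adOf_injective : Function.Injective (adOf r) := by
  intro c c' h
  funext σ
  rw [← adOf_mul_map r c σ, ← adOf_mul_map r c' σ, h]

theorem adOf_eq_zero_iff (c : G → Matrix (Fin 2) (Fin 2) k) (σ : G) :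
    adOf r c σ = 0 ↔ c σ = 0 := by
  constructor
  · intro h
    rw [← adOf_mul_map r c σ, h, zero_mul]
  · intro h
    rw [adOf_apply, h, zero_mul]

/-- The cocycle identity in `ad`-form. -/
theorem adOf_mul {c : G → Matrix (Fin 2) (Fin 2) k}
    (hc : ∀ σ τ, c (σ * τ) = c σ * r τ + r σ * c τ) (σ τ : G) :
    adOf r c (σ * τ) = adOf r c σ + r σ * adOf r c τ * r σ⁻¹ := by
  simp only [adOf_apply]
  rw [hc, mul_inv_rev, map_mul, add_mul]
  congr 1
  · rw [mul_assoc, ← mul_assoc (r τ), map_mul_map_inv, one_mul]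
  · simp only [mul_assoc]

/-- Right invariance under the elements `s` with `r s = 1` and `c s = 0`. -/
theorem adOf_mul_of_trivial {c : G → Matrix (Fin 2) (Fin 2) k}
    (hc : ∀ σ τ, c (σ * τ) = c σ * r τ + r σ * c τ) (g s : G) (hr : r s = 1) (hcs : c s = 0) :
    adOf r c (g * s) = adOf r c g := by
  have h1 : r s⁻¹ = 1 := by
    have := map_inv_mul_map r s
    rwa [hr, mul_one] at this
  simp only [adOf_apply]
  rw [hc, hcs, hr, mul_one, mul_zero, add_zero, mul_inv_rev, map_mul, h1, one_mul]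

/-- `c` is inner by `X` iff `adOf r c` is the coboundary of `-X`. -/
theorem inner_iff_adOf (c : G → Matrix (Fin 2) (Fin 2) k) (X : Matrix (Fin 2) (Fin 2) k) :
    (∀ σ, c σ = X * r σ - r σ * X) ↔ ∀ σ, adOf r c σ = X - r σ * X * r σ⁻¹ := by
  constructor
  · intro h σ
    rw [adOf_apply, h σ, sub_mul, mul_assoc, map_mul_map_inv, mul_one]
  · intro h σ
    rw [← adOf_mul_map r c σ, h σ, sub_mul, mul_assoc (r σ * X), map_inv_mul_map, mul_one]

/-- The trace of `adOf r c σ` is the trace of `adj (r σ) * c σ` up to the unit `det (r σ)`. -/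
theorem trace_adOf_eq_zero (c : G → Matrix (Fin 2) (Fin 2) k) (σ : G)
    (h : Matrix.trace ((r σ).adjugate * c σ) = 0) : Matrix.trace (adOf r c σ) = 0 := by
  rw [adOf_eq_mul_inv, Matrix.inv_def, Matrix.mul_smul, Matrix.trace_smul, Matrix.trace_mul_comm,
    h, smul_zero]

end Ad

/-! ### Summary for a lift -/

section Summary

variable {k : Type} [Field k]

/-- **Trace zero, `ad`-form.**  For a lift with cyclotomic determinant and matrices
`r σ + ε c σ`, the `ad`-valued cocycle `σ ↦ c σ * r σ⁻¹` has trace zero. -/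
theorem trace_adOf_eq_zero_of_lift {p : ℕ} [Fact p.Prime] (r : Γℚ →* Matrix (Fin 2) (Fin 2) k)
    (c : Γℚ → Matrix (Fin 2) (Fin 2) k) (ρ : GaloisRepAdic (DualNumber k))
    (hdet : ρ.DetIsCyclotomic p) (bb : Module.Basis (Fin 2) (DualNumber k) ρ.V)
    (hmat : ∀ σ : Γℚ, matOfBasis ρ bb σ = (r σ).map (TrivSqZeroExt.inl : k → DualNumber k)
      + (c σ).map (TrivSqZeroExt.inr : k → DualNumber k)) (σ : Γℚ) :
    Matrix.trace (adOf r c σ) = 0 :=
  trace_adOf_eq_zero r c σ (trace_adjugate_mul_eq_zero ρ hdet bb σ (r σ) (c σ) (hmat σ))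

/-- The `ε`-part of a lift with matrices `r σ + ε c σ` is a cocycle (so the cocycle clause of
`TangentSel.SelMat` is also a consequence of the lift clause). -/
theorem cocycle_of_lift (r : Γℚ →* Matrix (Fin 2) (Fin 2) k)
    (c : Γℚ → Matrix (Fin 2) (Fin 2) k) (ρ : GaloisRepAdic (DualNumber k))
    (bb : Module.Basis (Fin 2) (DualNumber k) ρ.V)
    (hmat : ∀ σ : Γℚ, matOfBasis ρ bb σ = (r σ).map (TrivSqZeroExt.inl : k → DualNumber k)
      + (c σ).map (TrivSqZeroExt.inr : k → DualNumber k)) (σ τ : Γℚ) :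
    c (σ * τ) = c σ * r τ + r σ * c τ := by
  have h := map_mul (matOfBasis ρ bb) σ τ
  rw [hmat, hmat, hmat] at h
  refine Matrix.ext fun i j => ?_
  have h1 := congrArg TrivSqZeroExt.snd (congrFun (congrFun h i) j)
  simp only [Matrix.add_apply, Matrix.map_apply, TrivSqZeroExt.snd_add, TrivSqZeroExt.snd_inl,
    TrivSqZeroExt.snd_inr, zero_add, Matrix.mul_apply, Fin.sum_univ_two, TrivSqZeroExt.snd_mul,
    TrivSqZeroExt.fst_add, TrivSqZeroExt.fst_inl, TrivSqZeroExt.fst_inr, add_zero, smul_eq_mul,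
    MulOpposite.smul_eq_mul_unop, MulOpposite.unop_op] at h1
  rw [h1, Matrix.add_apply, Matrix.mul_apply, Matrix.mul_apply, Fin.sum_univ_two,
    Fin.sum_univ_two]
  ring

end Summary

end Fermat.Agent.S56.TangentAd
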