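import Mathlib

/-!
# S56, brick D5 (counting half): few `𝒪`-algebra maps `R → k[ε]` force few generators of `𝔪_R`

Level-free commutative algebra (helper173).  `𝒪` a local ring with FINITE residue field `k`,
`R` a noetherian local `𝒪`-algebra with local structure map and `𝒪 → R / 𝔪_R` onto.

The dual numbers enter only through three facts: `A` is a commutative `𝒪`-algebra killed by
`𝔪_𝒪` (`hA`) with an element `ε ≠ 0`, `ε * ε = 0`.  (For `A = DualNumber k` take `ε = DualNumber.eps`.)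

* `cotSub 𝒪 R = 𝒪 · 1 + 𝔪_R ^ 2 + 𝔪_𝒪 R` (an `𝒪`-submodule of `R`); `R ⧸ cotSub 𝒪 R` is the
  relative cotangent space `𝔪_R / (𝔪_R ^ 2 + 𝔪_𝒪 R)`, an `𝒪`-module killed by `𝔪_𝒪`.
* `rho hres : R →+* k` the residue map of `R` read in `k = 𝒪 / 𝔪_𝒪`; `iota hA : k →+* A`.
* `homOfFunctional hres hA ε hε2 ℓ : R →ₐ[𝒪] A`, `r ↦ iota (rho r) + iota (ℓ [r]) * ε`, for an
  `𝒪`-linear functional `ℓ` on the cotangent space; `homOfFunctional_injective`.
* `exists_genMax_of_card_le` : if every finite set of `𝒪`-algebra maps `R → A` has at most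
  `|k| ^ r` elements, then `𝔪_R = (x₁, …, x_r) + 𝔪_𝒪 R` for some `x : Fin r → R`
  (the conclusion is `Contract.GenMax 𝒪 R x` unfolded).
* `exists_genMax_of_card_le_dualNumber` : the same for `A = DualNumber (ResidueField 𝒪)`.
-/

set_option autoImplicit false
set_option linter.style.haveILetI false

open IsLocalRing

namespace Fermat.Agent.S56.TangentCount

section Setup

variable (𝒪 : Type*) [CommRing 𝒪] [IsLocalRing 𝒪]
  (R : Type*) [CommRing R] [IsLocalRing R] [Algebra 𝒪 R]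

/-- `𝔪_R ^ 2 + 𝔪_𝒪 R`. -/
def cotIdeal : Ideal R :=
  maximalIdeal R ^ 2 ⊔ (maximalIdeal 𝒪).map (algebraMap 𝒪 R)

/-- `𝒪 · 1 + 𝔪_R ^ 2 + 𝔪_𝒪 R`, as an `𝒪`-submodule of `R`. -/
def cotSub : Submodule 𝒪 R :=
  LinearMap.range (Algebra.linearMap 𝒪 R) ⊔ (cotIdeal 𝒪 R).restrictScalars 𝒪

end Setup

section Basic

variable {𝒪 : Type*} [CommRing 𝒪] [IsLocalRing 𝒪]
  {R : Type*} [CommRing R] [IsLocalRing R] [Algebra 𝒪 R]

theorem algebraMap_mem_cotSub (a : 𝒪) : algebraMap 𝒪 R a ∈ cotSub 𝒪 R :=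
  Submodule.mem_sup_left ⟨a, rfl⟩

theorem mem_cotSub_of_mem_cotIdeal {x : R} (hx : x ∈ cotIdeal 𝒪 R) : x ∈ cotSub 𝒪 R :=
  Submodule.mem_sup_right hx

theorem mul_mem_cotSub {m m' : R} (hm : m ∈ maximalIdeal R) (hm' : m' ∈ maximalIdeal R) :
    m * m' ∈ cotSub 𝒪 R :=
  mem_cotSub_of_mem_cotIdeal
    (Ideal.mem_sup_left (by rw [pow_two]; exact Ideal.mul_mem_mul hm hm'))

theorem smul_mem_cotSub {a : 𝒪} (ha : a ∈ maximalIdeal 𝒪) (x : R) : a • x ∈ cotSub 𝒪 R := by
  rw [Algebra.smul_def]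
  exact mem_cotSub_of_mem_cotIdeal
    (Ideal.mem_sup_right (Ideal.mul_mem_right _ _ (Ideal.mem_map_of_mem _ ha)))

theorem mkQ_algebraMap (a : 𝒪) : (cotSub 𝒪 R).mkQ (algebraMap 𝒪 R a) = 0 := by
  rw [Submodule.mkQ_apply, Submodule.Quotient.mk_eq_zero]
  exact algebraMap_mem_cotSub a

theorem mkQ_one : (cotSub 𝒪 R).mkQ (1 : R) = 0 := by
  have := mkQ_algebraMap (R := R) (1 : 𝒪)
  rwa [map_one] at this

/-- The cotangent space is killed by `𝔪_𝒪`. -/
theorem isTorsionBySet_cot :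
    Module.IsTorsionBySet 𝒪 (R ⧸ cotSub 𝒪 R) (maximalIdeal 𝒪 : Set 𝒪) := by
  intro v a
  obtain ⟨r, rfl⟩ := (cotSub 𝒪 R).mkQ_surjective v
  rw [← map_smul, Submodule.mkQ_apply, Submodule.Quotient.mk_eq_zero]
  exact smul_mem_cotSub a.2 r

/-- The derivation identity on the cotangent space. -/
theorem mkQ_mul (r r' : R) (a a' : 𝒪) :
    r - algebraMap 𝒪 R a ∈ maximalIdeal R → r' - algebraMap 𝒪 R a' ∈ maximalIdeal R →
    (cotSub 𝒪 R).mkQ (r * r') = a • (cotSub 𝒪 R).mkQ r' + a' • (cotSub 𝒪 R).mkQ r := by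
  intro ha ha'
  have h1 : r * r' = (r - algebraMap 𝒪 R a) * (r' - algebraMap 𝒪 R a') + a • r' + a' • r
      - algebraMap 𝒪 R (a * a') := by
    rw [Algebra.smul_def, Algebra.smul_def, map_mul]; ring
  have h2 : (cotSub 𝒪 R).mkQ ((r - algebraMap 𝒪 R a) * (r' - algebraMap 𝒪 R a')) = 0 := by
    rw [Submodule.mkQ_apply, Submodule.Quotient.mk_eq_zero]
    exact mul_mem_cotSub ha ha'
  rw [h1, map_sub, map_add, map_add, map_smul, map_smul, h2, mkQ_algebraMap, zero_add, sub_zero]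

variable [IsLocalHom (algebraMap 𝒪 R)]

theorem map_le_maximalIdeal : (maximalIdeal 𝒪).map (algebraMap 𝒪 R) ≤ maximalIdeal R := by
  rw [Ideal.map_le_iff_le_comap]
  intro a ha
  rw [Ideal.mem_comap, mem_maximalIdeal, map_mem_nonunits_iff]
  exact ha

theorem cotIdeal_le : cotIdeal 𝒪 R ≤ maximalIdeal R :=
  sup_le (Ideal.pow_le_self two_ne_zero) map_le_maximalIdeal

theorem mem_cotIdeal_of_mem_cotSub {x : R} (hx : x ∈ cotSub 𝒪 R) (hxm : x ∈ maximalIdeal R) :
    x ∈ cotIdeal 𝒪 R := by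
  obtain ⟨y, ⟨a, rfl⟩, j, hj, rfl⟩ := Submodule.mem_sup.mp hx
  have hj' : j ∈ cotIdeal 𝒪 R := hj
  have h1 : algebraMap 𝒪 R a ∈ maximalIdeal R := by
    have := sub_mem hxm (cotIdeal_le hj')
    simpa using this
  have h2 : a ∈ maximalIdeal 𝒪 := by
    rw [mem_maximalIdeal] at h1 ⊢
    exact (map_mem_nonunits_iff (algebraMap 𝒪 R) a).mp h1
  exact add_mem (Ideal.mem_sup_right (Ideal.mem_map_of_mem _ h2)) hj'

end Basic

section Residue

variable {𝒪 : Type*} [CommRing 𝒪] [IsLocalRing 𝒪]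
  {R : Type*} [CommRing R] [IsLocalRing R] [Algebra 𝒪 R] [IsLocalHom (algebraMap 𝒪 R)]
  (hres : Function.Surjective (residue R ∘ algebraMap 𝒪 R))

/-- The residue fields of `𝒪` and `R` are identified by the structure map. -/
noncomputable def resEquiv : ResidueField 𝒪 ≃+* ResidueField R :=
  RingEquiv.ofBijective (ResidueField.map (algebraMap 𝒪 R))
    ⟨(ResidueField.map (algebraMap 𝒪 R)).injective, fun y => by
      obtain ⟨r, rfl⟩ := residue_surjective y
      obtain ⟨a, ha⟩ := hres (residue R r)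
      exact ⟨residue 𝒪 a, by rw [ResidueField.map_residue]; exact ha⟩⟩

/-- The residue map of `R`, read in the residue field of `𝒪`. -/
noncomputable def rho : R →+* ResidueField 𝒪 :=
  ((resEquiv hres).symm : ResidueField R →+* ResidueField 𝒪).comp (residue R)

theorem rho_algebraMap (a : 𝒪) : rho hres (algebraMap 𝒪 R a) = residue 𝒪 a := by
  simp only [rho, RingHom.comp_apply, RingHom.coe_coe]
  rw [RingEquiv.symm_apply_eq]
  exact (ResidueField.map_residue (algebraMap 𝒪 R) a).symm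

theorem rho_eq_zero_iff (r : R) : rho hres r = 0 ↔ r ∈ maximalIdeal R := by
  simp only [rho, RingHom.comp_apply, RingHom.coe_coe]
  rw [map_eq_zero_iff _ (resEquiv hres).symm.injective, residue_eq_zero_iff]

theorem exists_lift (r : R) :
    ∃ a : 𝒪, r - algebraMap 𝒪 R a ∈ maximalIdeal R ∧ rho hres r = residue 𝒪 a := by
  obtain ⟨a, ha⟩ := hres (residue R r)
  have h1 : r - algebraMap 𝒪 R a ∈ maximalIdeal R := by
    rw [← residue_eq_zero_iff, map_sub, sub_eq_zero]; exact ha.symm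
  refine ⟨a, h1, ?_⟩
  have := (rho_eq_zero_iff hres _).mpr h1
  rwa [map_sub, rho_algebraMap, sub_eq_zero] at this

variable {A : Type*} [CommRing A] [Algebra 𝒪 A]
  (hA : ∀ a ∈ maximalIdeal 𝒪, algebraMap 𝒪 A a = 0)

/-- The structure map of an `𝒪`-algebra killed by `𝔪_𝒪`, as a map from the residue field. -/
noncomputable def iota : ResidueField 𝒪 →+* A :=
  Ideal.Quotient.lift (maximalIdeal 𝒪) (algebraMap 𝒪 A) hA

theorem iota_residue (a : 𝒪) : iota hA (residue 𝒪 a) = algebraMap 𝒪 A a :=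
  Ideal.Quotient.lift_mk _ _ _

/-- The `𝒪`-algebra map `R → A`, `r ↦ ι (ρ r) + ι (ℓ [r]) ε`, attached to an `𝒪`-linear
functional `ℓ` on the cotangent space. -/
noncomputable def homOfFunctional (ε : A) (hε2 : ε * ε = 0)
    (ℓ : (R ⧸ cotSub 𝒪 R) →ₗ[𝒪] ResidueField 𝒪) : R →ₐ[𝒪] A where
  toFun r := iota hA (rho hres r) + iota hA (ℓ ((cotSub 𝒪 R).mkQ r)) * ε
  map_one' := by
    rw [mkQ_one, map_zero, map_zero, zero_mul, add_zero, map_one, map_one]
  map_mul' r r' := by
    obtain ⟨a, ha, hρ⟩ := exists_lift hres r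
    obtain ⟨a', ha', hρ'⟩ := exists_lift hres r'
    rw [mkQ_mul r r' a a' ha ha', map_mul, map_add, map_smul, map_smul, hρ, hρ',
      Algebra.smul_def, Algebra.smul_def, ResidueField.algebraMap_eq]
    simp only [map_add, map_mul]
    linear_combination (-(iota hA (ℓ ((cotSub 𝒪 R).mkQ r)) *
      iota hA (ℓ ((cotSub 𝒪 R).mkQ r')))) * hε2
  map_zero' := by
    rw [map_zero, map_zero, map_zero, map_zero, map_zero, zero_mul, add_zero]
  map_add' r r' := by
    rw [map_add, map_add, map_add, map_add, map_add]; ring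
  commutes' a := by
    rw [mkQ_algebraMap, map_zero, map_zero, zero_mul, add_zero, rho_algebraMap, iota_residue]

theorem homOfFunctional_apply (ε : A) (hε2 : ε * ε = 0)
    (ℓ : (R ⧸ cotSub 𝒪 R) →ₗ[𝒪] ResidueField 𝒪) (r : R) :
    homOfFunctional hres hA ε hε2 ℓ r
      = iota hA (rho hres r) + iota hA (ℓ ((cotSub 𝒪 R).mkQ r)) * ε := rfl

theorem homOfFunctional_injective (ε : A) (hε0 : ε ≠ 0) (hε2 : ε * ε = 0) :
    Function.Injective (homOfFunctional hres hA ε hε2) := by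
  intro ℓ ℓ' h
  refine LinearMap.ext fun v => ?_
  obtain ⟨r, rfl⟩ := (cotSub 𝒪 R).mkQ_surjective v
  have h1 := DFunLike.congr_fun h r
  rw [homOfFunctional_apply, homOfFunctional_apply] at h1
  have h2 : iota hA (ℓ ((cotSub 𝒪 R).mkQ r) - ℓ' ((cotSub 𝒪 R).mkQ r)) * ε = 0 := by
    rw [map_sub, sub_mul, sub_eq_zero]; exact add_left_cancel h1
  by_contra hne
  have hu : IsUnit (iota hA (ℓ ((cotSub 𝒪 R).mkQ r) - ℓ' ((cotSub 𝒪 R).mkQ r))) :=
    (IsUnit.mk0 _ (sub_ne_zero.mpr hne)).map (iota hA)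
  exact hε0 (hu.mul_right_eq_zero.mp h2)

end Residue

section Count

variable {𝒪 : Type*} [CommRing 𝒪] [IsLocalRing 𝒪]
  {R : Type*} [CommRing R] [IsLocalRing R] [Algebra 𝒪 R] [IsLocalHom (algebraMap 𝒪 R)]

/-- Every class of the cotangent space has a representative in `𝔪_R`. -/
theorem exists_mem_maximalIdeal_mkQ_eq
    (hres : Function.Surjective (residue R ∘ algebraMap 𝒪 R)) (v : R ⧸ cotSub 𝒪 R) :
    ∃ x ∈ maximalIdeal R, (cotSub 𝒪 R).mkQ x = v := by
  obtain ⟨y, rfl⟩ := (cotSub 𝒪 R).mkQ_surjective v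
  obtain ⟨a, ha, -⟩ := exists_lift hres y
  exact ⟨y - algebraMap 𝒪 R a, ha, by rw [map_sub, mkQ_algebraMap, sub_zero]⟩

/-- **D5, counting half.**  If every finite set of `𝒪`-algebra maps from `R` to an `𝒪`-algebra
`A` killed by `𝔪_𝒪` and containing a non-zero element of square zero has at most `|k| ^ r`
elements, then `𝔪_R` is generated by `r` elements together with `𝔪_𝒪`. -/
theorem exists_genMax_of_card_le [Finite (ResidueField 𝒪)] [IsNoetherianRing R]
    (hres : Function.Surjective (residue R ∘ algebraMap 𝒪 R))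
    {A : Type*} [CommRing A] [Algebra 𝒪 A]
    (hA : ∀ a ∈ maximalIdeal 𝒪, algebraMap 𝒪 A a = 0)
    (ε : A) (hε0 : ε ≠ 0) (hε2 : ε * ε = 0) (r : ℕ)
    (hcard : ∀ F : Finset (R →ₐ[𝒪] A), F.card ≤ Nat.card (ResidueField 𝒪) ^ r) :
    ∃ x : Fin r → R,
      maximalIdeal R = Ideal.span (Set.range x) ⊔ (maximalIdeal 𝒪).map (algebraMap 𝒪 R) := by
  classical
  letI modV : Module (ResidueField 𝒪) (R ⧸ cotSub 𝒪 R) :=
    Module.IsTorsionBySet.module (isTorsionBySet_cot (𝒪 := 𝒪) (R := R))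
  have hsmul : ∀ (a : 𝒪) (v : R ⧸ cotSub 𝒪 R), (residue 𝒪 a) • v = a • v := fun a v => rfl
  haveI towV : IsScalarTower 𝒪 (ResidueField 𝒪) (R ⧸ cotSub 𝒪 R) :=
    ⟨fun a c v => by
      obtain ⟨c, rfl⟩ := residue_surjective c
      rw [hsmul, Algebra.smul_def, ResidueField.algebraMap_eq, ← map_mul, hsmul, mul_smul]⟩
  haveI : Fintype (ResidueField 𝒪) := Fintype.ofFinite _
  have hk1 : 1 < Nat.card (ResidueField 𝒪) := Finite.one_lt_card
  -- Step 1: the cotangent space has rank at most `r`.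
  have hrank : Module.rank (ResidueField 𝒪) (R ⧸ cotSub 𝒪 R) ≤ r := by
    apply rank_le
    intro s hs
    have hinj := linearIndependent_iff_injective_fintypeLinearCombination.mp hs
    obtain ⟨g, hg⟩ := (Fintype.linearCombination (ResidueField 𝒪)
      (fun i : s => (i : R ⧸ cotSub 𝒪 R))).exists_leftInverse_of_injective
        (LinearMap.ker_eq_bot.mpr hinj)
    have hgv : ∀ j : s, g (j : R ⧸ cotSub 𝒪 R) = Pi.single j 1 := by
      intro j
      have h1 := LinearMap.congr_fun hg (Pi.single j 1)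
      rw [LinearMap.comp_apply, Fintype.linearCombination_apply_single, one_smul] at h1
      exact h1
    let L : (s → ResidueField 𝒪) → ((R ⧸ cotSub 𝒪 R) →ₗ[𝒪] ResidueField 𝒪) := fun c =>
      ((Fintype.linearCombination (ResidueField 𝒪) c).comp g).restrictScalars 𝒪
    have hL : ∀ c (j : s), L c (j : R ⧸ cotSub 𝒪 R) = c j := by
      intro c j
      show Fintype.linearCombination (ResidueField 𝒪) c (g (j : R ⧸ cotSub 𝒪 R)) = c j
      rw [hgv, Fintype.linearCombination_apply_single, one_smul]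
    have hLinj : Function.Injective L := by
      intro c c' h
      funext j
      rw [← hL c j, ← hL c' j, h]
    have hΘ : Function.Injective (fun c => homOfFunctional hres hA ε hε2 (L c)) :=
      (homOfFunctional_injective hres hA ε hε0 hε2).comp hLinj
    have h1 := hcard (Finset.univ.image (fun c => homOfFunctional hres hA ε hε2 (L c)))
    rw [Finset.card_image_of_injective _ hΘ, Finset.card_univ, Fintype.card_fun,
      Fintype.card_coe, ← Nat.card_eq_fintype_card] at h1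
    exact (Nat.pow_le_pow_iff_right hk1).mp h1
  -- Step 2: a basis, lifted into `𝔪_R` and padded by zeros.
  haveI hfin : Module.Finite (ResidueField 𝒪) (R ⧸ cotSub 𝒪 R) :=
    Module.rank_lt_aleph0_iff.mp (lt_of_le_of_lt hrank (Cardinal.natCast_lt_aleph0))
  have hd : Module.finrank (ResidueField 𝒪) (R ⧸ cotSub 𝒪 R) ≤ r :=
    Module.finrank_le_of_rank_le hrank
  let b := Module.finBasis (ResidueField 𝒪) (R ⧸ cotSub 𝒪 R)
  choose x0 hx0m hx0 using fun i => exists_mem_maximalIdeal_mkQ_eq hres (b i)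
  let x : Fin r → R := fun j =>
    if h : (j : ℕ) < Module.finrank (ResidueField 𝒪) (R ⧸ cotSub 𝒪 R) then x0 ⟨j, h⟩ else 0
  have hxm : ∀ j, x j ∈ maximalIdeal R := by
    intro j
    simp only [x]
    split_ifs
    · exact hx0m _
    · exact zero_mem _
  have hx0x : ∀ i, x0 i ∈ Ideal.span (Set.range x) := by
    intro i
    have hi : (i : ℕ) < r := lt_of_lt_of_le i.2 hd
    have h1 : x ⟨i, hi⟩ = x0 i := by
      simp only [x]
      rw [dif_pos i.2]
    rw [← h1]
    exact Ideal.subset_span ⟨_, rfl⟩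
  refine ⟨x, le_antisymm ?_ ?_⟩
  · -- Nakayama
    apply Submodule.le_of_le_smul_of_le_jacobson_bot (I := maximalIdeal R)
      (IsNoetherian.noetherian _)
      (by rw [IsLocalRing.jacobson_eq_maximalIdeal ⊥ bot_ne_top])
    intro m hm
    have hrep := b.sum_repr ((cotSub 𝒪 R).mkQ m)
    choose a ha using fun i => residue_surjective (b.repr ((cotSub 𝒪 R).mkQ m) i)
    have h1 : (cotSub 𝒪 R).mkQ (m - ∑ i, a i • x0 i) = 0 := by
      rw [map_sub, map_sum, sub_eq_zero, ← hrep]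
      refine Finset.sum_congr rfl fun i _ => ?_
      rw [map_smul, hx0, ← ha i, hsmul]
    have hsum : ∀ I : Ideal R, (∀ i, x0 i ∈ I) → ∑ i, a i • x0 i ∈ I := fun I hI =>
      sum_mem fun i _ => by rw [Algebra.smul_def]; exact Ideal.mul_mem_left _ _ (hI i)
    have h2 : m - ∑ i, a i • x0 i ∈ cotIdeal 𝒪 R := by
      refine mem_cotIdeal_of_mem_cotSub ?_ (sub_mem hm (hsum _ hx0m))
      rwa [Submodule.mkQ_apply, Submodule.Quotient.mk_eq_zero] at h1
    obtain ⟨u, hu, w, hw, huw⟩ := Submodule.mem_sup.mp h2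
    have hu' : u ∈ maximalIdeal R • (maximalIdeal R : Submodule R R) := by
      rwa [smul_eq_mul, ← pow_two]
    have h4 : m = ∑ i, a i • x0 i + (u + w) := by rw [huw]; ring
    rw [h4]
    exact add_mem (Submodule.mem_sup_left (Submodule.mem_sup_left (hsum _ hx0x)))
      (add_mem (Submodule.mem_sup_right hu') (Submodule.mem_sup_left (Submodule.mem_sup_right hw)))
  · exact sup_le (Ideal.span_le.mpr (by rintro _ ⟨j, rfl⟩; exact hxm j)) map_le_maximalIdeal

/-- Variant of `exists_genMax_of_card_le`: the algebra maps inject into a finite type with at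
most `|k| ^ r` elements. -/
theorem exists_genMax_of_injective [Finite (ResidueField 𝒪)] [IsNoetherianRing R]
    (hres : Function.Surjective (residue R ∘ algebraMap 𝒪 R))
    {A : Type*} [CommRing A] [Algebra 𝒪 A]
    (hA : ∀ a ∈ maximalIdeal 𝒪, algebraMap 𝒪 A a = 0)
    (ε : A) (hε0 : ε ≠ 0) (hε2 : ε * ε = 0) (r : ℕ)
    {T : Type*} [Finite T] (f : (R →ₐ[𝒪] A) → T) (hf : Function.Injective f)
    (hT : Nat.card T ≤ Nat.card (ResidueField 𝒪) ^ r) :
    ∃ x : Fin r → R,
      maximalIdeal R = Ideal.span (Set.range x) ⊔ (maximalIdeal 𝒪).map (algebraMap 𝒪 R) := by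
  classical
  haveI : Fintype T := Fintype.ofFinite T
  refine exists_genMax_of_card_le hres hA ε hε0 hε2 r fun F => le_trans ?_ hT
  rw [Nat.card_eq_fintype_card, ← Finset.card_image_of_injective F hf]
  exact Finset.card_le_univ _

/-- Variant of `exists_genMax_of_card_le` with `Nat.card` of the (finite) set of algebra maps. -/
theorem exists_genMax_of_natCard_le [Finite (ResidueField 𝒪)] [IsNoetherianRing R]
    (hres : Function.Surjective (residue R ∘ algebraMap 𝒪 R))
    {A : Type*} [CommRing A] [Algebra 𝒪 A]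
    (hA : ∀ a ∈ maximalIdeal 𝒪, algebraMap 𝒪 A a = 0)
    (ε : A) (hε0 : ε ≠ 0) (hε2 : ε * ε = 0) (r : ℕ) [Finite (R →ₐ[𝒪] A)]
    (hcard : Nat.card (R →ₐ[𝒪] A) ≤ Nat.card (ResidueField 𝒪) ^ r) :
    ∃ x : Fin r → R,
      maximalIdeal R = Ideal.span (Set.range x) ⊔ (maximalIdeal 𝒪).map (algebraMap 𝒪 R) :=
  exists_genMax_of_injective hres hA ε hε0 hε2 r id Function.injective_id hcard

/-- **D5, counting half, for the dual numbers `k[ε] = DualNumber (ResidueField 𝒪)`** (with the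
`𝒪`-algebra structure `TrivSqZeroExt.algebra'` coming from `𝒪 → k`). -/
theorem exists_genMax_of_card_le_dualNumber [Finite (ResidueField 𝒪)] [IsNoetherianRing R]
    (hres : Function.Surjective (residue R ∘ algebraMap 𝒪 R)) (r : ℕ)
    (hcard : ∀ F : Finset (R →ₐ[𝒪] DualNumber (ResidueField 𝒪)),
      F.card ≤ Nat.card (ResidueField 𝒪) ^ r) :
    ∃ x : Fin r → R,
      maximalIdeal R = Ideal.span (Set.range x) ⊔ (maximalIdeal 𝒪).map (algebraMap 𝒪 R) :=
  exists_genMax_of_card_le hres (A := DualNumber (ResidueField 𝒪))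
    (fun a ha => by
      rw [TrivSqZeroExt.algebraMap_eq_inl', ResidueField.algebraMap_eq,
        (residue_eq_zero_iff a).mpr ha, TrivSqZeroExt.inl_zero])
    DualNumber.eps (fun h => by simpa using congrArg TrivSqZeroExt.snd h)
    DualNumber.eps_mul_eps r hcard

end Count

end Fermat.Agent.S56.TangentCount
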