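import Mathlib
import Fermat.Prelude.Def_GaloisRep_DeformationRingData
import Fermat.Prelude.Thm_IsLocalRing_isAdicComplete_of_module_finite
import Fermat.Agent.S53.MatRep
import Fermat.Agent.S56.TangentCount

/-!
# S56, brick D (deformation wiring): from a bound on lifts to `k[ε]` to generators of `𝔪_R`

(helper173.)  `𝒪` a complete DVR with finite residue field `k`, `ρbar` a residual representation,
`𝒟` ANY deformation condition, `DQ : DeformationRingData 𝒪 ρbar 𝒟`, `k[ε] := DualNumber k` with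
the Mathlib `𝒪`-algebra structure (`TrivSqZeroExt.algebra'`, `algebraMap a = inl (residue a)`).

* `LiftBound 𝒪 ρbar 𝒟 N` : every family of pairwise inequivalent, NON-CONSTANT lifts of `ρbar` to
  `k[ε]` of type `𝒟` has fewer than `N` members.  (Cohomology-free: this is what the Galois side
  proves with `N = |Selmer set|`; a lift is *constant* if it is a base change from `k`.)
* `genMax_of_liftBound` : if type `𝒟` passes from `DQ.ρ` to its base changes along SURJECTIVE
  `𝒪`-algebra maps `DQ.R → k[ε]` (`hbc`) and `LiftBound 𝒪 ρbar 𝒟 (|k| ^ r)` holds, then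
  `𝔪_{DQ.R} = (x₁, …, x_r) + 𝔪_𝒪 DQ.R` for some `x : Fin r → DQ.R` (= `Contract.GenMax`).

Proof: every `𝒪`-algebra map `φ : DQ.R → k[ε]` is local with `fst ∘ φ` the residue map; a
non-surjective one is the constant map; the surjective ones give pairwise inequivalent (by the
uniqueness clause of `universal`), non-constant lifts of type `𝒟`; so there are at most `|k| ^ r`
maps and `TangentCount.exists_genMax_of_card_le_dualNumber` applies.
-/

set_option autoImplicit false
set_option linter.style.haveILetI false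
set_option linter.unusedSectionVars false

open IsLocalRing

namespace Fermat.Agent.S56.TangentHom

open Fermat.Agent.S53.MatRep Fermat.Agent.S56.TangentCount

local notation "Γℚ" => (AlgebraicClosure ℚ ≃ₐ[ℚ] AlgebraicClosure ℚ)

/-! ### The dual numbers over the residue field as a test algebra -/

section Dual

variable (𝒪 : Type) [CommRing 𝒪] [IsLocalRing 𝒪]

theorem algebraMap_dual (a : 𝒪) :
    algebraMap 𝒪 (DualNumber (ResidueField 𝒪)) a = TrivSqZeroExt.inl (residue 𝒪 a) := by
  rw [TrivSqZeroExt.algebraMap_eq_inl', ResidueField.algebraMap_eq]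

instance isLocalHom_algebraMap_dual :
    IsLocalHom (algebraMap 𝒪 (DualNumber (ResidueField 𝒪))) := by
  refine ⟨fun a ha => ?_⟩
  rw [algebraMap_dual, TrivSqZeroExt.isUnit_iff_isUnit_fst, TrivSqZeroExt.fst_inl] at ha
  exact (isUnit_map_iff (residue 𝒪) a).mp ha

theorem mem_maximalIdeal_dual_iff {k : Type} [Field k] (x : DualNumber k) :
    x ∈ maximalIdeal (DualNumber k) ↔ x.fst = 0 := by
  rw [mem_maximalIdeal, mem_nonunits_iff, TrivSqZeroExt.isUnit_iff_isUnit_fst, isUnit_iff_ne_zero,
    not_not]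

theorem residue_surjective_dual :
    Function.Surjective (residue (DualNumber (ResidueField 𝒪)) ∘
      algebraMap 𝒪 (DualNumber (ResidueField 𝒪))) := by
  intro y
  obtain ⟨z, rfl⟩ := residue_surjective y
  obtain ⟨a, ha⟩ := residue_surjective z.fst
  refine ⟨a, ?_⟩
  rw [Function.comp_apply, ← sub_eq_zero, ← map_sub, residue_eq_zero_iff,
    mem_maximalIdeal_dual_iff, TrivSqZeroExt.fst_sub, algebraMap_dual, TrivSqZeroExt.fst_inl, ha,
    sub_self]

theorem isLocalHom_inlHom (k : Type) [Field k] : IsLocalHom (TrivSqZeroExt.inlHom k k) :=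
  ⟨fun x hx => by
    have h := TrivSqZeroExt.isUnit_iff_isUnit_fst.mp hx
    exact h⟩

/-- The ring endomorphism `a + b ε ↦ a` of the dual numbers. -/
noncomputable def constHom (k : Type) [Field k] : DualNumber k →+* DualNumber k :=
  (TrivSqZeroExt.inlHom k k).comp (TrivSqZeroExt.fstHom k k k : DualNumber k →+* k)

theorem constHom_apply {k : Type} [Field k] (x : DualNumber k) :
    constHom k x = TrivSqZeroExt.inl x.fst := rfl

theorem isLocalHom_constHom (k : Type) [Field k] : IsLocalHom (constHom k) :=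
  ⟨fun x hx => by
    rw [constHom_apply, TrivSqZeroExt.isUnit_iff_isUnit_fst, TrivSqZeroExt.fst_inl] at hx
    exact TrivSqZeroExt.isUnit_iff_isUnit_fst.mpr hx⟩

theorem constHom_comp_inlHom (k : Type) [Field k] :
    (constHom k).comp (TrivSqZeroExt.inlHom k k) = TrivSqZeroExt.inlHom k k :=
  RingHom.ext fun _ => rfl

/-- A lift to the dual numbers is *constant* if it is a base change from the residue field. -/
def IsConstLift {k : Type} [Field k] (ρ : GaloisRepAdic (DualNumber k)) : Prop :=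
  ∃ ρ₀ : GaloisRepAdic k,
    ρ.IsEquiv (ρ₀.baseChangeAlong (TrivSqZeroExt.inlHom k k) (isLocalHom_inlHom k))

/-- **(TB)** the cohomology-free tangent bound: every family of pairwise inequivalent,
non-constant lifts of `ρbar` to `k[ε]` of type `𝒟` has fewer than `N` members. -/
def LiftBound (ρbar : ResidualGaloisRep (ResidueField 𝒪))
    (𝒟 : ∀ ⦃A : Type⦄ [CommRing A] [IsLocalRing A] [Algebra 𝒪 A], GaloisRepAdic A → Prop)
    (N : ℕ) : Prop :=
  ∀ (n : ℕ) (ρ : Fin n → GaloisRepAdic (DualNumber (ResidueField 𝒪))),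
    (∀ i, 𝒟 (ρ i)) →
    (∀ i, (ρ i).residual.IsEquiv (ρbar.baseChangeAlong
      (ResidueField.map (algebraMap 𝒪 (DualNumber (ResidueField 𝒪)))))) →
    (∀ i j, (ρ i).IsEquiv (ρ j) → i = j) →
    (∀ i, ¬ IsConstLift (ρ i)) → n < N

end Dual

/-! ### `𝒪`-algebra maps into the dual numbers -/

section Homs

variable {𝒪 : Type} [CommRing 𝒪] [IsLocalRing 𝒪]
  {R : Type} [CommRing R] [IsLocalRing R] [Algebra 𝒪 R] [IsLocalHom (algebraMap 𝒪 R)]

/-- The first component of an `𝒪`-algebra map `R → k[ε]` is the residue map. -/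
theorem fst_algHom (hres : Function.Surjective (residue R ∘ algebraMap 𝒪 R))
    (φ : R →ₐ[𝒪] DualNumber (ResidueField 𝒪)) (x : R) :
    (φ x).fst = rho hres x := by
  obtain ⟨a, ha, hρ⟩ := exists_lift hres x
  have key : ∀ m ∈ maximalIdeal R, (φ m).fst = 0 := by
    intro m hm
    by_contra hne
    obtain ⟨o, ho⟩ := residue_surjective (R := 𝒪) (φ m).fst
    have ho_unit : IsUnit o := by
      by_contra h
      exact hne (by rw [← ho]; exact (residue_eq_zero_iff o).mpr h)
    have hu : IsUnit (m - algebraMap 𝒪 R o) := by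
      have h1 : IsUnit (algebraMap 𝒪 R o) := ho_unit.map _
      by_contra h
      have h2 : m - algebraMap 𝒪 R o ∈ maximalIdeal R := h
      have h3 : algebraMap 𝒪 R o ∈ maximalIdeal R := by
        have := sub_mem hm h2
        simpa using this
      exact h3 h1
    have hu' : IsUnit (φ (m - algebraMap 𝒪 R o)) := hu.map φ
    rw [TrivSqZeroExt.isUnit_iff_isUnit_fst, map_sub, AlgHom.commutes, TrivSqZeroExt.fst_sub,
      algebraMap_dual, TrivSqZeroExt.fst_inl, ho, sub_self] at hu'
    exact not_isUnit_zero hu'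
  have h1 : x = (x - algebraMap 𝒪 R a) + algebraMap 𝒪 R a := by ring
  rw [hρ]
  conv_lhs => rw [h1]
  rw [map_add, TrivSqZeroExt.fst_add, key _ ha, zero_add, AlgHom.commutes, algebraMap_dual,
    TrivSqZeroExt.fst_inl]

/-- Every `𝒪`-algebra map `R → k[ε]` is local. -/
theorem isLocalHom_algHom (hres : Function.Surjective (residue R ∘ algebraMap 𝒪 R))
    (φ : R →ₐ[𝒪] DualNumber (ResidueField 𝒪)) :
    IsLocalHom (φ : R →+* DualNumber (ResidueField 𝒪)) := by
  refine ⟨fun x hx => ?_⟩
  have h1 : (φ x).fst ≠ 0 := (TrivSqZeroExt.isUnit_iff_isUnit_fst.mp hx).ne_zero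
  rw [fst_algHom hres] at h1
  by_contra h
  exact h1 ((rho_eq_zero_iff hres x).mpr h)

/-- A non-surjective `𝒪`-algebra map `R → k[ε]` has no `ε`-part. -/
theorem snd_eq_zero_of_not_surjective (φ : R →ₐ[𝒪] DualNumber (ResidueField 𝒪))
    (hφ : ¬ Function.Surjective φ) (x : R) : (φ x).snd = 0 := by
  by_contra hb
  apply hφ
  intro y
  obtain ⟨o, ho⟩ := residue_surjective (R := 𝒪) (φ x).fst
  obtain ⟨u, hu⟩ := residue_surjective (R := 𝒪) y.fst
  obtain ⟨w, hw⟩ := residue_surjective (R := 𝒪) (y.snd / (φ x).snd)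
  refine ⟨algebraMap 𝒪 R u + algebraMap 𝒪 R w * (x - algebraMap 𝒪 R o), ?_⟩
  apply TrivSqZeroExt.ext
  · simp [algebraMap_dual, hu, ho]
  · simp [algebraMap_dual, hw, hb]

/-- There is at most one non-surjective `𝒪`-algebra map `R → k[ε]`. -/
theorem eq_of_not_surjective (hres : Function.Surjective (residue R ∘ algebraMap 𝒪 R))
    (φ φ' : R →ₐ[𝒪] DualNumber (ResidueField 𝒪))
    (hφ : ¬ Function.Surjective φ) (hφ' : ¬ Function.Surjective φ') : φ = φ' := by
  refine AlgHom.ext fun x => TrivSqZeroExt.ext ?_ ?_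
  · rw [fst_algHom hres, fst_algHom hres]
  · rw [snd_eq_zero_of_not_surjective φ hφ, snd_eq_zero_of_not_surjective φ' hφ']

/-- The constant part `a + b ε ↦ a` of an `𝒪`-algebra map `R → k[ε]`. -/
noncomputable def constPart (φ : R →ₐ[𝒪] DualNumber (ResidueField 𝒪)) :
    R →ₐ[𝒪] DualNumber (ResidueField 𝒪) where
  toRingHom := (constHom (ResidueField 𝒪)).comp (φ : R →+* DualNumber (ResidueField 𝒪))
  commutes' a := by
    show constHom (ResidueField 𝒪) (φ (algebraMap 𝒪 R a)) = _
    rw [AlgHom.commutes, algebraMap_dual, constHom_apply, TrivSqZeroExt.fst_inl]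

theorem constPart_coe (φ : R →ₐ[𝒪] DualNumber (ResidueField 𝒪)) :
    (constPart φ : R →+* DualNumber (ResidueField 𝒪))
      = (constHom (ResidueField 𝒪)).comp (φ : R →+* DualNumber (ResidueField 𝒪)) := rfl

theorem constPart_not_surjective (φ : R →ₐ[𝒪] DualNumber (ResidueField 𝒪)) :
    ¬ Function.Surjective (constPart φ) := by
  intro h
  obtain ⟨x, hx⟩ := h (TrivSqZeroExt.inr 1)
  have h1 : (constPart φ x).snd = 0 := rfl
  rw [hx, TrivSqZeroExt.snd_inr] at h1
  exact one_ne_zero h1

end Homs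

/-! ### The residual condition under base change -/

section Residual

variable {𝒪 : Type} [CommRing 𝒪] [IsLocalRing 𝒪]
  {R : Type} [CommRing R] [IsLocalRing R] [Algebra 𝒪 R] [IsLocalHom (algebraMap 𝒪 R)]
  {A : Type} [CommRing A] [IsLocalRing A] [Algebra 𝒪 A] [IsLocalHom (algebraMap 𝒪 A)]

/-- The residual condition of `DeformationRingData.universal` passes to base changes along local
`𝒪`-algebra maps. -/
theorem residual_baseChangeAlong_isEquiv (ρbar : ResidualGaloisRep (ResidueField 𝒪))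
    (ρ : GaloisRepAdic R)
    (h : ρ.residual.IsEquiv (ρbar.baseChangeAlong (ResidueField.map (algebraMap 𝒪 R))))
    (φ : R →ₐ[𝒪] A) (hφ : IsLocalHom (φ : R →+* A)) :
    (ρ.baseChangeAlong (φ : R →+* A) hφ).residual.IsEquiv
      (ρbar.baseChangeAlong (ResidueField.map (algebraMap 𝒪 A))) := by
  obtain ⟨b0⟩ := nonempty_basisRes ρbar
  obtain ⟨b, hb⟩ :=
    exists_basis_of_residual_isEquiv (ResidueField.map (algebraMap 𝒪 R)) ρbar b0 ρ h
  refine residual_isEquiv_of_mapMat_eq (ResidueField.map (algebraMap 𝒪 A)) ρbar b0 _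
    (baseChangeBasis (φ : R →+* A) hφ ρ b) ?_
  rw [matOfBasis_baseChangeAlong, ← mapMat_comp]
  haveI := hφ
  have h1 : (residue A).comp (φ : R →+* A)
      = (ResidueField.map (φ : R →+* A)).comp (residue R) :=
    RingHom.ext fun x => (ResidueField.map_residue (φ : R →+* A) x).symm
  rw [h1, mapMat_comp, hb, ← mapMat_comp]
  congr 1
  refine RingHom.ext fun y => ?_
  obtain ⟨a, rfl⟩ := residue_surjective y
  rw [RingHom.comp_apply, ResidueField.map_residue, ResidueField.map_residue,
    ResidueField.map_residue, RingHom.coe_coe, AlgHom.commutes]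

end Residual

/-! ### The main theorem -/

section Main

variable {𝒪 : Type} [CommRing 𝒪] [IsDomain 𝒪] [IsDiscreteValuationRing 𝒪]
  [IsAdicComplete (maximalIdeal 𝒪) 𝒪] [Finite (ResidueField 𝒪)]
  {ρbar : ResidualGaloisRep (ResidueField 𝒪)}
  {𝒟 : ∀ ⦃A : Type⦄ [CommRing A] [IsLocalRing A] [Algebra 𝒪 A], GaloisRepAdic A → Prop}

/-- **Brick D, core.**  If type `𝒟` passes from the universal deformation to its base changes
along surjective `𝒪`-algebra maps `DQ.R → k[ε]`, and there are fewer than `|k| ^ r` pairwise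
inequivalent non-constant lifts of `ρbar` to `k[ε]` of type `𝒟`, then the maximal ideal of
`DQ.R` is generated by `r` elements together with `𝔪_𝒪`. -/
theorem genMax_of_liftBound (DQ : GaloisRep.DeformationRingData 𝒪 ρbar 𝒟) (r : ℕ)
    (hbc : ∀ (φ : DQ.R →ₐ[𝒪] DualNumber (ResidueField 𝒪))
      (hφ : IsLocalHom (φ : DQ.R →+* DualNumber (ResidueField 𝒪))), Function.Surjective φ →
        𝒟 (DQ.ρ.baseChangeAlong (φ : DQ.R →+* DualNumber (ResidueField 𝒪)) hφ))
    (hTB : LiftBound 𝒪 ρbar 𝒟 (Nat.card (ResidueField 𝒪) ^ r)) :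
    ∃ x : Fin r → DQ.R,
      maximalIdeal DQ.R = Ideal.span (Set.range x) ⊔ (maximalIdeal 𝒪).map (algebraMap 𝒪 DQ.R) := by
  classical
  have hresR := DQ.residue_surjective
  haveI : Finite (DualNumber (ResidueField 𝒪)) :=
    inferInstanceAs (Finite (ResidueField 𝒪 × ResidueField 𝒪))
  haveI : IsNoetherianRing (DualNumber (ResidueField 𝒪)) := inferInstance
  haveI : IsAdicComplete (maximalIdeal (DualNumber (ResidueField 𝒪)))
      (DualNumber (ResidueField 𝒪)) :=
    IsLocalRing.isAdicComplete_of_module_finite (𝒪 := 𝒪)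
  refine exists_genMax_of_card_le_dualNumber hresR r fun F => ?_
  -- at most one non-surjective map
  set Fs : Finset (DQ.R →ₐ[𝒪] DualNumber (ResidueField 𝒪)) :=
    F.filter (fun φ : DQ.R →ₐ[𝒪] DualNumber (ResidueField 𝒪) =>
      Function.Surjective (φ : DQ.R → DualNumber (ResidueField 𝒪))) with hFs
  have hsplit : F.card ≤ Fs.card + 1 := by
    rw [← Finset.card_filter_add_card_filter_not (s := F)
      (fun φ : DQ.R →ₐ[𝒪] DualNumber (ResidueField 𝒪) =>
        Function.Surjective (φ : DQ.R → DualNumber (ResidueField 𝒪)))]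
    refine Nat.add_le_add_left (Finset.card_le_one.mpr fun a ha b hb => ?_) _
    exact eq_of_not_surjective hresR a b (Finset.mem_filter.mp ha).2 (Finset.mem_filter.mp hb).2
  -- the family of lifts attached to the surjective maps
  let e := Fs.equivFin.symm
  let φf : Fin Fs.card → (DQ.R →ₐ[𝒪] DualNumber (ResidueField 𝒪)) := fun i => (e i).1
  have hφsurj : ∀ i, Function.Surjective (φf i) := fun i => (Finset.mem_filter.mp (e i).2).2
  have hφloc : ∀ ψ : DQ.R →ₐ[𝒪] DualNumber (ResidueField 𝒪),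
      IsLocalHom (ψ : DQ.R →+* DualNumber (ResidueField 𝒪)) := isLocalHom_algHom hresR
  let ρf : Fin Fs.card →
      GaloisRepAdic (DualNumber (ResidueField 𝒪)) := fun i =>
    DQ.ρ.baseChangeAlong (φf i : DQ.R →+* DualNumber (ResidueField 𝒪)) (hφloc (φf i))
  have hD : ∀ i, 𝒟 (ρf i) := fun i => hbc (φf i) (hφloc (φf i)) (hφsurj i)
  have hresid : ∀ i, (ρf i).residual.IsEquiv (ρbar.baseChangeAlong
      (ResidueField.map (algebraMap 𝒪 (DualNumber (ResidueField 𝒪))))) := fun i =>
    residual_baseChangeAlong_isEquiv ρbar DQ.ρ DQ.residual_isEquiv (φf i) (hφloc (φf i))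
  have huniq : ∀ i (ψ : DQ.R →ₐ[𝒪] DualNumber (ResidueField 𝒪)),
      (DQ.ρ.baseChangeAlong (ψ : DQ.R →+* DualNumber (ResidueField 𝒪)) (hφloc ψ)).IsEquiv (ρf i) →
        ψ = φf i := by
    intro i ψ hequiv
    obtain ⟨φ0, -, hu⟩ := DQ.universal (DualNumber (ResidueField 𝒪)) (residue_surjective_dual 𝒪)
      (ρf i) (hD i) (hresid i)
    rw [hu ψ ⟨hφloc ψ, hequiv⟩, hu (φf i) ⟨hφloc (φf i), isEquiv_refl _⟩]
  have hinj : ∀ i j, (ρf i).IsEquiv (ρf j) → i = j := by
    intro i j h
    exact e.injective (Subtype.ext (huniq j (φf i) h))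
  have hnc : ∀ i, ¬ IsConstLift (ρf i) := by
    rintro i ⟨ρ₀, h⟩
    have hτ := isLocalHom_constHom (ResidueField 𝒪)
    have hι := isLocalHom_inlHom (ResidueField 𝒪)
    -- the constant part of `φf i` gives a lift equivalent to `ρf i`
    have h1 : (DQ.ρ.baseChangeAlong (constPart (φf i) : DQ.R →+* DualNumber (ResidueField 𝒪))
        (hφloc (constPart (φf i)))).IsEquiv
        ((ρf i).baseChangeAlong (constHom (ResidueField 𝒪)) hτ) :=
      isEquiv_symm (baseChangeAlong_comp_isEquiv _ (hφloc (φf i)) _ hτ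
        (hφloc (constPart (φf i))) DQ.ρ)
    have h2 : ((ρf i).baseChangeAlong (constHom (ResidueField 𝒪)) hτ).IsEquiv
        ((ρ₀.baseChangeAlong (TrivSqZeroExt.inlHom _ _) hι).baseChangeAlong
          (constHom (ResidueField 𝒪)) hτ) :=
      isEquiv_baseChangeAlong _ hτ h
    have hcomp : IsLocalHom ((constHom (ResidueField 𝒪)).comp
        (TrivSqZeroExt.inlHom (ResidueField 𝒪) (ResidueField 𝒪))) := by
      rw [constHom_comp_inlHom]; exact hι
    have h3 : ((ρ₀.baseChangeAlong (TrivSqZeroExt.inlHom _ _) hι).baseChangeAlong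
          (constHom (ResidueField 𝒪)) hτ).IsEquiv
        (ρ₀.baseChangeAlong (TrivSqZeroExt.inlHom _ _) hι) :=
      isEquiv_trans (baseChangeAlong_comp_isEquiv _ hι _ hτ hcomp ρ₀)
        (baseChangeAlong_congr_isEquiv (constHom_comp_inlHom _) hcomp hι ρ₀)
    have h4 := huniq i (constPart (φf i))
      (isEquiv_trans h1 (isEquiv_trans h2 (isEquiv_trans h3 (isEquiv_symm h))))
    exact constPart_not_surjective (φf i) (h4 ▸ hφsurj i)
  have hn := hTB _ ρf hD hresid hinj hnc
  omega

end Main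

end Fermat.Agent.S56.TangentHom
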