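import Mathlib
import Fermat.Prelude.Def_GaloisRep_DeformationRingData
import Fermat.Prelude.Thm_IsLocalRing_isAdicComplete_of_module_finite
import Fermat.Agent.S53.MatRep
import Fermat.Agent.S56.TangentCount
import Fermat.Agent.S56.TangentHom

/-!
# S56, brick D (the tangent space as a space of cocycles), matrix form

(helper173.)  `𝒪` a complete DVR with finite residue field `k`, `ρbar` a residual representation
with a basis `b0`, `M̄ := matOfBasisRes ρbar b0`, `𝒟` ANY deformation condition,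
`DQ : DeformationRingData 𝒪 ρbar 𝒟`, `k[ε] := DualNumber k` with the Mathlib `𝒪`-algebra structure.

`exists_tangent_subspace` : if type `𝒟` passes from the universal deformation to its base changes
along SURJECTIVE `𝒪`-algebra maps `DQ.R → k[ε]`, there are a `k`-subspace `C` of the functions
`Γℚ → M₂(k)` and `x : Fin (finrank k C) → DQ.R` such that

* `𝔪_{DQ.R} = (x) + 𝔪_𝒪 DQ.R`  (`Contract.GenMax 𝒪 DQ.R x` unfolded);
* every `c ∈ C` is a cocycle: `c (σ τ) = c σ * M̄ τ + M̄ σ * c τ`, of finite level;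
* an inner `c ∈ C` (`c σ = X * M̄ σ - M̄ σ * X`) is zero;
* for every non-zero `c ∈ C` there is a representation of type `𝒟` over `k[ε]` whose matrices in
  some basis are `M̄ σ + ε c σ`.

Proof: `T := Hom_𝒪 (𝔪_R / (𝔪_R² + 𝔪_𝒪 R), k)` is a finite-dimensional `k`-space; `ℓ ∈ T` gives the
`𝒪`-algebra map `tanHom ℓ : R → k[ε]`, `r ↦ ρ(r) + ℓ([r]) ε`, and every `𝒪`-algebra map is of
this form, so `𝔪_R` needs `finrank T` generators (`TangentCount`).  For a basis of the universal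
deformation lifting `b0` with matrices `M σ`, `ℓ ↦ (σ ↦ (ℓ [M σ i j])ᵢⱼ)` is `k`-linear; `C` is its
range.  It is injective because an inner cocycle gives a lift conjugate (by `1 + ε X`) to the
constant one, hence the same map by the uniqueness clause of `universal`.
-/

set_option autoImplicit false
set_option linter.style.haveILetI false
set_option linter.unusedSectionVars false

open IsLocalRing

namespace Fermat.Agent.S56.TangentDer

open Fermat.Agent.S53.MatRep Fermat.Agent.S56.TangentCount Fermat.Agent.S56.TangentHom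

local notation "Γℚ" => (AlgebraicClosure ℚ ≃ₐ[ℚ] AlgebraicClosure ℚ)

/-! ### Functionals on the cotangent space and `𝒪`-algebra maps to the dual numbers -/

section Alg

variable {𝒪 : Type} [CommRing 𝒪] [IsLocalRing 𝒪]
  {R : Type} [CommRing R] [IsLocalRing R] [Algebra 𝒪 R] [IsLocalHom (algebraMap 𝒪 R)]
  (hres : Function.Surjective (residue R ∘ algebraMap 𝒪 R))

theorem algebraMap_dual_eq_zero (a : 𝒪) (ha : a ∈ maximalIdeal 𝒪) :
    algebraMap 𝒪 (DualNumber (ResidueField 𝒪)) a = 0 := by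
  rw [algebraMap_dual, (residue_eq_zero_iff a).mpr ha, TrivSqZeroExt.inl_zero]

theorem iota_dual (c : ResidueField 𝒪) :
    iota (A := DualNumber (ResidueField 𝒪)) algebraMap_dual_eq_zero c = TrivSqZeroExt.inl c := by
  obtain ⟨a, rfl⟩ := residue_surjective c
  rw [iota_residue, algebraMap_dual]

/-- The `𝒪`-algebra map `R → k[ε]`, `r ↦ ρ(r) + ℓ([r]) ε`, of a functional `ℓ` on the cotangent
space. -/
noncomputable def tanHom (ℓ : (R ⧸ cotSub 𝒪 R) →ₗ[𝒪] ResidueField 𝒪) :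
    R →ₐ[𝒪] DualNumber (ResidueField 𝒪) :=
  homOfFunctional hres (A := DualNumber (ResidueField 𝒪)) algebraMap_dual_eq_zero
    DualNumber.eps DualNumber.eps_mul_eps ℓ

theorem tanHom_apply (ℓ : (R ⧸ cotSub 𝒪 R) →ₗ[𝒪] ResidueField 𝒪) (r : R) :
    tanHom hres ℓ r
      = TrivSqZeroExt.inl (rho hres r) + TrivSqZeroExt.inr (ℓ ((cotSub 𝒪 R).mkQ r)) := by
  unfold tanHom
  rw [homOfFunctional_apply, iota_dual, iota_dual]
  congr 1
  apply TrivSqZeroExt.ext <;> simp

theorem tanHom_fst (ℓ : (R ⧸ cotSub 𝒪 R) →ₗ[𝒪] ResidueField 𝒪) (r : R) :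
    (tanHom hres ℓ r).fst = rho hres r := by
  rw [tanHom_apply]; simp

theorem tanHom_snd (ℓ : (R ⧸ cotSub 𝒪 R) →ₗ[𝒪] ResidueField 𝒪) (r : R) :
    (tanHom hres ℓ r).snd = ℓ ((cotSub 𝒪 R).mkQ r) := by
  rw [tanHom_apply]; simp

theorem tanHom_injective : Function.Injective (tanHom (𝒪 := 𝒪) hres) := by
  intro ℓ ℓ' h
  refine LinearMap.ext fun v => ?_
  obtain ⟨r, rfl⟩ := (cotSub 𝒪 R).mkQ_surjective v
  rw [← tanHom_snd hres ℓ r, ← tanHom_snd hres ℓ' r, h]

theorem tanHom_surjective {ℓ : (R ⧸ cotSub 𝒪 R) →ₗ[𝒪] ResidueField 𝒪} (hℓ : ℓ ≠ 0) :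
    Function.Surjective (tanHom hres ℓ) := by
  by_contra hns
  apply hℓ
  refine LinearMap.ext fun v => ?_
  obtain ⟨r, rfl⟩ := (cotSub 𝒪 R).mkQ_surjective v
  rw [← tanHom_snd hres ℓ r, snd_eq_zero_of_not_surjective _ hns, LinearMap.zero_apply]

/-- The derivation identity for a functional on the cotangent space. -/
theorem functional_mul (ℓ : (R ⧸ cotSub 𝒪 R) →ₗ[𝒪] ResidueField 𝒪) (r r' : R) :
    ℓ ((cotSub 𝒪 R).mkQ (r * r'))
      = rho hres r * ℓ ((cotSub 𝒪 R).mkQ r') + rho hres r' * ℓ ((cotSub 𝒪 R).mkQ r) := by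
  obtain ⟨a, ha, hρ⟩ := exists_lift hres r
  obtain ⟨a', ha', hρ'⟩ := exists_lift hres r'
  rw [mkQ_mul r r' a a' ha ha', map_add, map_smul, map_smul, hρ, hρ', Algebra.smul_def,
    Algebra.smul_def, ResidueField.algebraMap_eq]

/-- The `ε`-part of an `𝒪`-algebra map `R → k[ε]`, as an `𝒪`-linear map. -/
noncomputable def sndLin (φ : R →ₐ[𝒪] DualNumber (ResidueField 𝒪)) : R →ₗ[𝒪] ResidueField 𝒪 where
  toFun r := (φ r).snd
  map_add' r r' := by rw [map_add, TrivSqZeroExt.snd_add]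
  map_smul' a r := by rw [map_smul, TrivSqZeroExt.snd_smul, RingHom.id_apply]

include hres in
theorem cotSub_le_ker_sndLin (φ : R →ₐ[𝒪] DualNumber (ResidueField 𝒪)) :
    cotSub 𝒪 R ≤ LinearMap.ker (sndLin φ) := by
  have hker : cotIdeal 𝒪 R ≤ RingHom.ker (φ : R →+* DualNumber (ResidueField 𝒪)) := by
    refine sup_le ?_ ?_
    · rw [pow_two, Ideal.mul_le]
      intro m hm m' hm'
      have h1 : (φ m).fst = 0 := by
        rw [fst_algHom hres, rho_eq_zero_iff]; exact hm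
      have h2 : (φ m').fst = 0 := by
        rw [fst_algHom hres, rho_eq_zero_iff]; exact hm'
      rw [RingHom.mem_ker, RingHom.coe_coe, map_mul]
      apply TrivSqZeroExt.ext <;> simp [h1, h2]
    · rw [Ideal.map_le_iff_le_comap]
      intro a ha
      rw [Ideal.mem_comap, RingHom.mem_ker, RingHom.coe_coe, AlgHom.commutes]
      exact algebraMap_dual_eq_zero a ha
  refine sup_le ?_ ?_
  · rintro _ ⟨a, rfl⟩
    show (φ (algebraMap 𝒪 R a)).snd = 0
    rw [AlgHom.commutes, algebraMap_dual, TrivSqZeroExt.snd_inl]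
  · intro x hx
    have hx' : x ∈ cotIdeal 𝒪 R := hx
    have h3 := hker hx'
    rw [RingHom.mem_ker, RingHom.coe_coe] at h3
    show (φ x).snd = 0
    rw [h3, TrivSqZeroExt.snd_zero]

/-- The functional on the cotangent space attached to an `𝒪`-algebra map `R → k[ε]`. -/
noncomputable def functionalOfHom (φ : R →ₐ[𝒪] DualNumber (ResidueField 𝒪)) :
    (R ⧸ cotSub 𝒪 R) →ₗ[𝒪] ResidueField 𝒪 :=
  (cotSub 𝒪 R).liftQ (sndLin φ) (cotSub_le_ker_sndLin hres φ)

theorem functionalOfHom_mkQ (φ : R →ₐ[𝒪] DualNumber (ResidueField 𝒪)) (r : R) :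
    functionalOfHom hres φ ((cotSub 𝒪 R).mkQ r) = (φ r).snd := rfl

/-- Every `𝒪`-algebra map `R → k[ε]` is `tanHom` of its functional. -/
theorem tanHom_functionalOfHom (φ : R →ₐ[𝒪] DualNumber (ResidueField 𝒪)) :
    tanHom hres (functionalOfHom hres φ) = φ := by
  refine AlgHom.ext fun r => TrivSqZeroExt.ext ?_ ?_
  · rw [tanHom_fst, fst_algHom hres]
  · rw [tanHom_snd, functionalOfHom_mkQ]

theorem functionalOfHom_injective : Function.Injective (functionalOfHom (𝒪 := 𝒪) hres) := by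
  intro φ φ' h
  rw [← tanHom_functionalOfHom hres φ, h, tanHom_functionalOfHom]

include hres in
/-- The space of functionals on the cotangent space is finite-dimensional over `k`. -/
theorem finite_functionals [IsNoetherianRing R] :
    Module.Finite (ResidueField 𝒪) ((R ⧸ cotSub 𝒪 R) →ₗ[𝒪] ResidueField 𝒪) := by
  obtain ⟨n, g, hg⟩ := Submodule.fg_iff_exists_fin_generating_family.mp
    (IsNoetherian.noetherian (maximalIdeal R))
  let ev : ((R ⧸ cotSub 𝒪 R) →ₗ[𝒪] ResidueField 𝒪) →ₗ[ResidueField 𝒪]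
      (Fin n → ResidueField 𝒪) :=
    { toFun := fun ℓ i => ℓ ((cotSub 𝒪 R).mkQ (g i))
      map_add' := fun _ _ => rfl
      map_smul' := fun _ _ => rfl }
  refine Module.Finite.of_injective ev ((injective_iff_map_eq_zero ev).mpr fun ℓ hℓ => ?_)
  have h0 : ∀ i, ℓ ((cotSub 𝒪 R).mkQ (g i)) = 0 := fun i => congrFun hℓ i
  have key : ∀ m ∈ Submodule.span R (Set.range g), ℓ ((cotSub 𝒪 R).mkQ m) = 0 := by
    intro m hm
    induction hm using Submodule.span_induction with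
    | mem x hx =>
      obtain ⟨i, rfl⟩ := hx
      exact h0 i
    | zero => rw [map_zero, map_zero]
    | add x y _ _ hx hy => rw [map_add, map_add, hx, hy, add_zero]
    | smul a x hx hx' =>
      have h1 : rho hres x = 0 := (rho_eq_zero_iff hres x).mpr (hg ▸ hx)
      rw [smul_eq_mul, functional_mul hres, hx', mul_zero, zero_add, h1, zero_mul]
  refine LinearMap.ext fun v => ?_
  obtain ⟨m, hm, rfl⟩ := exists_mem_maximalIdeal_mkQ_eq hres v
  rw [key m (hg ▸ hm), LinearMap.zero_apply]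

include hres in
/-- `𝔪_R` is generated by `dim_k T` elements together with `𝔪_𝒪`, `T` the space of functionals on
the cotangent space. -/
theorem exists_genMax_finrank [Finite (ResidueField 𝒪)] [IsNoetherianRing R] (r : ℕ)
    (hr : Module.finrank (ResidueField 𝒪) ((R ⧸ cotSub 𝒪 R) →ₗ[𝒪] ResidueField 𝒪) = r) :
    ∃ x : Fin r → R,
      maximalIdeal R = Ideal.span (Set.range x) ⊔ (maximalIdeal 𝒪).map (algebraMap 𝒪 R) := by
  haveI := finite_functionals (𝒪 := 𝒪) (R := R) hres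
  haveI : Finite ((R ⧸ cotSub 𝒪 R) →ₗ[𝒪] ResidueField 𝒪) :=
    Module.finite_of_finite (ResidueField 𝒪)
  refine exists_genMax_of_injective hres (A := DualNumber (ResidueField 𝒪))
    algebraMap_dual_eq_zero DualNumber.eps (fun h => by simpa using congrArg TrivSqZeroExt.snd h)
    DualNumber.eps_mul_eps r (functionalOfHom hres) (functionalOfHom_injective hres) ?_
  rw [← hr, Module.natCard_eq_pow_finrank (K := ResidueField 𝒪)]

end Alg

/-! ### Matrices over the dual numbers -/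

section Mat

variable {k : Type} [Field k]

theorem map_inl_mul_map_inl (A B : Matrix (Fin 2) (Fin 2) k) :
    A.map (TrivSqZeroExt.inl : k → DualNumber k) * B.map (TrivSqZeroExt.inl : k → DualNumber k)
      = (A * B).map (TrivSqZeroExt.inl : k → DualNumber k) := by
  ext i j <;> simp [Matrix.mul_apply, Fin.sum_univ_two]

theorem map_inl_mul_map_inr (A B : Matrix (Fin 2) (Fin 2) k) :
    A.map (TrivSqZeroExt.inl : k → DualNumber k) * B.map (TrivSqZeroExt.inr : k → DualNumber k)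
      = (A * B).map (TrivSqZeroExt.inr : k → DualNumber k) := by
  ext i j
  · simp [Matrix.mul_apply, Fin.sum_univ_two]
  · simp only [Matrix.mul_apply, Fin.sum_univ_two, Matrix.map_apply, TrivSqZeroExt.snd_add,
      TrivSqZeroExt.snd_mul, TrivSqZeroExt.fst_inl, TrivSqZeroExt.snd_inr, TrivSqZeroExt.fst_inr,
      TrivSqZeroExt.snd_inl, smul_eq_mul, MulOpposite.op_zero, zero_smul, add_zero]

theorem map_inr_mul_map_inl (A B : Matrix (Fin 2) (Fin 2) k) :
    A.map (TrivSqZeroExt.inr : k → DualNumber k) * B.map (TrivSqZeroExt.inl : k → DualNumber k)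
      = (A * B).map (TrivSqZeroExt.inr : k → DualNumber k) := by
  ext i j <;> simp [Matrix.mul_apply, Fin.sum_univ_two]

theorem map_inr_mul_map_inr (A B : Matrix (Fin 2) (Fin 2) k) :
    A.map (TrivSqZeroExt.inr : k → DualNumber k) * B.map (TrivSqZeroExt.inr : k → DualNumber k)
      = 0 := by
  ext i j <;> simp [Matrix.mul_apply]

theorem map_inr_sub (A B : Matrix (Fin 2) (Fin 2) k) :
    (A - B).map (TrivSqZeroExt.inr : k → DualNumber k)
      = A.map (TrivSqZeroExt.inr : k → DualNumber k)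
        - B.map (TrivSqZeroExt.inr : k → DualNumber k) := by
  ext i j <;> simp

theorem map_inr_zero :
    (0 : Matrix (Fin 2) (Fin 2) k).map (TrivSqZeroExt.inr : k → DualNumber k) = 0 := by
  ext i j <;> simp

/-- Conjugation by `1 + ε X` adds the inner cocycle `X A - A X`. -/
theorem conj_one_add_eps (A X : Matrix (Fin 2) (Fin 2) k) :
    (1 + X.map (TrivSqZeroExt.inr : k → DualNumber k))
        * A.map (TrivSqZeroExt.inl : k → DualNumber k)
      = (A.map (TrivSqZeroExt.inl : k → DualNumber k)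
          + (X * A - A * X).map (TrivSqZeroExt.inr : k → DualNumber k))
        * (1 + X.map (TrivSqZeroExt.inr : k → DualNumber k)) := by
  rw [add_mul, one_mul, map_inr_mul_map_inl, mul_add, mul_one, add_mul, map_inl_mul_map_inr,
    map_inr_mul_map_inr, map_inr_sub]
  abel

theorem isUnit_det_one_add_eps (X : Matrix (Fin 2) (Fin 2) k) :
    IsUnit (1 + X.map (TrivSqZeroExt.inr : k → DualNumber k)).det := by
  refine Matrix.isUnit_det_of_right_inverse
    (B := 1 - X.map (TrivSqZeroExt.inr : k → DualNumber k)) ?_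
  rw [add_mul, one_mul, mul_sub, mul_one, map_inr_mul_map_inr]
  abel

end Mat

/-! ### The cocycle of a functional -/

section Der

variable {𝒪 : Type} [CommRing 𝒪] [IsLocalRing 𝒪]
  {R : Type} [CommRing R] [IsLocalRing R] [Algebra 𝒪 R] [IsLocalHom (algebraMap 𝒪 R)]
  (hres : Function.Surjective (residue R ∘ algebraMap 𝒪 R))
  (M : Γℚ →* Matrix (Fin 2) (Fin 2) R)

/-- `ℓ ↦ (σ ↦ (ℓ [M σ i j])ᵢⱼ)`, a `k`-linear map from the functionals on the cotangent space to
the matrix-valued functions on the Galois group. -/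
noncomputable def derLin :
    ((R ⧸ cotSub 𝒪 R) →ₗ[𝒪] ResidueField 𝒪) →ₗ[ResidueField 𝒪]
      (Γℚ → Matrix (Fin 2) (Fin 2) (ResidueField 𝒪)) where
  toFun ℓ σ := Matrix.of fun i j => ℓ ((cotSub 𝒪 R).mkQ (M σ i j))
  map_add' _ _ := rfl
  map_smul' _ _ := rfl

theorem derLin_apply (ℓ : (R ⧸ cotSub 𝒪 R) →ₗ[𝒪] ResidueField 𝒪) (σ : Γℚ) (i j : Fin 2) :
    derLin (𝒪 := 𝒪) M ℓ σ i j = ℓ ((cotSub 𝒪 R).mkQ (M σ i j)) := rfl

variable {M} {Mbar : Γℚ → Matrix (Fin 2) (Fin 2) (ResidueField 𝒪)}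

/-- The cocycle identity. -/
theorem derLin_mul (hM : ∀ σ i j, rho hres (M σ i j) = Mbar σ i j)
    (ℓ : (R ⧸ cotSub 𝒪 R) →ₗ[𝒪] ResidueField 𝒪) (σ τ : Γℚ) :
    derLin (𝒪 := 𝒪) M ℓ (σ * τ)
      = derLin (𝒪 := 𝒪) M ℓ σ * Mbar τ + Mbar σ * derLin (𝒪 := 𝒪) M ℓ τ := by
  ext i j
  rw [derLin_apply, map_mul, Matrix.mul_apply, map_sum, map_sum, Matrix.add_apply,
    Matrix.mul_apply, Matrix.mul_apply, ← Finset.sum_add_distrib]
  refine Finset.sum_congr rfl fun m _ => ?_
  rw [functional_mul hres, hM, hM, derLin_apply, derLin_apply]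
  ring

/-- The cocycle vanishes where the matrices are trivial modulo `𝔪_R ^ 2`. -/
theorem derLin_eq_zero (ℓ : (R ⧸ cotSub 𝒪 R) →ₗ[𝒪] ResidueField 𝒪) (σ : Γℚ)
    (h : ∀ i j, M σ i j - (1 : Matrix (Fin 2) (Fin 2) R) i j ∈ maximalIdeal R ^ 2) :
    derLin (𝒪 := 𝒪) M ℓ σ = 0 := by
  ext i j
  rw [derLin_apply, Matrix.zero_apply]
  have h1 : (cotSub 𝒪 R).mkQ (M σ i j - (1 : Matrix (Fin 2) (Fin 2) R) i j) = 0 := by
    rw [Submodule.mkQ_apply, Submodule.Quotient.mk_eq_zero]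
    exact mem_cotSub_of_mem_cotIdeal (Ideal.mem_sup_left (h i j))
  have h2 : (cotSub 𝒪 R).mkQ ((1 : Matrix (Fin 2) (Fin 2) R) i j) = 0 := by
    rw [Matrix.one_apply]
    split_ifs
    · exact mkQ_one
    · exact map_zero _
  rw [map_sub, h2, sub_zero] at h1
  rw [h1, map_zero]

/-- The matrices of the base change along `tanHom ℓ`. -/
theorem mapMat_tanHom (hM : ∀ σ i j, rho hres (M σ i j) = Mbar σ i j)
    (ℓ : (R ⧸ cotSub 𝒪 R) →ₗ[𝒪] ResidueField 𝒪) (σ : Γℚ) :
    mapMat (tanHom hres ℓ : R →+* DualNumber (ResidueField 𝒪)) M σ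
      = (Mbar σ).map (TrivSqZeroExt.inl : ResidueField 𝒪 → DualNumber (ResidueField 𝒪))
        + (derLin (𝒪 := 𝒪) M ℓ σ).map
            (TrivSqZeroExt.inr : ResidueField 𝒪 → DualNumber (ResidueField 𝒪)) := by
  refine Matrix.ext fun i j => ?_
  rw [mapMat_apply, RingHom.coe_coe, tanHom_apply, hM, Matrix.add_apply, Matrix.map_apply,
    Matrix.map_apply, derLin_apply]

end Der

/-! ### The main theorem -/

section Main

variable {𝒪 : Type} [CommRing 𝒪] [IsDomain 𝒪] [IsDiscreteValuationRing 𝒪]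
  [IsAdicComplete (maximalIdeal 𝒪) 𝒪] [Finite (ResidueField 𝒪)]
  {ρbar : ResidualGaloisRep (ResidueField 𝒪)}
  {𝒟 : ∀ ⦃A : Type⦄ [CommRing A] [IsLocalRing A] [Algebra 𝒪 A], GaloisRepAdic A → Prop}

/-- **Brick D, the tangent space as a space of cocycles (matrix form).** -/
theorem exists_tangent_subspace (DQ : GaloisRep.DeformationRingData 𝒪 ρbar 𝒟)
    (b0 : Module.Basis (Fin 2) (ResidueField 𝒪) ρbar.V)
    (hbc : ∀ (φ : DQ.R →ₐ[𝒪] DualNumber (ResidueField 𝒪))
      (hφ : IsLocalHom (φ : DQ.R →+* DualNumber (ResidueField 𝒪))), Function.Surjective φ →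
        𝒟 (DQ.ρ.baseChangeAlong (φ : DQ.R →+* DualNumber (ResidueField 𝒪)) hφ)) :
    ∃ (C : Submodule (ResidueField 𝒪) (Γℚ → Matrix (Fin 2) (Fin 2) (ResidueField 𝒪)))
      (x : Fin (Module.finrank (ResidueField 𝒪) C) → DQ.R),
      maximalIdeal DQ.R
        = Ideal.span (Set.range x) ⊔ (maximalIdeal 𝒪).map (algebraMap 𝒪 DQ.R) ∧
      (∀ c ∈ C, ∀ σ τ : Γℚ,
        c (σ * τ) = c σ * matOfBasisRes ρbar b0 τ + matOfBasisRes ρbar b0 σ * c τ) ∧
      (∀ c ∈ C, ∃ L : IntermediateField ℚ (AlgebraicClosure ℚ), FiniteDimensional ℚ L ∧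
        ∀ σ : Γℚ, (∀ x ∈ L, σ x = x) → c σ = 0) ∧
      (∀ c ∈ C, (∃ X : Matrix (Fin 2) (Fin 2) (ResidueField 𝒪), ∀ σ : Γℚ,
        c σ = X * matOfBasisRes ρbar b0 σ - matOfBasisRes ρbar b0 σ * X) → c = 0) ∧
      (∀ c ∈ C, c ≠ 0 → ∃ ρ : GaloisRepAdic (DualNumber (ResidueField 𝒪)), 𝒟 ρ ∧
        ∃ bb : Module.Basis (Fin 2) (DualNumber (ResidueField 𝒪)) ρ.V, ∀ σ : Γℚ,
          matOfBasis ρ bb σ
            = (matOfBasisRes ρbar b0 σ).map
                (TrivSqZeroExt.inl : ResidueField 𝒪 → DualNumber (ResidueField 𝒪))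
              + (c σ).map
                (TrivSqZeroExt.inr : ResidueField 𝒪 → DualNumber (ResidueField 𝒪))) := by
  classical
  have hresR := DQ.residue_surjective
  haveI : Finite (DualNumber (ResidueField 𝒪)) :=
    inferInstanceAs (Finite (ResidueField 𝒪 × ResidueField 𝒪))
  haveI : IsNoetherianRing (DualNumber (ResidueField 𝒪)) := inferInstance
  haveI : IsAdicComplete (maximalIdeal (DualNumber (ResidueField 𝒪)))
      (DualNumber (ResidueField 𝒪)) :=
    IsLocalRing.isAdicComplete_of_module_finite (𝒪 := 𝒪)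
  -- a basis of the universal deformation lifting `b0`
  obtain ⟨b, hb⟩ := exists_basis_of_residual_isEquiv (ResidueField.map (algebraMap 𝒪 DQ.R)) ρbar b0
    DQ.ρ DQ.residual_isEquiv
  have hM : ∀ σ i j, rho hresR (matOfBasis DQ.ρ b σ i j) = matOfBasisRes ρbar b0 σ i j := by
    intro σ i j
    have h1 : residue DQ.R (matOfBasis DQ.ρ b σ i j)
        = ResidueField.map (algebraMap 𝒪 DQ.R) (matOfBasisRes ρbar b0 σ i j) := by
      have h2 := congrFun (congrFun (DFunLike.congr_fun hb σ) i) j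
      exact h2
    simp only [rho, RingHom.comp_apply, RingHom.coe_coe]
    rw [RingEquiv.symm_apply_eq]
    exact h1
  have hloc : ∀ ψ : DQ.R →ₐ[𝒪] DualNumber (ResidueField 𝒪),
      IsLocalHom (ψ : DQ.R →+* DualNumber (ResidueField 𝒪)) := isLocalHom_algHom hresR
  -- matrices of the base change along `tanHom ℓ`
  have hmat : ∀ (ℓ : (DQ.R ⧸ cotSub 𝒪 DQ.R) →ₗ[𝒪] ResidueField 𝒪) (σ : Γℚ),
      matOfBasis (DQ.ρ.baseChangeAlong (tanHom hresR ℓ : DQ.R →+* DualNumber (ResidueField 𝒪))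
          (hloc _)) (baseChangeBasis _ (hloc _) DQ.ρ b) σ
        = (matOfBasisRes ρbar b0 σ).map
            (TrivSqZeroExt.inl : ResidueField 𝒪 → DualNumber (ResidueField 𝒪))
          + (derLin (𝒪 := 𝒪) (matOfBasis DQ.ρ b) ℓ σ).map
            (TrivSqZeroExt.inr : ResidueField 𝒪 → DualNumber (ResidueField 𝒪)) := by
    intro ℓ σ
    rw [matOfBasis_baseChangeAlong, mapMat_tanHom hresR hM]
  -- inner cocycles come from the zero functional only
  have hinner : ∀ (ℓ : (DQ.R ⧸ cotSub 𝒪 DQ.R) →ₗ[𝒪] ResidueField 𝒪)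
      (X : Matrix (Fin 2) (Fin 2) (ResidueField 𝒪)),
      (∀ σ : Γℚ, derLin (𝒪 := 𝒪) (matOfBasis DQ.ρ b) ℓ σ
        = X * matOfBasisRes ρbar b0 σ - matOfBasisRes ρbar b0 σ * X) → ℓ = 0 := by
    intro ℓ X hX
    by_contra hℓ
    have hD : 𝒟 (DQ.ρ.baseChangeAlong (tanHom hresR ℓ : DQ.R →+* DualNumber (ResidueField 𝒪))
        (hloc _)) := hbc _ (hloc _) (tanHom_surjective hresR hℓ)
    have hresid := residual_baseChangeAlong_isEquiv ρbar DQ.ρ DQ.residual_isEquiv
      (tanHom hresR ℓ) (hloc _)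
    obtain ⟨φ0, -, hu⟩ := DQ.universal (DualNumber (ResidueField 𝒪)) (residue_surjective_dual 𝒪)
      _ hD hresid
    have hequiv : (DQ.ρ.baseChangeAlong
        (tanHom hresR (0 : (DQ.R ⧸ cotSub 𝒪 DQ.R) →ₗ[𝒪] ResidueField 𝒪) :
          DQ.R →+* DualNumber (ResidueField 𝒪)) (hloc _)).IsEquiv
        (DQ.ρ.baseChangeAlong (tanHom hresR ℓ : DQ.R →+* DualNumber (ResidueField 𝒪))
          (hloc _)) := by
      rw [isEquiv_iff_of_bases _ _ (baseChangeBasis _ (hloc _) DQ.ρ b)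
        (baseChangeBasis _ (hloc _) DQ.ρ b)]
      refine ⟨1 + X.map (TrivSqZeroExt.inr : ResidueField 𝒪 → DualNumber (ResidueField 𝒪)),
        isUnit_det_one_add_eps X, fun σ => ?_⟩
      rw [hmat, hmat, hX σ, map_zero, Pi.zero_apply, map_inr_zero, add_zero]
      exact conj_one_add_eps _ X
    have h0 := hu (tanHom hresR 0) ⟨hloc _, hequiv⟩
    have h1 := hu (tanHom hresR ℓ) ⟨hloc _, isEquiv_refl _⟩
    exact hℓ (tanHom_injective hresR (h1.trans h0.symm))
  have hinj : Function.Injective (derLin (𝒪 := 𝒪) (matOfBasis DQ.ρ b)) := by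
    refine (injective_iff_map_eq_zero _).mpr fun ℓ hℓ => hinner ℓ 0 fun σ => ?_
    rw [hℓ, Pi.zero_apply, zero_mul, mul_zero, sub_zero]
  -- the number of generators
  have hfin : Module.finrank (ResidueField 𝒪)
      ((DQ.R ⧸ cotSub 𝒪 DQ.R) →ₗ[𝒪] ResidueField 𝒪)
        = Module.finrank (ResidueField 𝒪)
          (LinearMap.range (derLin (𝒪 := 𝒪) (matOfBasis DQ.ρ b))) :=
    (LinearEquiv.ofInjective _ hinj).finrank_eq
  obtain ⟨x, hx⟩ := exists_genMax_finrank hresR _ hfin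
  refine ⟨LinearMap.range (derLin (𝒪 := 𝒪) (matOfBasis DQ.ρ b)), x, hx, ?_, ?_, ?_, ?_⟩
  · rintro _ ⟨ℓ, rfl⟩ σ τ
    exact derLin_mul hresR hM ℓ σ τ
  · rintro _ ⟨ℓ, rfl⟩
    obtain ⟨L, hL, h⟩ := isContMat_matOfBasis DQ.ρ b 2
    exact ⟨L, hL, fun σ hσ => derLin_eq_zero ℓ σ (h σ hσ)⟩
  · rintro _ ⟨ℓ, rfl⟩ ⟨X, hX⟩
    rw [hinner ℓ X hX, map_zero]
  · rintro _ ⟨ℓ, rfl⟩ hc
    have hℓ : ℓ ≠ 0 := fun h => hc (by rw [h, map_zero])
    exact ⟨_, hbc _ (hloc _) (tanHom_surjective hresR hℓ), baseChangeBasis _ (hloc _) DQ.ρ b,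
      hmat ℓ⟩

end Main

end Fermat.Agent.S56.TangentDer
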