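import Mathlib
import Fermat.Agent.S56.Contract
import Fermat.Agent.S56.TangentDer

/-!
# S56, brick D exit: (Sel) in matrix form gives the generation statement

(helper173.)  Notation as in `TangentDer`: `k := ResidueField 𝒪`, `k[ε] := DualNumber k` with the
Mathlib `𝒪`-algebra structure, `M̄ := matOfBasisRes ρbar b0` for a basis `b0` of `ρbar.V`.

* `SelMat 𝒪 ρbar b0 𝒟 r` : **(Sel), matrix form.**  Every FINITE-DIMENSIONAL `k`-subspace `C` of
  the functions `Γℚ → M₂(k)` such that every `c ∈ C` is a cocycle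
  (`c (σ τ) = c σ * M̄ τ + M̄ σ * c τ`) of finite level, no non-zero `c ∈ C` is inner
  (`c σ = X * M̄ σ - M̄ σ * X`), and every non-zero `c ∈ C` is the `ε`-part of a representation of
  type `𝒟` over `k[ε]` (matrices `M̄ σ + ε c σ` in some basis), has `finrank k C ≤ r`.
* `exists_tangent_subspace_fin` : **(Tan), matrix form**, with `Module.Finite k C`.
* `genMax_of_selMat` : (Tan) ∘ (Sel): `SelMat 𝒪 ρbar b0 𝒟 r` (+ `hbc`: type `𝒟` passes to the
  base changes of `DQ.ρ` along surjective `𝒪`-algebra maps `DQ.R → k[ε]`) gives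
  `∃ x : Fin r → DQ.R, Contract.GenMax 𝒪 DQ.R x`.
* `SelOrdStatement`, `SelFlatStatement` : the Galois-side statements (Taylor–Wiles primes with the
  bound `SelMat`), and `genOrd_of_sel`, `genFlat_of_sel` : they give `Contract.GenOrdStatement`,
  `Contract.GenFlatStatement` (modulo the base-change hypothesis).
-/

set_option autoImplicit false
set_option linter.style.haveILetI false
set_option linter.unusedSectionVars false

open IsLocalRing

namespace Fermat.Agent.S56.TangentSel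

open Fermat.Agent.S53.MatRep Fermat.Agent.S56.TangentCount Fermat.Agent.S56.TangentHom
  Fermat.Agent.S56.TangentDer

local notation "Γℚ" => (AlgebraicClosure ℚ ≃ₐ[ℚ] AlgebraicClosure ℚ)

/-- Padding a finite family by zeros does not change the ideal it spans. -/
theorem exists_span_range_eq_of_le {R : Type*} [CommRing R] {n r : ℕ} (hnr : n ≤ r)
    (x : Fin n → R) :
    ∃ x' : Fin r → R, Ideal.span (Set.range x') = Ideal.span (Set.range x) := by
  classical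
  refine ⟨fun j => if h : (j : ℕ) < n then x ⟨j, h⟩ else 0, le_antisymm ?_ ?_⟩
  · rw [Ideal.span_le]
    rintro _ ⟨j, rfl⟩
    dsimp only
    split_ifs with h
    · exact Ideal.subset_span ⟨_, rfl⟩
    · exact zero_mem _
  · rw [Ideal.span_le]
    rintro _ ⟨i, rfl⟩
    refine Ideal.subset_span ⟨⟨i, lt_of_lt_of_le i.2 hnr⟩, ?_⟩
    dsimp only
    rw [dif_pos i.2]

/-- **(Sel), matrix form.**  Every finite-dimensional `k`-space `C` of cocycles
`c : Γℚ → M₂(k)` (`c (σ τ) = c σ * M̄ τ + M̄ σ * c τ`, finite level) without non-zero inner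
elements, all of whose non-zero elements are the `ε`-part of a representation of type `𝒟` over
`k[ε]`, has dimension at most `r`. -/
def SelMat (𝒪 : Type) [CommRing 𝒪] [IsLocalRing 𝒪] (ρbar : ResidualGaloisRep (ResidueField 𝒪))
    (b0 : Module.Basis (Fin 2) (ResidueField 𝒪) ρbar.V)
    (𝒟 : ∀ ⦃A : Type⦄ [CommRing A] [IsLocalRing A] [Algebra 𝒪 A], GaloisRepAdic A → Prop)
    (r : ℕ) : Prop :=
  ∀ C : Submodule (ResidueField 𝒪) (Γℚ → Matrix (Fin 2) (Fin 2) (ResidueField 𝒪)),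
    Module.Finite (ResidueField 𝒪) C →
    (∀ c ∈ C, ∀ σ τ : Γℚ,
      c (σ * τ) = c σ * matOfBasisRes ρbar b0 τ + matOfBasisRes ρbar b0 σ * c τ) →
    (∀ c ∈ C, ∃ L : IntermediateField ℚ (AlgebraicClosure ℚ), FiniteDimensional ℚ L ∧
      ∀ σ : Γℚ, (∀ x ∈ L, σ x = x) → c σ = 0) →
    (∀ c ∈ C, (∃ X : Matrix (Fin 2) (Fin 2) (ResidueField 𝒪), ∀ σ : Γℚ,
      c σ = X * matOfBasisRes ρbar b0 σ - matOfBasisRes ρbar b0 σ * X) → c = 0) →
    (∀ c ∈ C, c ≠ 0 → ∃ ρ : GaloisRepAdic (DualNumber (ResidueField 𝒪)), 𝒟 ρ ∧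
      ∃ bb : Module.Basis (Fin 2) (DualNumber (ResidueField 𝒪)) ρ.V, ∀ σ : Γℚ,
        matOfBasis ρ bb σ
          = (matOfBasisRes ρbar b0 σ).map
              (TrivSqZeroExt.inl : ResidueField 𝒪 → DualNumber (ResidueField 𝒪))
            + (c σ).map
              (TrivSqZeroExt.inr : ResidueField 𝒪 → DualNumber (ResidueField 𝒪))) →
    Module.finrank (ResidueField 𝒪) C ≤ r

theorem SelMat.mono {𝒪 : Type} [CommRing 𝒪] [IsLocalRing 𝒪]
    {ρbar : ResidualGaloisRep (ResidueField 𝒪)}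
    {b0 : Module.Basis (Fin 2) (ResidueField 𝒪) ρbar.V}
    {𝒟 : ∀ ⦃A : Type⦄ [CommRing A] [IsLocalRing A] [Algebra 𝒪 A], GaloisRepAdic A → Prop}
    {r r' : ℕ} (h : SelMat 𝒪 ρbar b0 𝒟 r) (hrr : r ≤ r') : SelMat 𝒪 ρbar b0 𝒟 r' :=
  fun C hC h1 h2 h3 h4 => le_trans (h C hC h1 h2 h3 h4) hrr

section Main

variable {𝒪 : Type} [CommRing 𝒪] [IsDomain 𝒪] [IsDiscreteValuationRing 𝒪]
  [IsAdicComplete (maximalIdeal 𝒪) 𝒪] [Finite (ResidueField 𝒪)]
  {ρbar : ResidualGaloisRep (ResidueField 𝒪)}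
  {𝒟 : ∀ ⦃A : Type⦄ [CommRing A] [IsLocalRing A] [Algebra 𝒪 A], GaloisRepAdic A → Prop}

/-- **Brick D, the tangent space as a FINITE-DIMENSIONAL space of cocycles (matrix form).**
`TangentDer.exists_tangent_subspace` together with `Module.Finite k C`. -/
theorem exists_tangent_subspace_fin (DQ : GaloisRep.DeformationRingData 𝒪 ρbar 𝒟)
    (b0 : Module.Basis (Fin 2) (ResidueField 𝒪) ρbar.V)
    (hbc : ∀ (φ : DQ.R →ₐ[𝒪] DualNumber (ResidueField 𝒪))
      (hφ : IsLocalHom (φ : DQ.R →+* DualNumber (ResidueField 𝒪))), Function.Surjective φ →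
        𝒟 (DQ.ρ.baseChangeAlong (φ : DQ.R →+* DualNumber (ResidueField 𝒪)) hφ)) :
    ∃ (C : Submodule (ResidueField 𝒪) (Γℚ → Matrix (Fin 2) (Fin 2) (ResidueField 𝒪)))
      (x : Fin (Module.finrank (ResidueField 𝒪) C) → DQ.R),
      Module.Finite (ResidueField 𝒪) C ∧
      maximalIdeal DQ.R
        = Ideal.span (Set.range x) ⊔ (maximalIdeal 𝒪).map (algebraMap 𝒪 DQ.R) ∧
      (∀ c ∈ C, ∀ σ τ : Γℚ,
        c (σ * τ) = c σ * matOfBasisRes ρbar b0 τ + matOfBasisRes ρbar b0 σ * c τ) ∧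
      (∀ c ∈ C, ∃ L : IntermediateField ℚ (AlgebraicClosure ℚ), FiniteDimensional ℚ L ∧
        ∀ σ : Γℚ, (∀ x ∈ L, σ x = x) → c σ = 0) ∧
      (∀ c ∈ C, (∃ X : Matrix (Fin 2) (Fin 2) (ResidueField 𝒪), ∀ σ : Γℚ,
        c σ = X * matOfBasisRes ρbar b0 σ - matOfBasisRes ρbar b0 σ * X) → c = 0) ∧
      (∀ c ∈ C, c ≠ 0 → ∃ ρ : GaloisRepAdic (DualNumber (ResidueField 𝒪)), 𝒟 ρ ∧
        ∃ bb : Module.Basis (Fin 2) (DualNumber (ResidueField 𝒪)) ρ.V, ∀ σ : Γℚ,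
          matOfBasis ρ bb σ
            = (matOfBasisRes ρbar b0 σ).map
                (TrivSqZeroExt.inl : ResidueField 𝒪 → DualNumber (ResidueField 𝒪))
              + (c σ).map
                (TrivSqZeroExt.inr : ResidueField 𝒪 → DualNumber (ResidueField 𝒪))) := by
  classical
  have hresR := DQ.residue_surjective
  haveI : Finite (DualNumber (ResidueField 𝒪)) :=
    inferInstanceAs (Finite (ResidueField 𝒪 × ResidueField 𝒪))
  haveI : IsNoetherianRing (DualNumber (ResidueField 𝒪)) := inferInstance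
  haveI : IsAdicComplete (maximalIdeal (DualNumber (ResidueField 𝒪)))
      (DualNumber (ResidueField 𝒪)) :=
    IsLocalRing.isAdicComplete_of_module_finite (𝒪 := 𝒪)
  -- a basis of the universal deformation lifting `b0`
  obtain ⟨b, hb⟩ := exists_basis_of_residual_isEquiv (ResidueField.map (algebraMap 𝒪 DQ.R)) ρbar b0
    DQ.ρ DQ.residual_isEquiv
  have hM : ∀ σ i j, rho hresR (matOfBasis DQ.ρ b σ i j) = matOfBasisRes ρbar b0 σ i j := by
    intro σ i j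
    have h1 : residue DQ.R (matOfBasis DQ.ρ b σ i j)
        = ResidueField.map (algebraMap 𝒪 DQ.R) (matOfBasisRes ρbar b0 σ i j) := by
      have h2 := congrFun (congrFun (DFunLike.congr_fun hb σ) i) j
      exact h2
    simp only [rho, RingHom.comp_apply, RingHom.coe_coe]
    rw [RingEquiv.symm_apply_eq]
    exact h1
  have hloc : ∀ ψ : DQ.R →ₐ[𝒪] DualNumber (ResidueField 𝒪),
      IsLocalHom (ψ : DQ.R →+* DualNumber (ResidueField 𝒪)) := isLocalHom_algHom hresR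
  -- matrices of the base change along `tanHom ℓ`
  have hmat : ∀ (ℓ : (DQ.R ⧸ cotSub 𝒪 DQ.R) →ₗ[𝒪] ResidueField 𝒪) (σ : Γℚ),
      matOfBasis (DQ.ρ.baseChangeAlong (tanHom hresR ℓ : DQ.R →+* DualNumber (ResidueField 𝒪))
          (hloc _)) (baseChangeBasis _ (hloc _) DQ.ρ b) σ
        = (matOfBasisRes ρbar b0 σ).map
            (TrivSqZeroExt.inl : ResidueField 𝒪 → DualNumber (ResidueField 𝒪))
          + (derLin (𝒪 := 𝒪) (matOfBasis DQ.ρ b) ℓ σ).map
            (TrivSqZeroExt.inr : ResidueField 𝒪 → DualNumber (ResidueField 𝒪)) := by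
    intro ℓ σ
    rw [matOfBasis_baseChangeAlong, mapMat_tanHom hresR hM]
  -- inner cocycles come from the zero functional only
  have hinner : ∀ (ℓ : (DQ.R ⧸ cotSub 𝒪 DQ.R) →ₗ[𝒪] ResidueField 𝒪)
      (X : Matrix (Fin 2) (Fin 2) (ResidueField 𝒪)),
      (∀ σ : Γℚ, derLin (𝒪 := 𝒪) (matOfBasis DQ.ρ b) ℓ σ
        = X * matOfBasisRes ρbar b0 σ - matOfBasisRes ρbar b0 σ * X) → ℓ = 0 := by
    intro ℓ X hX
    by_contra hℓ
    have hD : 𝒟 (DQ.ρ.baseChangeAlong (tanHom hresR ℓ : DQ.R →+* DualNumber (ResidueField 𝒪))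
        (hloc _)) := hbc _ (hloc _) (tanHom_surjective hresR hℓ)
    have hresid := residual_baseChangeAlong_isEquiv ρbar DQ.ρ DQ.residual_isEquiv
      (tanHom hresR ℓ) (hloc _)
    obtain ⟨φ0, -, hu⟩ := DQ.universal (DualNumber (ResidueField 𝒪)) (residue_surjective_dual 𝒪)
      _ hD hresid
    have hequiv : (DQ.ρ.baseChangeAlong
        (tanHom hresR (0 : (DQ.R ⧸ cotSub 𝒪 DQ.R) →ₗ[𝒪] ResidueField 𝒪) :
          DQ.R →+* DualNumber (ResidueField 𝒪)) (hloc _)).IsEquiv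
        (DQ.ρ.baseChangeAlong (tanHom hresR ℓ : DQ.R →+* DualNumber (ResidueField 𝒪))
          (hloc _)) := by
      rw [isEquiv_iff_of_bases _ _ (baseChangeBasis _ (hloc _) DQ.ρ b)
        (baseChangeBasis _ (hloc _) DQ.ρ b)]
      refine ⟨1 + X.map (TrivSqZeroExt.inr : ResidueField 𝒪 → DualNumber (ResidueField 𝒪)),
        isUnit_det_one_add_eps X, fun σ => ?_⟩
      rw [hmat, hmat, hX σ, map_zero, Pi.zero_apply, map_inr_zero, add_zero]
      exact conj_one_add_eps _ X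
    have h0 := hu (tanHom hresR 0) ⟨hloc _, hequiv⟩
    have h1 := hu (tanHom hresR ℓ) ⟨hloc _, isEquiv_refl _⟩
    exact hℓ (tanHom_injective hresR (h1.trans h0.symm))
  have hinj : Function.Injective (derLin (𝒪 := 𝒪) (matOfBasis DQ.ρ b)) := by
    refine (injective_iff_map_eq_zero _).mpr fun ℓ hℓ => hinner ℓ 0 fun σ => ?_
    rw [hℓ, Pi.zero_apply, zero_mul, mul_zero, sub_zero]
  -- the number of generators
  have hfin : Module.finrank (ResidueField 𝒪)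
      ((DQ.R ⧸ cotSub 𝒪 DQ.R) →ₗ[𝒪] ResidueField 𝒪)
        = Module.finrank (ResidueField 𝒪)
          (LinearMap.range (derLin (𝒪 := 𝒪) (matOfBasis DQ.ρ b))) :=
    (LinearEquiv.ofInjective _ hinj).finrank_eq
  obtain ⟨x, hx⟩ := exists_genMax_finrank hresR _ hfin
  haveI := finite_functionals (𝒪 := 𝒪) (R := DQ.R) hresR
  refine ⟨LinearMap.range (derLin (𝒪 := 𝒪) (matOfBasis DQ.ρ b)), x, inferInstance, hx,
    ?_, ?_, ?_, ?_⟩
  · rintro _ ⟨ℓ, rfl⟩ σ τ
    exact derLin_mul hresR hM ℓ σ τ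
  · rintro _ ⟨ℓ, rfl⟩
    obtain ⟨L, hL, h⟩ := isContMat_matOfBasis DQ.ρ b 2
    exact ⟨L, hL, fun σ hσ => derLin_eq_zero ℓ σ (h σ hσ)⟩
  · rintro _ ⟨ℓ, rfl⟩ ⟨X, hX⟩
    rw [hinner ℓ X hX, map_zero]
  · rintro _ ⟨ℓ, rfl⟩ hc
    have hℓ : ℓ ≠ 0 := fun h => hc (by rw [h, map_zero])
    exact ⟨_, hbc _ (hloc _) (tanHom_surjective hresR hℓ), baseChangeBasis _ (hloc _) DQ.ρ b,
      hmat ℓ⟩


/-- **(Tan) ∘ (Sel).**  The bound `SelMat` gives `r` generators of `𝔪_{DQ.R}` modulo `𝔪_𝒪`. -/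
theorem genMax_of_selMat (DQ : GaloisRep.DeformationRingData 𝒪 ρbar 𝒟)
    (b0 : Module.Basis (Fin 2) (ResidueField 𝒪) ρbar.V)
    (hbc : ∀ (φ : DQ.R →ₐ[𝒪] DualNumber (ResidueField 𝒪))
      (hφ : IsLocalHom (φ : DQ.R →+* DualNumber (ResidueField 𝒪))), Function.Surjective φ →
        𝒟 (DQ.ρ.baseChangeAlong (φ : DQ.R →+* DualNumber (ResidueField 𝒪)) hφ))
    (r : ℕ) (hsel : SelMat 𝒪 ρbar b0 𝒟 r) :
    ∃ x : Fin r → DQ.R, Contract.GenMax 𝒪 DQ.R x := by
  obtain ⟨C, x, hfin, hx, h1, h2, h3, h4⟩ := exists_tangent_subspace_fin DQ b0 hbc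
  obtain ⟨x', hx'⟩ := exists_span_range_eq_of_le (hsel C hfin h1 h2 h3 h4) x
  refine ⟨x', ?_⟩
  show maximalIdeal DQ.R
    = Ideal.span (Set.range x') ⊔ (maximalIdeal 𝒪).map (algebraMap 𝒪 DQ.R)
  rw [hx', ← hx]

end Main

/-! ### The contract-level statements -/

/-- **(SEL-ORD), matrix form.**  Taylor–Wiles primes with the bound `SelMat` for the
strict-ordinary condition. -/
def SelOrdStatement : Prop :=
  ∀ (𝒪 : Type) [CommRing 𝒪] [IsDomain 𝒪] [IsDiscreteValuationRing 𝒪]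
    [IsAdicComplete (maximalIdeal 𝒪) 𝒪] [Finite (ResidueField 𝒪)]
    (p : ℕ) [Fact p.Prime] (ρbar : ResidualGaloisRep (ResidueField 𝒪)) (S Smin : Finset ℕ),
    Contract.Hyp 𝒪 p ρbar S Smin →
    ∃ r : ℕ, ∀ n : ℕ, ∃ qv : Fin r → ℕ, Contract.IsTWSet p ρbar S n qv ∧
      ∃ b0 : Module.Basis (Fin 2) (ResidueField 𝒪) ρbar.V,
        SelMat 𝒪 ρbar b0 (Contract.condOrd 𝒪 p Smin qv) r

/-- **(SEL-FLAT), matrix form.**  Taylor–Wiles primes with the bound `SelMat` for the flat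
condition. -/
def SelFlatStatement : Prop :=
  ∀ (𝒪 : Type) [CommRing 𝒪] [IsDomain 𝒪] [IsDiscreteValuationRing 𝒪]
    [IsAdicComplete (maximalIdeal 𝒪) 𝒪] [Finite (ResidueField 𝒪)]
    (p : ℕ) [Fact p.Prime] (ρbar : ResidualGaloisRep (ResidueField 𝒪)) (S Smin : Finset ℕ),
    Contract.Hyp 𝒪 p ρbar S Smin →
    ∃ r : ℕ, ∀ n : ℕ, ∃ qv : Fin r → ℕ, Contract.IsTWSet p ρbar S n qv ∧
      ∃ b0 : Module.Basis (Fin 2) (ResidueField 𝒪) ρbar.V,
        SelMat 𝒪 ρbar b0 (Contract.condFlat 𝒪 p Smin qv) r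

/-- (SEL-ORD) gives (GEN-ORD), given that the strict-ordinary condition passes to base changes
along surjective local homomorphisms. -/
theorem genOrd_of_sel
    (hbc : ∀ (𝒪 : Type) [CommRing 𝒪] (p : ℕ) (Smin : Finset ℕ) {r : ℕ} (qv : Fin r → ℕ)
      {A B : Type} [CommRing A] [IsLocalRing A] [Algebra 𝒪 A] [CommRing B] [IsLocalRing B]
      [Algebra 𝒪 B] (φ : A →+* B) (hφ : IsLocalHom φ), Function.Surjective φ →
      ∀ ρ : GaloisRepAdic A, Contract.condOrd 𝒪 p Smin qv ρ →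
        Contract.condOrd 𝒪 p Smin qv (ρ.baseChangeAlong φ hφ))
    (hsel : SelOrdStatement) : Contract.GenOrdStatement := by
  intro 𝒪 _ _ _ _ _ p _ ρbar S Smin hyp
  obtain ⟨r, hr⟩ := hsel 𝒪 p ρbar S Smin hyp
  refine ⟨r, fun n => ?_⟩
  obtain ⟨qv, hTW, b0, hb0⟩ := hr n
  refine ⟨qv, hTW, fun DQ => ?_⟩
  exact genMax_of_selMat DQ b0
    (fun φ hφ hsurj => hbc 𝒪 p Smin qv (φ : DQ.R →+* DualNumber (ResidueField 𝒪)) hφ hsurj
      DQ.ρ DQ.isOfType) r hb0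

/-- (SEL-FLAT) gives (GEN-FLAT), given that the flat condition passes to base changes along
surjective local homomorphisms. -/
theorem genFlat_of_sel
    (hbc : ∀ (𝒪 : Type) [CommRing 𝒪] (p : ℕ) (Smin : Finset ℕ) {r : ℕ} (qv : Fin r → ℕ)
      {A B : Type} [CommRing A] [IsLocalRing A] [Algebra 𝒪 A] [CommRing B] [IsLocalRing B]
      [Algebra 𝒪 B] (φ : A →+* B) (hφ : IsLocalHom φ), Function.Surjective φ →
      ∀ ρ : GaloisRepAdic A, Contract.condFlat 𝒪 p Smin qv ρ →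
        Contract.condFlat 𝒪 p Smin qv (ρ.baseChangeAlong φ hφ))
    (hsel : SelFlatStatement) : Contract.GenFlatStatement := by
  intro 𝒪 _ _ _ _ _ p _ ρbar S Smin hyp
  obtain ⟨r, hr⟩ := hsel 𝒪 p ρbar S Smin hyp
  refine ⟨r, fun n => ?_⟩
  obtain ⟨qv, hTW, b0, hb0⟩ := hr n
  refine ⟨qv, hTW, fun DQ => ?_⟩
  exact genMax_of_selMat DQ b0
    (fun φ hφ hsurj => hbc 𝒪 p Smin qv (φ : DQ.R →+* DualNumber (ResidueField 𝒪)) hφ hsurj
      DQ.ρ DQ.isOfType) r hb0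

end Fermat.Agent.S56.TangentSel
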