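import Mathlib
import Fermat.Agent.S56.Contract
import Fermat.Agent.S53.CompleteLimit

/-!
# S56: the commutative-algebra exit `SurjStatement` of the top contract

Let `𝒪` be a complete noetherian local ring whose maximal ideal is principal, `R` a local
`𝒪`-algebra which is complete for its maximal ideal `𝔪_R`, with `𝒪 → R / 𝔪_R` surjective, and let
`x : σ → R` (`σ` finite) be such that `𝔪_R` is generated by the `x i` together with the image of
`𝔪_𝒪`.  Then there is a surjective `𝒪`-algebra homomorphism `𝒪[[X_i : i ∈ σ]] → R` with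
`X i ↦ x i` (`exists_surjective_algHom`).  `surjStatement` is the instance needed by
`Fermat.Agent.S56.Contract.result_of_contract`.

The homomorphism is the limit (`IsAdicComplete.liftRingHom`) of the truncated evaluations
`f ↦ aeval x (truncTotal n f) mod 𝔪_R ^ n`; surjectivity is the usual successive approximation.
-/

set_option autoImplicit false

open IsLocalRing

namespace Fermat.Agent.S56.SurjProof

section Eval

variable {𝒪 : Type*} [CommRing 𝒪]
variable {R : Type*} [CommRing R] [IsLocalRing R] [Algebra 𝒪 R]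
variable {σ : Type*} [Finite σ]

omit [Finite σ] in
/-- Polynomials in the `n`-th power of the ideal of variables evaluate into `𝔪_R ^ n` at a point
with coordinates in `𝔪_R`. -/
theorem aeval_mem_pow (x : σ → R) (hx : ∀ i, x i ∈ maximalIdeal R) (n : ℕ)
    (p : MvPolynomial σ 𝒪) (hp : p ∈ MvPolynomial.idealOfVars σ 𝒪 ^ n) :
    MvPolynomial.aeval x p ∈ maximalIdeal R ^ n := by
  have h1 : Ideal.map (MvPolynomial.aeval x : MvPolynomial σ 𝒪 →ₐ[𝒪] R)
      (MvPolynomial.idealOfVars σ 𝒪) ≤ maximalIdeal R := by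
    rw [MvPolynomial.idealOfVars, Ideal.map_span, Ideal.span_le]
    rintro _ ⟨_, ⟨i, rfl⟩, rfl⟩
    simp only [MvPolynomial.aeval_X]
    exact hx i
  have h2 := Ideal.mem_map_of_mem (MvPolynomial.aeval x : MvPolynomial σ 𝒪 →ₐ[𝒪] R) hp
  rw [Ideal.map_pow] at h2
  exact Ideal.pow_right_mono h1 n h2

/-- The truncated evaluation `f ↦ aeval x (truncTotal n f) mod 𝔪_R ^ n`. -/
noncomputable def evn (x : σ → R) (hx : ∀ i, x i ∈ maximalIdeal R) (n : ℕ) :
    MvPowerSeries σ 𝒪 →+* R ⧸ maximalIdeal R ^ n :=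
  (Ideal.Quotient.lift (MvPolynomial.idealOfVars σ 𝒪 ^ n)
    ((Ideal.Quotient.mk (maximalIdeal R ^ n)).comp
      (MvPolynomial.aeval x : MvPolynomial σ 𝒪 →ₐ[𝒪] R).toRingHom)
    (fun a ha => Ideal.Quotient.eq_zero_iff_mem.mpr (aeval_mem_pow x hx n a ha))).comp
  (MvPowerSeries.truncTotalAlgHom σ 𝒪 n).toRingHom

theorem evn_apply (x : σ → R) (hx : ∀ i, x i ∈ maximalIdeal R) (n : ℕ)
    (f : MvPowerSeries σ 𝒪) :
    evn x hx n f = Ideal.Quotient.mk (maximalIdeal R ^ n)
      (MvPolynomial.aeval x (MvPowerSeries.truncTotal n f)) := rfl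

theorem evn_coe (x : σ → R) (hx : ∀ i, x i ∈ maximalIdeal R) (n : ℕ) (p : MvPolynomial σ 𝒪) :
    evn x hx n (p : MvPowerSeries σ 𝒪) =
      Ideal.Quotient.mk (maximalIdeal R ^ n) (MvPolynomial.aeval x p) := by
  rw [evn_apply, Ideal.Quotient.eq]
  have h1 : MvPowerSeries.truncTotal n (p : MvPowerSeries σ 𝒪) - p ∈
      MvPolynomial.idealOfVars σ 𝒪 ^ n := by
    rw [MvPolynomial.mem_pow_idealOfVars_iff']
    intro d hd
    rw [MvPolynomial.coeff_sub, MvPowerSeries.coeff_truncTotal _ hd, MvPolynomial.coeff_coe,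
      sub_self]
  have h2 := aeval_mem_pow x hx n _ h1
  rw [map_sub] at h2
  exact h2

theorem evn_compat (x : σ → R) (hx : ∀ i, x i ∈ maximalIdeal R) {m n : ℕ} (hle : m ≤ n) :
    (Ideal.Quotient.factorPow (maximalIdeal R) hle).comp (evn (𝒪 := 𝒪) x hx n) =
      evn x hx m := by
  ext f
  rw [RingHom.comp_apply, evn_apply, evn_apply, Ideal.Quotient.factor_mk, Ideal.Quotient.eq,
    ← map_sub]
  exact aeval_mem_pow x hx m _
    (MvPowerSeries.truncTotal_sub_truncTotal_mem_pow_idealOfVars hle le_rfl f)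

variable [IsAdicComplete (maximalIdeal R) R]

omit [Algebra 𝒪 R] in
/-- Separatedness of `R`, in the form used below. -/
theorem eq_of_forall_sub_mem {a b : R} (h : ∀ n : ℕ, a - b ∈ maximalIdeal R ^ n) : a = b := by
  have h0 := IsHausdorff.haus (inferInstance : IsHausdorff (maximalIdeal R) R) (a - b)
    (fun n => by
      rw [SModEq.zero, smul_eq_mul, Ideal.mul_top]
      exact h n)
  exact sub_eq_zero.mp h0

/-- Evaluation of power series at a point with coordinates in `𝔪_R`, as a ring homomorphism. -/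
noncomputable def gam (x : σ → R) (hx : ∀ i, x i ∈ maximalIdeal R) : MvPowerSeries σ 𝒪 →+* R :=
  IsAdicComplete.liftRingHom (maximalIdeal R) (fun n => evn x hx n)
    (fun hle => evn_compat x hx hle)

theorem mk_gam (x : σ → R) (hx : ∀ i, x i ∈ maximalIdeal R) (n : ℕ) (f : MvPowerSeries σ 𝒪) :
    Ideal.Quotient.mk (maximalIdeal R ^ n) (gam x hx f) = evn x hx n f :=
  IsAdicComplete.mk_liftRingHom (maximalIdeal R) (fun n => evn x hx n)
    (fun hle => evn_compat x hx hle) n f

theorem gam_coe (x : σ → R) (hx : ∀ i, x i ∈ maximalIdeal R) (p : MvPolynomial σ 𝒪) :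
    gam x hx (p : MvPowerSeries σ 𝒪) = MvPolynomial.aeval x p := by
  apply eq_of_forall_sub_mem
  intro n
  rw [← Ideal.Quotient.eq, mk_gam, evn_coe]

theorem gam_C (x : σ → R) (hx : ∀ i, x i ∈ maximalIdeal R) (a : 𝒪) :
    gam x hx (MvPowerSeries.C a : MvPowerSeries σ 𝒪) = algebraMap 𝒪 R a := by
  rw [← MvPolynomial.coe_C, gam_coe, MvPolynomial.aeval_C]

theorem gam_X (x : σ → R) (hx : ∀ i, x i ∈ maximalIdeal R) (i : σ) :
    gam x hx (MvPowerSeries.X i : MvPowerSeries σ 𝒪) = x i := by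
  rw [← MvPolynomial.coe_X, gam_coe, MvPolynomial.aeval_X]

/-- Evaluation of power series at a point with coordinates in `𝔪_R`, as an `𝒪`-algebra
homomorphism. -/
noncomputable def gamAlg (x : σ → R) (hx : ∀ i, x i ∈ maximalIdeal R) :
    MvPowerSeries σ 𝒪 →ₐ[𝒪] R :=
  { gam x hx with
    commutes' := fun a => by
      show gam x hx (algebraMap 𝒪 (MvPowerSeries σ 𝒪) a) = algebraMap 𝒪 R a
      rw [MvPowerSeries.algebraMap_apply, Algebra.algebraMap_self, RingHom.id_apply, gam_C] }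

theorem gamAlg_apply (x : σ → R) (hx : ∀ i, x i ∈ maximalIdeal R) (f : MvPowerSeries σ 𝒪) :
    gamAlg x hx f = gam x hx f := rfl

end Eval

section Surj

variable {𝒪 : Type*} [CommRing 𝒪] [IsLocalRing 𝒪] [IsNoetherianRing 𝒪]
  [IsAdicComplete (maximalIdeal 𝒪) 𝒪]
variable {R : Type*} [CommRing R] [IsLocalRing R] [IsAdicComplete (maximalIdeal R) R]
  [Algebra 𝒪 R]
variable {σ : Type*} [Finite σ]

/-- A ring homomorphism `𝒪[[X]] → R` which is `algebraMap` on constants and sends the variables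
to generators of `𝔪_R` modulo `𝔪_𝒪 R` is surjective. -/
theorem surjective_of_C_X (π : 𝒪) (hπ : maximalIdeal 𝒪 = Ideal.span {π})
    (hres : Function.Surjective (IsLocalRing.residue R ∘ algebraMap 𝒪 R))
    (x : σ → R)
    (hgen : maximalIdeal R =
      Ideal.span (Set.range x) ⊔ (maximalIdeal 𝒪).map (algebraMap 𝒪 R))
    (γ : MvPowerSeries σ 𝒪 →+* R)
    (hC : ∀ a : 𝒪, γ (MvPowerSeries.C a) = algebraMap 𝒪 R a)
    (hX : ∀ i : σ, γ (MvPowerSeries.X i) = x i) : Function.Surjective γ := by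
  classical
  have hmapmax : Ideal.map γ (maximalIdeal (MvPowerSeries σ 𝒪)) = maximalIdeal R := by
    have e1 : (γ ∘ (MvPowerSeries.X : σ → MvPowerSeries σ 𝒪)) = x := funext hX
    rw [Fermat.Agent.S53.CompleteLimit.maximalIdeal_mvPowerSeries_eq π hπ, Ideal.map_sup,
      Ideal.map_span, Ideal.map_span, Set.image_singleton, ← Set.range_comp, e1, hC, hgen, hπ,
      Ideal.map_span, Set.image_singleton, sup_comm]
  have hmappow : ∀ k : ℕ, Ideal.map γ (maximalIdeal (MvPowerSeries σ 𝒪) ^ k) =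
      maximalIdeal R ^ k := fun k => by
    rw [Ideal.map_pow, hmapmax]
  have hγmem : ∀ (k : ℕ) (f : MvPowerSeries σ 𝒪),
      f ∈ maximalIdeal (MvPowerSeries σ 𝒪) ^ k → γ f ∈ maximalIdeal R ^ k := fun k f hf => by
    rw [← hmappow k]
    exact Ideal.mem_map_of_mem γ hf
  have hresid : ∀ a : R, ∃ c : 𝒪, a - algebraMap 𝒪 R c ∈ maximalIdeal R := fun a => by
    obtain ⟨c, hc⟩ := hres (IsLocalRing.residue R a)
    refine ⟨c, ?_⟩
    rw [Function.comp_apply] at hc
    rw [← Ideal.Quotient.eq]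
    exact hc.symm
  -- the approximation step
  have key : ∀ (k : ℕ) (y : R), y ∈ maximalIdeal R ^ k →
      ∃ f ∈ maximalIdeal (MvPowerSeries σ 𝒪) ^ k, y - γ f ∈ maximalIdeal R ^ (k + 1) := by
    intro k y hy
    rw [← hmappow k] at hy
    have aux : ∀ z : R, z ∈ Submodule.span R (γ '' (maximalIdeal (MvPowerSeries σ 𝒪) ^ k :
        Ideal (MvPowerSeries σ 𝒪))) →
        ∃ f ∈ maximalIdeal (MvPowerSeries σ 𝒪) ^ k, z - γ f ∈ maximalIdeal R ^ (k + 1) := by
      intro z hz
      induction hz using Submodule.span_induction with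
      | mem z hz =>
        obtain ⟨g, hg, rfl⟩ := hz
        exact ⟨g, hg, by simp⟩
      | zero => exact ⟨0, zero_mem _, by simp⟩
      | add u v hu hv ihu ihv =>
        obtain ⟨f, hf, hf'⟩ := ihu
        obtain ⟨g, hg, hg'⟩ := ihv
        refine ⟨f + g, add_mem hf hg, ?_⟩
        have h1 : u + v - γ (f + g) = (u - γ f) + (v - γ g) := by
          rw [map_add]; ring
        rw [h1]
        exact add_mem hf' hg'
      | smul a u hu ih =>
        obtain ⟨f, hf, hf'⟩ := ih
        obtain ⟨c, hc⟩ := hresid a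
        refine ⟨MvPowerSeries.C c * f, Ideal.mul_mem_left _ _ hf, ?_⟩
        have huk : u ∈ maximalIdeal R ^ k := by
          rw [← hmappow k]
          exact hu
        have h1 : a • u - γ (MvPowerSeries.C c * f) =
            (a - algebraMap 𝒪 R c) * u + algebraMap 𝒪 R c * (u - γ f) := by
          rw [map_mul, hC, smul_eq_mul]; ring
        rw [h1]
        refine add_mem ?_ (Ideal.mul_mem_left _ _ hf')
        rw [pow_succ']
        exact Ideal.mul_mem_mul hc huk
    exact aux y hy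
  intro y
  have hAc : IsAdicComplete (maximalIdeal (MvPowerSeries σ 𝒪)) (MvPowerSeries σ 𝒪) :=
    Fermat.Agent.S53.CompleteLimit.isAdicComplete_mvPowerSeries π hπ
  have hex : ∀ (k : ℕ) (F : {F : MvPowerSeries σ 𝒪 // y - γ F ∈ maximalIdeal R ^ k}),
      ∃ F' : {F' : MvPowerSeries σ 𝒪 // y - γ F' ∈ maximalIdeal R ^ (k + 1)},
        F'.1 - F.1 ∈ maximalIdeal (MvPowerSeries σ 𝒪) ^ k := by
    intro k F
    obtain ⟨f, hf, hf'⟩ := key k _ F.2
    refine ⟨⟨F.1 + f, ?_⟩, ?_⟩
    · have h1 : y - γ (F.1 + f) = y - γ F.1 - γ f := by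
        rw [map_add]; ring
      rw [h1]
      exact hf'
    · simpa using hf
  choose next hnext using hex
  let G : (k : ℕ) → {F : MvPowerSeries σ 𝒪 // y - γ F ∈ maximalIdeal R ^ k} :=
    fun k => Nat.rec (motive := fun k => {F : MvPowerSeries σ 𝒪 // y - γ F ∈ maximalIdeal R ^ k})
      ⟨0, by simp⟩ (fun k g => next k g) k
  have hGs : ∀ k : ℕ, (G (k + 1)).1 - (G k).1 ∈ maximalIdeal (MvPowerSeries σ 𝒪) ^ k :=
    fun k => hnext k (G k)
  obtain ⟨L, hL⟩ := Fermat.Agent.S53.CompleteLimit.exists_limit_of_succ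
    (maximalIdeal (MvPowerSeries σ 𝒪)) (fun k => (G k).1) hGs
  refine ⟨L, ?_⟩
  symm
  apply eq_of_forall_sub_mem
  intro k
  have h1 : y - γ L = (y - γ (G k).1) - γ (L - (G k).1) := by
    rw [map_sub]; ring
  rw [h1]
  exact sub_mem (G k).2 (hγmem k _ (hL k))

/-- **Generic core.**  A complete local `𝒪`-algebra `R` with residue field `𝒪 / 𝔪_𝒪` whose
maximal ideal is generated by the `x i` (`i` in a finite type `σ`) and `𝔪_𝒪` is a quotient of
`𝒪[[X_i : i ∈ σ]]`, by a homomorphism sending `X i` to `x i`. -/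
theorem exists_surjective_algHom (π : 𝒪) (hπ : maximalIdeal 𝒪 = Ideal.span {π})
    (hres : Function.Surjective (IsLocalRing.residue R ∘ algebraMap 𝒪 R))
    (x : σ → R)
    (hgen : maximalIdeal R =
      Ideal.span (Set.range x) ⊔ (maximalIdeal 𝒪).map (algebraMap 𝒪 R)) :
    ∃ γ : MvPowerSeries σ 𝒪 →ₐ[𝒪] R,
      (∀ i, γ (MvPowerSeries.X i) = x i) ∧ Function.Surjective γ := by
  have hx : ∀ i, x i ∈ maximalIdeal R := fun i => by
    rw [hgen]
    exact Ideal.mem_sup_left (Ideal.subset_span ⟨i, rfl⟩)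
  refine ⟨gamAlg x hx, fun i => gam_X x hx i, ?_⟩
  exact surjective_of_C_X π hπ hres x hgen (gam x hx) (gam_C x hx) (gam_X x hx)

end Surj

/-- **(SURJ)** of the S56 top contract. -/
theorem surjStatement : Fermat.Agent.S56.Contract.SurjStatement := by
  intro 𝒪 _ _ _ _ R _ _ _ _ _ _ hres r x hx
  obtain ⟨π, hπ⟩ := (IsPrincipalIdealRing.principal (maximalIdeal 𝒪)).principal
  obtain ⟨γ, -, hγ⟩ := exists_surjective_algHom π hπ hres x hx
  exact ⟨γ, hγ⟩

end Fermat.Agent.S56.SurjProof
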