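import Mathlib
import Fermat.Agent.S56.Contract

/-!
# S56, brick D2: the frozen local conditions are preserved under base change and under `IsEquiv`

For a local homomorphism `φ : A →+* B` of local rings and `ρ : GaloisRepAdic A`:

* `DetIsCyclotomic`, `IsUnramifiedAt`, `IsUnipotentOnInertiaAt`, `IsStrictOrdinaryAt` pass to
  `ρ.baseChangeAlong φ hφ` (no surjectivity needed);
* `IsFlatAt` passes to `ρ.baseChangeAlong φ hφ` when `φ` is surjective (same Hopf algebra, the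
  quotient `V / I V` for `I = J.comap φ` is identified with `(B ⊗ V) / J (B ⊗ V)`);
* all five are invariant under `GaloisRepAdic.IsEquiv`.

Consequently the two deformation conditions `Contract.condOrd`, `Contract.condFlat` of the S56 top
contract are preserved under (surjective) base change and under `IsEquiv`.
-/

set_option autoImplicit false

open IsLocalRing TensorProduct

namespace Fermat.Agent.S56.CondTransport

local notation "GQ" => (AlgebraicClosure ℚ ≃ₐ[ℚ] AlgebraicClosure ℚ)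

/-! ### Generalities -/

section Gen

variable {A B : Type} [CommRing A] [CommRing B]

theorem map_mem_span_natCast (φ : A →+* B) {y : A} {m : ℕ}
    (h : y ∈ Ideal.span {((m : ℕ) : A)}) : φ y ∈ Ideal.span {((m : ℕ) : B)} := by
  obtain ⟨c, hc⟩ := Ideal.mem_span_singleton'.mp h
  refine Ideal.mem_span_singleton'.mpr ⟨φ c, ?_⟩
  rw [← hc, map_mul, map_natCast]

theorem natCast_mem_maximalIdeal [IsLocalRing A] [IsLocalRing B] (φ : A →+* B)
    (hφ : IsLocalHom φ) {p : ℕ} (h : (p : A) ∈ maximalIdeal A) : (p : B) ∈ maximalIdeal B := by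
  have h1 : φ (p : A) ∈ maximalIdeal B := (haveI := hφ; map_nonunit φ _ h)
  rwa [map_natCast] at h1

variable [Algebra A B] {V : Type} [AddCommGroup V] [Module A V]

theorem tmul_smul_eq (c : B) (t : A) (u : V) :
    c ⊗ₜ[A] (t • u) = algebraMap A B t • (c ⊗ₜ[A] u) := by
  rw [TensorProduct.tmul_smul, TensorProduct.smul_tmul' t c u,
    TensorProduct.smul_tmul' (algebraMap A B t) c u, Algebra.smul_def t c, smul_eq_mul]

theorem smul_one_tmul (c : B) (u : V) : c • ((1 : B) ⊗ₜ[A] u) = c ⊗ₜ[A] u := by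
  rw [TensorProduct.smul_tmul' c (1 : B) u, smul_eq_mul, mul_one]

/-- `c ⊗ u` lies on the line spanned by `1 ⊗ v0` if `u` lies on the line spanned by `v0`. -/
theorem tmul_mem_span_one_tmul {v0 u : V} (hu : u ∈ (A ∙ v0 : Submodule A V)) (c : B) :
    c ⊗ₜ[A] u ∈ (B ∙ ((1 : B) ⊗ₜ[A] v0) : Submodule B (B ⊗[A] V)) := by
  obtain ⟨t, rfl⟩ := Submodule.mem_span_singleton.mp hu
  rw [tmul_smul_eq]
  refine Submodule.smul_mem _ _ (Submodule.mem_span_singleton.mpr ⟨c, smul_one_tmul c v0⟩)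

/-- An element of the line spanned by `1 ⊗ v0` is of the form `c ⊗ v0`. -/
theorem exists_eq_tmul_of_mem_span {v0 : V} {w : B ⊗[A] V}
    (hw : w ∈ (B ∙ ((1 : B) ⊗ₜ[A] v0) : Submodule B (B ⊗[A] V))) : ∃ c : B, w = c ⊗ₜ[A] v0 := by
  obtain ⟨c, rfl⟩ := Submodule.mem_span_singleton.mp hw
  exact ⟨c, smul_one_tmul c v0⟩

end Gen

/-! ### Base change -/

section BaseChange

variable {A B : Type} [CommRing A] [IsLocalRing A] [CommRing B] [IsLocalRing B]

theorem detIsCyclotomic_baseChangeAlong (φ : A →+* B) (hφ : IsLocalHom φ) (ρ : GaloisRepAdic A)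
    {p : ℕ} (h : ρ.DetIsCyclotomic p) : (ρ.baseChangeAlong φ hφ).DetIsCyclotomic p := by
  letI : Algebra A B := φ.toAlgebra
  refine ⟨natCast_mem_maximalIdeal φ hφ h.1, fun n σ a hσ => ?_⟩
  have h1 := map_mem_span_natCast φ (h.2 n σ a hσ)
  rw [map_sub, map_natCast] at h1
  have h2 : LinearMap.det ((ρ.baseChangeAlong φ hφ).ρ σ) = φ (LinearMap.det (ρ.ρ σ)) := by
    show LinearMap.det ((ρ.ρ σ).baseChange B) = φ (LinearMap.det (ρ.ρ σ))
    rw [LinearMap.det_baseChange]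
    rfl
  rw [h2]
  exact h1

theorem isUnramifiedAt_baseChangeAlong (φ : A →+* B) (hφ : IsLocalHom φ) (ρ : GaloisRepAdic A)
    {q : ℕ} (h : ρ.IsUnramifiedAt q) : (ρ.baseChangeAlong φ hφ).IsUnramifiedAt q := by
  letI : Algebra A B := φ.toAlgebra
  intro P hP σ hσ
  show (ρ.ρ σ).baseChange B = 1
  rw [h P hP σ hσ, LinearMap.baseChange_one]

theorem isUnipotentOnInertiaAt_baseChangeAlong (φ : A →+* B) (hφ : IsLocalHom φ)
    (ρ : GaloisRepAdic A) {q : ℕ} (h : ρ.IsUnipotentOnInertiaAt q) :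
    (ρ.baseChangeAlong φ hφ).IsUnipotentOnInertiaAt q := by
  letI : Algebra A B := φ.toAlgebra
  intro P hP σ hσ
  show LinearMap.charpoly ((ρ.ρ σ).baseChange B) = (Polynomial.X - 1) ^ 2
  rw [LinearMap.charpoly_baseChange, h P hP σ hσ]
  simp

/-- Core of the strict-ordinary transport, stated on `B ⊗[A] V` with the endomorphisms
`(F σ).baseChange B`. -/
theorem strictOrd_core {A B : Type} [CommRing A] [CommRing B] [Algebra A B]
    {V : Type} [AddCommGroup V] [Module A V] (F : GQ → Module.End A V) {p : ℕ}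
    (D I : Set GQ)
    (h : ∃ L : Submodule A V,
      (∃ b : Module.Basis (Fin 2) A V, L = A ∙ b 0) ∧
      (∀ σ ∈ D, ∀ v ∈ L, F σ v ∈ L) ∧
      (∀ σ ∈ I, ∀ v : V, F σ v - v ∈ L) ∧
      (∀ σ ∈ D, ∃ x z : A,
        (∀ w ∈ L, F σ w = x • w) ∧ (∀ v : V, F σ v - z • v ∈ L) ∧
        ∀ (n a : ℕ), (∀ μ : AlgebraicClosure ℚ, μ ^ p ^ n = 1 → σ μ = μ ^ a) →
          x - (a : A) * z ∈ Ideal.span {((p ^ n : ℕ) : A)})) :
    ∃ L : Submodule B (B ⊗[A] V),
      (∃ b : Module.Basis (Fin 2) B (B ⊗[A] V), L = B ∙ b 0) ∧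
      (∀ σ ∈ D, ∀ v ∈ L, (F σ).baseChange B v ∈ L) ∧
      (∀ σ ∈ I, ∀ v : B ⊗[A] V, (F σ).baseChange B v - v ∈ L) ∧
      (∀ σ ∈ D, ∃ x z : B,
        (∀ w ∈ L, (F σ).baseChange B w = x • w) ∧
        (∀ v : B ⊗[A] V, (F σ).baseChange B v - z • v ∈ L) ∧
        ∀ (n a : ℕ), (∀ μ : AlgebraicClosure ℚ, μ ^ p ^ n = 1 → σ μ = μ ^ a) →
          x - (a : B) * z ∈ Ideal.span {((p ^ n : ℕ) : B)}) := by
  obtain ⟨L, ⟨b, rfl⟩, hD, hI, hxz⟩ := h
  refine ⟨(B ∙ ((1 : B) ⊗ₜ[A] b 0) : Submodule B (B ⊗[A] V)),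
    ⟨b.baseChange B, by rw [Module.Basis.baseChange_apply]⟩, ?_, ?_, ?_⟩
  · intro σ hσ w hw
    obtain ⟨c, rfl⟩ := exists_eq_tmul_of_mem_span hw
    rw [LinearMap.baseChange_tmul]
    exact tmul_mem_span_one_tmul (hD σ hσ _ (Submodule.mem_span_singleton_self _)) c
  · intro σ hσ v
    induction v using TensorProduct.induction_on with
    | zero => rw [LinearMap.map_zero, sub_zero]; exact Submodule.zero_mem _
    | tmul c u =>
      rw [LinearMap.baseChange_tmul, ← TensorProduct.tmul_sub]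
      exact tmul_mem_span_one_tmul (hI σ hσ u) c
    | add x y hx hy =>
      rw [LinearMap.map_add, add_sub_add_comm]
      exact Submodule.add_mem _ hx hy
  · intro σ hσ
    obtain ⟨x, z, hx, hz, hxz'⟩ := hxz σ hσ
    refine ⟨algebraMap A B x, algebraMap A B z, ?_, ?_, ?_⟩
    · intro w hw
      obtain ⟨c, rfl⟩ := exists_eq_tmul_of_mem_span hw
      rw [LinearMap.baseChange_tmul, hx (b 0) (Submodule.mem_span_singleton_self _),
        tmul_smul_eq]
    · intro v
      induction v using TensorProduct.induction_on with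
      | zero => rw [LinearMap.map_zero, smul_zero, sub_zero]; exact Submodule.zero_mem _
      | tmul c u =>
        have h1 : (F σ).baseChange B (c ⊗ₜ[A] u) - algebraMap A B z • (c ⊗ₜ[A] u) =
            c ⊗ₜ[A] (F σ u - z • u) := by
          rw [LinearMap.baseChange_tmul, TensorProduct.tmul_sub, tmul_smul_eq]
        rw [h1]
        exact tmul_mem_span_one_tmul (hz u) c
      | add v w hv hw =>
        rw [LinearMap.map_add, smul_add, add_sub_add_comm]
        exact Submodule.add_mem _ hv hw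
    · intro n a hσa
      have h1 := map_mem_span_natCast (algebraMap A B) (hxz' n a hσa)
      rwa [map_sub, map_mul, map_natCast] at h1

theorem isStrictOrdinaryAt_baseChangeAlong (φ : A →+* B) (hφ : IsLocalHom φ)
    (ρ : GaloisRepAdic A) {p : ℕ} (h : ρ.IsStrictOrdinaryAt p) :
    (ρ.baseChangeAlong φ hφ).IsStrictOrdinaryAt p := by
  letI : Algebra A B := φ.toAlgebra
  refine ⟨natCast_mem_maximalIdeal φ hφ h.1, fun P hP => ?_⟩
  exact strictOrd_core (fun σ => ρ.ρ σ) (P.decompositionSubgroup ℚ : Set GQ)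
    (P.inertiaSubgroupIn ℚ : Set GQ) (h.2 P hP)

end BaseChange

/-! ### Flatness under surjective base change -/

section FlatCore

variable {A B : Type} [CommRing A] [CommRing B] [Algebra A B]
variable {V : Type} [AddCommGroup V] [Module A V]

/-- The semilinear map `v ↦ 1 ⊗ v`. -/
noncomputable def oneTmul : V →ₛₗ[algebraMap A B] B ⊗[A] V where
  toFun v := (1 : B) ⊗ₜ[A] v
  map_add' := TensorProduct.tmul_add 1
  map_smul' t v := tmul_smul_eq 1 t v

theorem oneTmul_apply (v : V) : (oneTmul (B := B) v : B ⊗[A] V) = (1 : B) ⊗ₜ[A] v := rfl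

theorem smul_top_le_comap_end (I : Ideal A) (f : Module.End A V) :
    (I • ⊤ : Submodule A V) ≤ (I • ⊤ : Submodule A V).comap f := by
  rw [← Submodule.map_le_iff_le_comap, Submodule.map_smul'']
  exact Submodule.smul_mono le_rfl le_top

theorem smul_top_le_comap_oneTmul (J : Ideal B) :
    (J.comap (algebraMap A B) • ⊤ : Submodule A V) ≤
      (J • ⊤ : Submodule B (B ⊗[A] V)).comap (oneTmul (B := B)) := by
  rw [Submodule.smul_le]
  intro a ha v _
  rw [Submodule.mem_comap, map_smulₛₗ]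
  exact Submodule.smul_mem_smul ha Submodule.mem_top

/-- The induced map `V / I V → (B ⊗ V) / J (B ⊗ V)` for `I = J.comap`. -/
noncomputable def quotMap (J : Ideal B) :
    V ⧸ (J.comap (algebraMap A B) • ⊤ : Submodule A V) →ₛₗ[algebraMap A B]
      (B ⊗[A] V) ⧸ (J • ⊤ : Submodule B (B ⊗[A] V)) :=
  Submodule.mapQ _ _ oneTmul (smul_top_le_comap_oneTmul J)

theorem quotMap_mk (J : Ideal B) (v : V) :
    quotMap (A := A) (V := V) J (Submodule.Quotient.mk v) = Submodule.Quotient.mk ((1 : B) ⊗ₜ[A] v) := rfl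

theorem mem_smul_top_of_one_tmul_mem {ι : Type} [Fintype ι] (b : Module.Basis ι A V)
    (J : Ideal B) {v : V} (h : (1 : B) ⊗ₜ[A] v ∈ (J • ⊤ : Submodule B (B ⊗[A] V))) :
    v ∈ (J.comap (algebraMap A B) • ⊤ : Submodule A V) := by
  classical
  have hcoord : ∀ x ∈ (J • ⊤ : Submodule B (B ⊗[A] V)), ∀ i, (b.baseChange B).repr x i ∈ J := by
    intro x hx i
    refine Submodule.smul_induction_on hx ?_ ?_
    · intro j hj y _
      rw [map_smul, Finsupp.smul_apply, smul_eq_mul]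
      exact Ideal.mul_mem_right _ _ hj
    · intro x y hx hy
      rw [map_add, Finsupp.add_apply]
      exact add_mem hx hy
  have h1 : ∀ i, b.repr v i ∈ J.comap (algebraMap A B) := by
    intro i
    have h2 := hcoord _ h i
    rw [Module.Basis.baseChange_repr_tmul, Algebra.smul_def, mul_one] at h2
    exact h2
  rw [← b.sum_repr v]
  exact Submodule.sum_mem _ (fun i _ => Submodule.smul_mem_smul (h1 i) Submodule.mem_top)

theorem quotMap_injective {ι : Type} [Fintype ι] (b : Module.Basis ι A V) (J : Ideal B) :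
    Function.Injective (quotMap (A := A) (V := V) J) := by
  rw [injective_iff_map_eq_zero]
  intro x hx
  obtain ⟨v, rfl⟩ := Submodule.Quotient.mk_surjective _ x
  rw [quotMap_mk, Submodule.Quotient.mk_eq_zero] at hx
  rw [Submodule.Quotient.mk_eq_zero]
  exact mem_smul_top_of_one_tmul_mem b J hx

theorem quotMap_surjective (hsurj : Function.Surjective (algebraMap A B)) (J : Ideal B) :
    Function.Surjective (quotMap (A := A) (V := V) J) := by
  intro y
  obtain ⟨x, rfl⟩ := Submodule.Quotient.mk_surjective _ y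
  induction x using TensorProduct.induction_on with
  | zero => exact ⟨0, map_zero _⟩
  | tmul c u =>
    obtain ⟨a, rfl⟩ := hsurj c
    refine ⟨Submodule.Quotient.mk (a • u), ?_⟩
    rw [quotMap_mk, tmul_smul_eq, smul_one_tmul]
  | add x y hx hy =>
    obtain ⟨x', hx'⟩ := hx
    obtain ⟨y', hy'⟩ := hy
    exact ⟨x' + y', by rw [map_add, hx', hy', Submodule.Quotient.mk_add]⟩

/-- Core of the flat transport: an additive, equivariant bijection onto `V / I V`
(`I = J.comap`) gives one onto `(B ⊗ V) / J (B ⊗ V)`. -/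
theorem flat_core (hsurj : Function.Surjective (algebraMap A B)) {ι : Type} [Fintype ι]
    (b : Module.Basis ι A V) (F : GQ → Module.End A V) (J : Ideal B) {X : Type} [Mul X]
    (rel : GQ → X → X → Prop)
    (e : X ≃ V ⧸ (J.comap (algebraMap A B) • ⊤ : Submodule A V))
    (hadd : ∀ f g : X, e (f * g) = e f + e g)
    (hgal : ∀ (σ : GQ) (f g : X), rel σ f g →
      e g = Submodule.mapQ _ _ (F σ) (smul_top_le_comap_end _ (F σ)) (e f)) :
    ∃ e' : X ≃ (B ⊗[A] V) ⧸ (J • ⊤ : Submodule B (B ⊗[A] V)),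
      (∀ f g : X, e' (f * g) = e' f + e' g) ∧
      ∀ (σ : GQ) (f g : X), rel σ f g →
        e' g = Submodule.mapQ _ _ ((F σ).baseChange B)
          (smul_top_le_comap_end _ ((F σ).baseChange B)) (e' f) := by
  refine ⟨e.trans (Equiv.ofBijective (quotMap (A := A) (V := V) J)
    ⟨quotMap_injective b J, quotMap_surjective hsurj J⟩), ?_, ?_⟩
  · intro f g
    show quotMap (A := A) (V := V) J (e (f * g)) = quotMap (A := A) (V := V) J (e f) + quotMap (A := A) (V := V) J (e g)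
    rw [hadd, map_add]
  · intro σ f g hfg
    show quotMap (A := A) (V := V) J (e g) = Submodule.mapQ _ _ ((F σ).baseChange B)
          (smul_top_le_comap_end _ ((F σ).baseChange B)) (quotMap (A := A) (V := V) J (e f))
    rw [hgal σ f g hfg]
    obtain ⟨v, hv⟩ := Submodule.Quotient.mk_surjective _ (e f)
    rw [← hv, Submodule.mapQ_apply, quotMap_mk, quotMap_mk, Submodule.mapQ_apply,
      LinearMap.baseChange_tmul]

end FlatCore

section FlatBaseChange

variable {A B : Type} [CommRing A] [IsLocalRing A] [CommRing B] [IsLocalRing B]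

theorem isFlatAt_baseChangeAlong (φ : A →+* B) (hφ : IsLocalHom φ)
    (hsurj : Function.Surjective φ) (ρ : GaloisRepAdic A) {p : ℕ} (h : ρ.IsFlatAt p) :
    (ρ.baseChangeAlong φ hφ).IsFlatAt p := by
  letI : Algebra A B := φ.toAlgebra
  obtain ⟨hfinres, hI⟩ := h
  refine ⟨?_, fun J hJ => ?_⟩
  · haveI := hφ
    refine Finite.of_surjective (IsLocalRing.ResidueField.map φ) ?_
    intro y
    obtain ⟨b, rfl⟩ := IsLocalRing.residue_surjective y
    obtain ⟨a, rfl⟩ := hsurj b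
    exact ⟨IsLocalRing.residue A a, rfl⟩
  · have hfinI : Finite (A ⧸ J.comap φ) :=
      Finite.of_injective (Ideal.quotientMap J φ le_rfl) Ideal.quotientMap_injective
    obtain ⟨H, i1, i2, hfin, hflat, hcocomm, e, hadd, hgal⟩ := hI (J.comap φ) hfinI
    obtain ⟨e', hadd', hgal'⟩ := flat_core (A := A) (B := B) hsurj
      (Module.finBasis A ρ.V) (fun σ => ρ.ρ σ) J
      (fun σ f g => ∀ h : H, g h = σ (f h)) e hadd (fun σ f g hfg => hgal σ f g hfg)
    exact ⟨H, i1, i2, hfin, hflat, hcocomm, e', hadd', hgal'⟩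

end FlatBaseChange

/-! ### Invariance under `IsEquiv` -/

section IsEquiv

variable {A : Type} [CommRing A] [IsLocalRing A] {ρ ρ' : GaloisRepAdic A}

theorem ρ_eq_conj (e : GaloisRepAdic.Equiv ρ ρ') (σ : GQ) :
    ρ'.ρ σ = e.toLinearEquiv.conj (ρ.ρ σ) := by
  apply LinearMap.ext
  intro y
  rw [LinearEquiv.conj_apply_apply, e.map_apply, LinearEquiv.apply_symm_apply]

theorem detIsCyclotomic_of_isEquiv (he : ρ.IsEquiv ρ') {p : ℕ} (h : ρ.DetIsCyclotomic p) :
    ρ'.DetIsCyclotomic p := by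
  obtain ⟨e⟩ := he
  refine ⟨h.1, fun n σ a hσ => ?_⟩
  have hdet : LinearMap.det (ρ'.ρ σ) = LinearMap.det (ρ.ρ σ) := by
    rw [ρ_eq_conj e σ, LinearEquiv.conj_apply, LinearMap.comp_assoc, LinearMap.det_conj]
  rw [hdet]
  exact h.2 n σ a hσ

theorem isUnramifiedAt_of_isEquiv (he : ρ.IsEquiv ρ') {q : ℕ} (h : ρ.IsUnramifiedAt q) :
    ρ'.IsUnramifiedAt q := by
  obtain ⟨e⟩ := he
  intro P hP σ hσ
  rw [ρ_eq_conj e σ, h P hP σ hσ]
  exact e.toLinearEquiv.conj_id

theorem isUnipotentOnInertiaAt_of_isEquiv (he : ρ.IsEquiv ρ') {q : ℕ}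
    (h : ρ.IsUnipotentOnInertiaAt q) : ρ'.IsUnipotentOnInertiaAt q := by
  obtain ⟨e⟩ := he
  intro P hP σ hσ
  rw [ρ_eq_conj e σ, LinearEquiv.charpoly_conj]
  exact h P hP σ hσ

theorem isStrictOrdinaryAt_of_isEquiv (he : ρ.IsEquiv ρ') {p : ℕ}
    (h : ρ.IsStrictOrdinaryAt p) : ρ'.IsStrictOrdinaryAt p := by
  obtain ⟨e⟩ := he
  refine ⟨h.1, fun P hP => ?_⟩
  obtain ⟨L, ⟨b, rfl⟩, hD, hI, hxz⟩ := h.2 P hP
  have hsymm : ∀ v : ρ'.V, e.toLinearEquiv (e.toLinearEquiv.symm v) = v :=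
    fun v => e.toLinearEquiv.apply_symm_apply v
  refine ⟨(A ∙ b 0 : Submodule A ρ.V).map (e.toLinearEquiv : ρ.V →ₗ[A] ρ'.V),
    ⟨b.map e.toLinearEquiv, ?_⟩, ?_, ?_, ?_⟩
  · rw [Submodule.map_span, Set.image_singleton, Module.Basis.map_apply]
    rfl
  · intro σ hσ w hw
    obtain ⟨y, hy, rfl⟩ := Submodule.mem_map.mp hw
    have h1 : ρ'.ρ σ (e.toLinearEquiv y) = e.toLinearEquiv (ρ.ρ σ y) := (e.map_apply σ y).symm
    rw [LinearEquiv.coe_coe, h1]
    exact Submodule.mem_map_of_mem (hD σ hσ y hy)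
  · intro σ hσ v
    have h1 : ρ'.ρ σ v - v = e.toLinearEquiv (ρ.ρ σ (e.toLinearEquiv.symm v) -
        e.toLinearEquiv.symm v) := by
      rw [map_sub, e.map_apply, hsymm]
    rw [h1]
    exact Submodule.mem_map_of_mem (hI σ hσ _)
  · intro σ hσ
    obtain ⟨x, z, hx, hz, hxz'⟩ := hxz σ hσ
    refine ⟨x, z, ?_, ?_, hxz'⟩
    · intro w hw
      obtain ⟨y, hy, rfl⟩ := Submodule.mem_map.mp hw
      have h1 : ρ'.ρ σ (e.toLinearEquiv y) = e.toLinearEquiv (ρ.ρ σ y) := (e.map_apply σ y).symm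
      rw [LinearEquiv.coe_coe, h1, hx y hy, map_smul]
    · intro v
      have h1 : ρ'.ρ σ v - z • v = e.toLinearEquiv (ρ.ρ σ (e.toLinearEquiv.symm v) -
          z • e.toLinearEquiv.symm v) := by
        rw [map_sub, e.map_apply, map_smul, hsymm]
      rw [h1]
      exact Submodule.mem_map_of_mem (hz _)

theorem isFlatAt_of_isEquiv (he : ρ.IsEquiv ρ') {p : ℕ} (h : ρ.IsFlatAt p) :
    ρ'.IsFlatAt p := by
  obtain ⟨e⟩ := he
  refine ⟨h.1, fun I hI => ?_⟩
  obtain ⟨H, i1, i2, hfin, hflat, hcocomm, e0, hadd, hgal⟩ := h.2 I hI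
  have hmap : (I • ⊤ : Submodule A ρ.V).map (e.toLinearEquiv : ρ.V →ₗ[A] ρ'.V) =
      (I • ⊤ : Submodule A ρ'.V) := by
    rw [Submodule.map_smul'', Submodule.map_top, LinearEquiv.range]
  let Θ := Submodule.Quotient.equiv _ _ e.toLinearEquiv hmap
  refine ⟨H, i1, i2, hfin, hflat, hcocomm, e0.trans Θ.toEquiv, ?_, ?_⟩
  · intro f g
    show Θ (e0 (f * g)) = Θ (e0 f) + Θ (e0 g)
    rw [hadd, map_add]
  · intro σ f g hfg
    show Θ (e0 g) = ρ'.levelAction I σ (Θ (e0 f))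
    rw [hgal σ f g hfg]
    obtain ⟨v, hv⟩ := Submodule.Quotient.mk_surjective _ (e0 f)
    rw [← hv]
    show Submodule.Quotient.mk (e.toLinearEquiv (ρ.ρ σ v)) =
      Submodule.Quotient.mk (ρ'.ρ σ (e.toLinearEquiv v))
    rw [e.map_apply]

end IsEquiv

/-! ### The two deformation conditions of the S56 contract -/

section Contract

open Fermat.Agent.S56

variable {𝒪 : Type} [CommRing 𝒪] (p : ℕ) (Smin : Finset ℕ) {r : ℕ} (qv : Fin r → ℕ)
variable {A B : Type} [CommRing A] [IsLocalRing A] [Algebra 𝒪 A]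
  [CommRing B] [IsLocalRing B] [Algebra 𝒪 B]

theorem condOrd_baseChangeAlong (φ : A →+* B) (hφ : IsLocalHom φ) (ρ : GaloisRepAdic A)
    (h : Contract.condOrd 𝒪 p Smin qv ρ) :
    Contract.condOrd 𝒪 p Smin qv (ρ.baseChangeAlong φ hφ) := by
  obtain ⟨⟨hdet, hso, hur⟩, huni⟩ := h
  exact ⟨⟨detIsCyclotomic_baseChangeAlong φ hφ ρ hdet,
    isStrictOrdinaryAt_baseChangeAlong φ hφ ρ hso,
    fun q hq hqS => isUnramifiedAt_baseChangeAlong φ hφ ρ (hur q hq hqS)⟩,
    fun q hq hqp hqne => isUnipotentOnInertiaAt_baseChangeAlong φ hφ ρ (huni q hq hqp hqne)⟩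

theorem condFlat_baseChangeAlong (φ : A →+* B) (hφ : IsLocalHom φ)
    (hsurj : Function.Surjective φ) (ρ : GaloisRepAdic A)
    (h : Contract.condFlat 𝒪 p Smin qv ρ) :
    Contract.condFlat 𝒪 p Smin qv (ρ.baseChangeAlong φ hφ) := by
  obtain ⟨⟨hdet, hfl, hur⟩, huni⟩ := h
  exact ⟨⟨detIsCyclotomic_baseChangeAlong φ hφ ρ hdet,
    isFlatAt_baseChangeAlong φ hφ hsurj ρ hfl,
    fun q hq hqS => isUnramifiedAt_baseChangeAlong φ hφ ρ (hur q hq hqS)⟩,
    fun q hq hqp hqne => isUnipotentOnInertiaAt_baseChangeAlong φ hφ ρ (huni q hq hqp hqne)⟩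

theorem condOrd_of_isEquiv {ρ ρ' : GaloisRepAdic A} (he : ρ.IsEquiv ρ')
    (h : Contract.condOrd 𝒪 p Smin qv ρ) : Contract.condOrd 𝒪 p Smin qv ρ' := by
  obtain ⟨⟨hdet, hso, hur⟩, huni⟩ := h
  exact ⟨⟨detIsCyclotomic_of_isEquiv he hdet, isStrictOrdinaryAt_of_isEquiv he hso,
    fun q hq hqS => isUnramifiedAt_of_isEquiv he (hur q hq hqS)⟩,
    fun q hq hqp hqne => isUnipotentOnInertiaAt_of_isEquiv he (huni q hq hqp hqne)⟩

theorem condFlat_of_isEquiv {ρ ρ' : GaloisRepAdic A} (he : ρ.IsEquiv ρ')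
    (h : Contract.condFlat 𝒪 p Smin qv ρ) : Contract.condFlat 𝒪 p Smin qv ρ' := by
  obtain ⟨⟨hdet, hfl, hur⟩, huni⟩ := h
  exact ⟨⟨detIsCyclotomic_of_isEquiv he hdet, isFlatAt_of_isEquiv he hfl,
    fun q hq hqS => isUnramifiedAt_of_isEquiv he (hur q hq hqS)⟩,
    fun q hq hqp hqne => isUnipotentOnInertiaAt_of_isEquiv he (huni q hq hqp hqne)⟩

end Contract


end Fermat.Agent.S56.CondTransport
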