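import Mathlib
import Fermat.Agent.S56.TangentSel
import Fermat.Agent.S56.CondTransport

/-!
# S56, brick D exit: the two Galois-side statements give the two generation statements

(helper173; the two base-change terms are helper229's `CondTransport`.)

* `genOrd_of_selOrd : TangentSel.SelOrdStatement → Contract.GenOrdStatement`
* `genFlat_of_selFlat : TangentSel.SelFlatStatement → Contract.GenFlatStatement`

So `Contract.result_of_contract hSurj (genOrd_of_selOrd hSelOrd) (genFlat_of_selFlat hSelFlat)`
proves the frozen statement S56 from `Contract.SurjStatement` and the two `TangentSel` statements.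
-/

set_option autoImplicit false

namespace Fermat.Agent.S56.TanExit

open Fermat.Agent.S56

/-- (SEL-ORD) gives (GEN-ORD). -/
theorem genOrd_of_selOrd (hsel : TangentSel.SelOrdStatement) : Contract.GenOrdStatement :=
  TangentSel.genOrd_of_sel
    (fun 𝒪 _ p Smin _ qv _ _ _ _ _ _ _ _ φ hφ _ ρ h =>
      CondTransport.condOrd_baseChangeAlong (𝒪 := 𝒪) p Smin qv φ hφ ρ h) hsel

/-- (SEL-FLAT) gives (GEN-FLAT). -/
theorem genFlat_of_selFlat (hsel : TangentSel.SelFlatStatement) : Contract.GenFlatStatement :=
  TangentSel.genFlat_of_sel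
    (fun 𝒪 _ p Smin _ qv _ _ _ _ _ _ _ _ φ hφ hsurj ρ h =>
      CondTransport.condFlat_baseChangeAlong (𝒪 := 𝒪) p Smin qv φ hφ hsurj ρ h) hsel

end Fermat.Agent.S56.TanExit
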