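/-
S56 (Taylor–Wiles primes), brick (SURJ) of `S56/Contract.lean` (helper164).

`surjStatement : Contract.SurjStatement` — a complete noetherian local `𝒪`-algebra `R` (`𝒪` a
complete discrete valuation ring) with residue field `𝒪 / 𝔪_𝒪` whose maximal ideal is generated
by `x₁, …, x_r` together with `𝔪_𝒪` is a quotient of `𝒪[[X₁, …, X_r]]`.

Generic part (any commutative ring `O`, any `O`-algebra `R` complete for an ideal `I`, any finite
family `x i ∈ I`):

* `evalQ O I x hx n : O[[X]] →ₐ[O] R ⧸ I ^ n` — truncate at total degree `n`, then evaluate;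
* `evalHom O I x hx : O[[X]] →ₐ[O] R` — THE continuous evaluation `X i ↦ x i`
  (`IsAdicComplete.liftAlgHom`), with `evalHom_coe` (polynomials), `evalHom_X`, `evalHom_C`,
  `mk_evalHom`;
* `map_span_X_evalHom` : the ideal `(X)` is mapped onto `span (range x)`.
-/
import Mathlib
import Fermat.Agent.S56.Contract
import Fermat.Agent.S53.CompleteLimit

set_option autoImplicit false

open IsLocalRing

namespace Fermat.Agent.S56.Surj

section Eval

variable (O : Type*) {R : Type*} [CommRing O] [CommRing R] [Algebra O R] {σ : Type*} [Finite σ]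
  (I : Ideal R) (x : σ → R)

omit [Finite σ] in
/-- Evaluation at a family in `I` maps the `n`-th power of the ideal of variables into `I ^ n`. -/
theorem aeval_mem_pow (hx : ∀ i, x i ∈ I) (n : ℕ) (p : MvPolynomial σ O)
    (hp : p ∈ MvPolynomial.idealOfVars σ O ^ n) :
    MvPolynomial.aeval x p ∈ I ^ n := by
  have h1 : Ideal.map (MvPolynomial.aeval x : MvPolynomial σ O →ₐ[O] R)
      (MvPolynomial.idealOfVars σ O) ≤ I := by
    rw [MvPolynomial.idealOfVars, Ideal.map_span, Ideal.span_le]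
    rintro _ ⟨_, ⟨i, rfl⟩, rfl⟩
    rw [MvPolynomial.aeval_X]
    exact hx i
  have h2 := Ideal.mem_map_of_mem (MvPolynomial.aeval x : MvPolynomial σ O →ₐ[O] R) hp
  rw [Ideal.map_pow] at h2
  exact Ideal.pow_right_mono h1 n h2

/-- Truncated evaluation `O[[X]] → R ⧸ I ^ n`, `X i ↦ x i` (`x i ∈ I`). -/
noncomputable def evalQ (hx : ∀ i, x i ∈ I) (n : ℕ) : MvPowerSeries σ O →ₐ[O] R ⧸ I ^ n :=
  (Ideal.Quotient.liftₐ (MvPolynomial.idealOfVars σ O ^ n)
    ((Ideal.Quotient.mkₐ O (I ^ n)).comp (MvPolynomial.aeval x))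
    (fun a ha => Ideal.Quotient.eq_zero_iff_mem.mpr (aeval_mem_pow O I x hx n a ha))).comp
  ((MvPowerSeries.truncTotalAlgHom σ O n).restrictScalars O)

theorem evalQ_apply (hx : ∀ i, x i ∈ I) (n : ℕ) (f : MvPowerSeries σ O) :
    evalQ O I x hx n f =
      Ideal.Quotient.mk (I ^ n) (MvPolynomial.aeval x (MvPowerSeries.truncTotal n f)) := rfl

/-- On (the image of) a polynomial the truncated evaluation is the evaluation. -/
theorem evalQ_coe (hx : ∀ i, x i ∈ I) (n : ℕ) (p : MvPolynomial σ O) :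
    evalQ O I x hx n (p : MvPowerSeries σ O) = Ideal.Quotient.mk (I ^ n) (MvPolynomial.aeval x p) := by
  rw [evalQ_apply, Ideal.Quotient.eq, ← map_sub]
  apply aeval_mem_pow O I x hx n
  refine (MvPolynomial.mem_pow_idealOfVars_iff' ..).mpr (fun d hd => ?_)
  rw [MvPolynomial.coeff_sub, MvPowerSeries.coeff_truncTotal _ hd, MvPolynomial.coeff_coe,
    sub_self]

theorem evalQ_compat (hx : ∀ i, x i ∈ I) {m n : ℕ} (hle : m ≤ n) :
    (Ideal.Quotient.factorₐ O (Ideal.pow_le_pow_right hle)).comp (evalQ O I x hx n) =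
      evalQ O I x hx m := by
  refine AlgHom.ext fun f => ?_
  rw [AlgHom.comp_apply, evalQ_apply, evalQ_apply, Ideal.Quotient.factorₐ_apply,
    Ideal.Quotient.factor_mk, Ideal.Quotient.eq, ← map_sub]
  exact aeval_mem_pow O I x hx m _
    (MvPowerSeries.truncTotal_sub_truncTotal_mem_pow_idealOfVars hle (le_refl m) f)

variable [IsAdicComplete I R]

/-- **The continuous evaluation** `O[[X]] →ₐ[O] R`, `X i ↦ x i`, for a family `x i ∈ I` in an
`I`-adically complete `O`-algebra `R`. -/
noncomputable def evalHom (hx : ∀ i, x i ∈ I) : MvPowerSeries σ O →ₐ[O] R :=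
  IsAdicComplete.liftAlgHom I (evalQ O I x hx) (fun hle => evalQ_compat O I x hx hle)

theorem mk_evalHom (hx : ∀ i, x i ∈ I) (n : ℕ) (f : MvPowerSeries σ O) :
    Ideal.Quotient.mk (I ^ n) (evalHom O I x hx f) = evalQ O I x hx n f := by
  unfold evalHom
  exact IsAdicComplete.mk_liftAlgHom I _ _ n f

omit [Finite σ] [Algebra O R] [CommRing O] in
/-- Two elements of an `I`-adically separated ring with the same image in every `R ⧸ I ^ n` are
equal. -/
theorem eq_of_forall_mk_eq (a b : R)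
    (h : ∀ n, Ideal.Quotient.mk (I ^ n) a = Ideal.Quotient.mk (I ^ n) b) : a = b := by
  have h0 := IsHausdorff.haus (I := I) (M := R) inferInstance (a - b) (fun n => by
    rw [SModEq.zero, smul_eq_mul, Ideal.mul_top]
    exact Ideal.Quotient.eq.mp (h n))
  exact sub_eq_zero.mp h0

/-- On (the image of) a polynomial the evaluation is the polynomial evaluation. -/
theorem evalHom_coe (hx : ∀ i, x i ∈ I) (p : MvPolynomial σ O) :
    evalHom O I x hx (p : MvPowerSeries σ O) = MvPolynomial.aeval x p :=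
  eq_of_forall_mk_eq I _ _ (fun n => by rw [mk_evalHom, evalQ_coe])

theorem evalHom_X (hx : ∀ i, x i ∈ I) (i : σ) :
    evalHom O I x hx (MvPowerSeries.X i) = x i := by
  rw [← MvPolynomial.coe_X, evalHom_coe, MvPolynomial.aeval_X]

theorem evalHom_C (hx : ∀ i, x i ∈ I) (a : O) :
    evalHom O I x hx (MvPowerSeries.C a) = algebraMap O R a := by
  rw [MvPowerSeries.c_eq_algebraMap, AlgHom.commutes]

/-- The ideal of the variables is mapped onto the ideal generated by the `x i`. -/
theorem map_span_X_evalHom (hx : ∀ i, x i ∈ I) :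
    (Ideal.span (Set.range (MvPowerSeries.X : σ → MvPowerSeries σ O))).map
        (evalHom O I x hx : MvPowerSeries σ O →+* R) = Ideal.span (Set.range x) := by
  rw [Ideal.map_span, ← Set.range_comp]
  congr 2
  funext i
  exact evalHom_X O I x hx i

end Eval

/-- **(SURJ)**, explicit form. -/
theorem exists_surjective (𝒪 : Type) [CommRing 𝒪] [IsDomain 𝒪] [IsDiscreteValuationRing 𝒪]
    [IsAdicComplete (maximalIdeal 𝒪) 𝒪]
    (R : Type) [CommRing R] [IsLocalRing R] [IsNoetherianRing R]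
    [IsAdicComplete (maximalIdeal R) R] [Algebra 𝒪 R] [IsLocalHom (algebraMap 𝒪 R)]
    (hres : Function.Surjective (IsLocalRing.residue R ∘ algebraMap 𝒪 R))
    (r : ℕ) (x : Fin r → R) (hx : Contract.GenMax 𝒪 R x) :
    ∃ γ : MvPowerSeries (Fin r) 𝒪 →ₐ[𝒪] R, Function.Surjective γ := by
  obtain ⟨π, hπirr⟩ := IsDiscreteValuationRing.exists_irreducible 𝒪
  have hπ : maximalIdeal 𝒪 = Ideal.span {π} := hπirr.maximalIdeal_eq
  have hx' : maximalIdeal R =
      Ideal.span (Set.range x) ⊔ (maximalIdeal 𝒪).map (algebraMap 𝒪 R) := hx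
  have hxm : ∀ i, x i ∈ maximalIdeal R := fun i => by
    rw [hx']
    exact Ideal.mem_sup_left (Ideal.subset_span ⟨i, rfl⟩)
  refine ⟨evalHom 𝒪 (maximalIdeal R) x hxm, ?_⟩
  have hP : IsAdicComplete (maximalIdeal (MvPowerSeries (Fin r) 𝒪)) (MvPowerSeries (Fin r) 𝒪) :=
    Fermat.Agent.S53.CompleteLimit.isAdicComplete_mvPowerSeries π hπ
  have hmap : (maximalIdeal (MvPowerSeries (Fin r) 𝒪)).map
      (evalHom 𝒪 (maximalIdeal R) x hxm : MvPowerSeries (Fin r) 𝒪 →+* R) = maximalIdeal R := by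
    rw [Fermat.Agent.S53.CompleteLimit.maximalIdeal_mvPowerSeries_eq π hπ, Ideal.map_sup,
      map_span_X_evalHom, Ideal.map_span, Set.image_singleton]
    have h1 : (evalHom 𝒪 (maximalIdeal R) x hxm : MvPowerSeries (Fin r) 𝒪 →+* R)
        (MvPowerSeries.C π) = algebraMap 𝒪 R π := evalHom_C 𝒪 (maximalIdeal R) x hxm π
    have h2 : (maximalIdeal 𝒪).map (algebraMap 𝒪 R) = Ideal.span {algebraMap 𝒪 R π} := by
      rw [hπ, Ideal.map_span, Set.image_singleton]
    rw [h1, ← h2, sup_comm]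
    exact hx'.symm
  have : IsHausdorff ((maximalIdeal (MvPowerSeries (Fin r) 𝒪)).map
      (evalHom 𝒪 (maximalIdeal R) x hxm : MvPowerSeries (Fin r) 𝒪 →+* R)) R := by
    rw [hmap]
    infer_instance
  have key : Function.Surjective
      (evalHom 𝒪 (maximalIdeal R) x hxm : MvPowerSeries (Fin r) 𝒪 →+* R) := by
    apply surjective_of_mk_map_comp_surjective
      (I := maximalIdeal (MvPowerSeries (Fin r) 𝒪))
    intro y
    obtain ⟨y0, rfl⟩ := Ideal.Quotient.mk_surjective y
    obtain ⟨a, ha⟩ := hres (IsLocalRing.residue R y0)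
    refine ⟨MvPowerSeries.C a, ?_⟩
    rw [RingHom.comp_apply, Ideal.Quotient.eq, hmap]
    have h1 : (evalHom 𝒪 (maximalIdeal R) x hxm : MvPowerSeries (Fin r) 𝒪 →+* R)
        (MvPowerSeries.C a) = algebraMap 𝒪 R a := evalHom_C 𝒪 (maximalIdeal R) x hxm a
    rw [h1]
    have h2 : IsLocalRing.residue R (algebraMap 𝒪 R a - y0) = 0 := by
      rw [map_sub, sub_eq_zero]
      exact ha
    exact (IsLocalRing.residue_eq_zero_iff _).mp h2
  exact key

/-- **(SURJ)** of `S56/Contract.lean`. -/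
theorem surjStatement : Contract.SurjStatement :=
  fun 𝒪 _ _ _ _ R _ _ _ _ _ _ hres r x hx => exists_surjective 𝒪 R hres r x hx

end Fermat.Agent.S56.Surj
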