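import Mathlib
import Fermat.Agent.S56.Contract

/-!
# S56: the interface between the deformation side (D) and the Galois side (Sel)

Statement-level file (helper56, S56 captain).  No cohomology group appears here.

* `Der ρbar` : the `k`-space of *derivations* `d : G_ℚ → End_k(V̄)` along `ρbar`
  (`d (σ τ) = d σ ∘ ρbar τ + ρbar σ ∘ d τ`, and `d` vanishes on the fixing subgroup of a finite
  extension).  `IsInner d` : `d σ = X ∘ ρbar σ - ρbar σ ∘ X` for one `X`.
* `liftOf ρbar d : GaloisRepAdic (DualNumber k)` : the lift `σ ↦ ρbar σ + ε d σ` on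
  `k[ε] ⊗_k V̄`.
* `TanFor 𝒪 ρbar 𝒟` (deformation side): for every deformation ring `DQ` of type `𝒟` there is a
  `k`-subspace `C ⊆ Der ρbar`, containing no non-zero inner derivation, all of whose non-zero
  elements give lifts of type `𝒟`, such that `𝔪_R` is generated by `finrank k C` elements and
  `𝔪_𝒪`.
* `SelFor 𝒪 ρbar 𝒟 r` (Galois side): every such subspace has dimension `≤ r`.
* `genOrd_of_tan_sel`, `genFlat_of_tan_sel` : the two halves of the top contract
  (`Contract.GenOrdStatement`, `Contract.GenFlatStatement`) from the four `Prop`s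
  `TanOrdStatement`, `SelOrdStatement`, `TanFlatStatement`, `SelFlatStatement`.
* `TanCoreStatement` + `BaseChangeStable` + `EquivStable` : the suggested split of the
  deformation side into a condition-free core and two stability statements per condition
  (`tanOrd_of_core`, `tanFlat_of_core`).
-/

set_option autoImplicit false

open Polynomial IsLocalRing TensorProduct

namespace Fermat.Agent.S56.Tangent

open Fermat.Agent.S56.Contract

local notation "GQ" => (AlgebraicClosure ℚ ≃ₐ[ℚ] AlgebraicClosure ℚ)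

section Defs

variable {k : Type} [Field k] (ρbar : ResidualGaloisRep k)

/-- Derivations along `ρbar`: `d (σ τ) = d σ ∘ ρbar τ + ρbar σ ∘ d τ`, vanishing on the fixing
subgroup of a finite extension of `ℚ`.  (`σ ↦ d σ ∘ (ρbar σ)⁻¹` is then a continuous 1-cocycle
of `G_ℚ` in `End_k(V̄)` with the conjugation action.) -/
def Der : Submodule k (GQ → Module.End k ρbar.V) where
  carrier := {d | (∀ σ τ : GQ, d (σ * τ) = d σ * ρbar.ρ τ + ρbar.ρ σ * d τ) ∧
    ∃ L : IntermediateField ℚ (AlgebraicClosure ℚ), FiniteDimensional ℚ L ∧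
      ∀ σ : GQ, (∀ x ∈ L, σ x = x) → d σ = 0}
  add_mem' := by
    rintro d e ⟨hd, L, hL, hdL⟩ ⟨he, L', hL', heL'⟩
    refine ⟨fun σ τ => ?_, L ⊔ L', inferInstance, fun σ hσ => ?_⟩
    · simp only [Pi.add_apply, hd σ τ, he σ τ, add_mul, mul_add]
      abel
    · have h1 : d σ = 0 := hdL σ fun x hx => hσ x ((le_sup_left : L ≤ L ⊔ L') hx)
      have h2 : e σ = 0 := heL' σ fun x hx => hσ x ((le_sup_right : L' ≤ L ⊔ L') hx)
      simp [h1, h2]
  zero_mem' := by
    refine ⟨fun σ τ => by simp, ⊥, inferInstance, fun σ _ => rfl⟩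
  smul_mem' := by
    rintro c d ⟨hd, L, hL, hdL⟩
    refine ⟨fun σ τ => ?_, L, hL, fun σ hσ => ?_⟩
    · simp only [Pi.smul_apply, hd σ τ, smul_add, smul_mul_assoc, mul_smul_comm]
    · simp [hdL σ hσ]

variable {ρbar}

theorem der_map_mul (d : Der ρbar) (σ τ : GQ) :
    d.1 (σ * τ) = d.1 σ * ρbar.ρ τ + ρbar.ρ σ * d.1 τ :=
  d.2.1 σ τ

theorem der_map_one (d : Der ρbar) : d.1 1 = 0 := by
  have h := der_map_mul d 1 1
  rw [mul_one, map_one, mul_one, one_mul] at h
  have h2 : d.1 1 + d.1 1 = d.1 1 + 0 := by rw [add_zero]; exact h.symm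
  exact add_left_cancel h2

theorem der_exists_level (d : Der ρbar) :
    ∃ L : IntermediateField ℚ (AlgebraicClosure ℚ), FiniteDimensional ℚ L ∧
      ∀ σ : GQ, (∀ x ∈ L, σ x = x) → d.1 σ = 0 ∧ ρbar.ρ σ = 1 := by
  obtain ⟨L, hL, hdL⟩ := d.2.2
  obtain ⟨L', hL', hρ⟩ := ρbar.factorsThroughFiniteLevel
  exact ⟨L ⊔ L', inferInstance, fun σ hσ =>
    ⟨hdL σ fun x hx => hσ x ((le_sup_left : L ≤ L ⊔ L') hx),
      hρ σ fun x hx => hσ x ((le_sup_right : L' ≤ L ⊔ L') hx)⟩⟩

variable (ρbar)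

/-- Inner derivations: `d σ = X ∘ ρbar σ - ρbar σ ∘ X` (the lift `ρbar + ε d` is then conjugate
to the constant lift by `1 - ε X`). -/
def IsInner (d : GQ → Module.End k ρbar.V) : Prop :=
  ∃ X : Module.End k ρbar.V, ∀ σ : GQ, d σ = X * ρbar.ρ σ - ρbar.ρ σ * X

section Raw

variable {V : Type} [AddCommGroup V] [Module k V]

/-- The endomorphism `P + ε D` of `k[ε] ⊗ V` on pure tensors. -/
theorem raw_tmul (P D : Module.End k V) (a : DualNumber k) (v : V) :
    ((P.baseChange (DualNumber k) + (DualNumber.eps : DualNumber k) • D.baseChange (DualNumber k) :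
      Module.End (DualNumber k) (DualNumber k ⊗[k] V))) (a ⊗ₜ[k] v) =
      a ⊗ₜ[k] (P v) + (DualNumber.eps * a) ⊗ₜ[k] (D v) := by
  rw [LinearMap.add_apply, LinearMap.smul_apply, LinearMap.baseChange_tmul,
    LinearMap.baseChange_tmul, TensorProduct.smul_tmul', smul_eq_mul]

theorem raw_one :
    ((LinearMap.baseChange (DualNumber k) (1 : Module.End k V) +
      (DualNumber.eps : DualNumber k) • LinearMap.baseChange (DualNumber k) (0 : Module.End k V) :
      Module.End (DualNumber k) (DualNumber k ⊗[k] V))) = 1 := by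
  refine LinearMap.ext fun x => ?_
  induction x using TensorProduct.induction_on with
  | zero => simp only [map_zero]
  | tmul a v =>
    rw [raw_tmul, Module.End.one_apply, Module.End.one_apply, LinearMap.zero_apply,
      TensorProduct.tmul_zero, add_zero]
  | add x y hx hy => rw [map_add, hx, hy, map_add]

theorem raw_mul (P P' D D' : Module.End k V) :
    ((LinearMap.baseChange (DualNumber k) (P * P') +
      (DualNumber.eps : DualNumber k) • LinearMap.baseChange (DualNumber k) (D * P' + P * D') :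
      Module.End (DualNumber k) (DualNumber k ⊗[k] V))) =
    (LinearMap.baseChange (DualNumber k) P +
      (DualNumber.eps : DualNumber k) • LinearMap.baseChange (DualNumber k) D) *
    (LinearMap.baseChange (DualNumber k) P' +
      (DualNumber.eps : DualNumber k) • LinearMap.baseChange (DualNumber k) D') := by
  refine LinearMap.ext fun x => ?_
  induction x using TensorProduct.induction_on with
  | zero => simp only [map_zero]
  | tmul a v =>
    rw [Module.End.mul_apply, raw_tmul, raw_tmul, map_add, raw_tmul, raw_tmul, ← mul_assoc,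
      DualNumber.eps_mul_eps, zero_mul, TensorProduct.zero_tmul, add_zero, Module.End.mul_apply,
      LinearMap.add_apply, Module.End.mul_apply, Module.End.mul_apply, TensorProduct.tmul_add]
    abel
  | add x y hx hy => rw [map_add, hx, hy, map_add]

end Raw

/-- The lift `σ ↦ ρbar σ + ε d σ` of `ρbar` to the dual numbers, on `k[ε] ⊗_k V̄`. -/
noncomputable def liftOf (d : Der ρbar) : GaloisRepAdic (DualNumber k) where
  V := DualNumber k ⊗[k] ρbar.V
  finrank_eq := by rw [Module.finrank_baseChange, ρbar.finrank_eq]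
  ρ :=
    { toFun := fun σ => (ρbar.ρ σ).baseChange (DualNumber k) +
        (DualNumber.eps : DualNumber k) • (d.1 σ).baseChange (DualNumber k)
      map_one' := by
        rw [map_one, der_map_one d]
        exact raw_one
      map_mul' := fun σ τ => by
        rw [map_mul, der_map_mul d]
        exact raw_mul _ _ _ _ }
  isAdicContinuous := by
    intro n
    obtain ⟨L, hL, h⟩ := der_exists_level d
    refine ⟨L, hL, fun σ hσ v => ?_⟩
    obtain ⟨h1, h2⟩ := h σ hσ
    have : ((ρbar.ρ σ).baseChange (DualNumber k) +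
        (DualNumber.eps : DualNumber k) • (d.1 σ).baseChange (DualNumber k) :
        Module.End (DualNumber k) (DualNumber k ⊗[k] ρbar.V)) v - v = 0 := by
      rw [h1, h2, raw_one, Module.End.one_apply, sub_self]
    show ((ρbar.ρ σ).baseChange (DualNumber k) +
        (DualNumber.eps : DualNumber k) • (d.1 σ).baseChange (DualNumber k) :
        Module.End (DualNumber k) (DualNumber k ⊗[k] ρbar.V)) v - v ∈ _
    rw [this]
    exact Submodule.zero_mem _

theorem liftOf_ρ (d : Der ρbar) (σ : GQ) :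
    (liftOf ρbar d).ρ σ = (ρbar.ρ σ).baseChange (DualNumber k) +
      (DualNumber.eps : DualNumber k) • (d.1 σ).baseChange (DualNumber k) :=
  rfl

theorem liftOf_ρ_tmul (d : Der ρbar) (σ : GQ) (a : DualNumber k) (v : ρbar.V) :
    (liftOf ρbar d).ρ σ (a ⊗ₜ[k] v) =
      a ⊗ₜ[k] (ρbar.ρ σ v) + (DualNumber.eps * a) ⊗ₜ[k] (d.1 σ v) :=
  raw_tmul _ _ a v

end Defs

section Props

variable (𝒪 : Type) [CommRing 𝒪] [IsDomain 𝒪] [IsDiscreteValuationRing 𝒪]
  [IsAdicComplete (maximalIdeal 𝒪) 𝒪] (ρbar : ResidualGaloisRep (ResidueField 𝒪))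
  (𝒟 : ∀ ⦃A : Type⦄ [CommRing A] [IsLocalRing A] [Algebra 𝒪 A], GaloisRepAdic A → Prop)

/-- **Deformation side, for one condition `𝒟`.**  For every deformation ring `DQ` of type `𝒟`
there is a `k`-subspace `C` of derivations, meeting the inner derivations in `0`, all of whose
non-zero elements give lifts of type `𝒟`, such that `𝔪_R` is generated by `dim_k C` elements
together with `𝔪_𝒪`.  (`C` = the image of the tangent space `Der_𝒪(R, k)` under
`λ ↦ λ ∘ ρ_R`, which is `k`-linear and, by the universal property, injective with image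
avoiding the inner derivations; the lift of `λ ≠ 0` is the base change along the SURJECTIVE
`φ_λ : R → k[ε]`.) -/
def TanFor : Prop :=
  ∀ DQ : GaloisRep.DeformationRingData 𝒪 ρbar 𝒟,
    ∃ (C : Submodule (ResidueField 𝒪) (Der ρbar))
      (x : Fin (Module.finrank (ResidueField 𝒪) C) → DQ.R),
      GenMax 𝒪 DQ.R x ∧ (∀ d ∈ C, IsInner ρbar d.1 → d = 0) ∧
        ∀ d ∈ C, d ≠ 0 → 𝒟 (liftOf ρbar d)

/-- **Galois side, for one condition `𝒟` and one bound `r`.**  Every `k`-subspace `C` of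
derivations which meets the inner derivations in `0` and all of whose non-zero elements give
lifts of type `𝒟` has dimension at most `r`.  (`C` embeds into `H¹(G_ℚ, ad⁰ ρbar)` by
`d ↦ [σ ↦ d σ ∘ (ρbar σ)⁻¹]`; the image is a `k`-subspace of the Selmer group.) -/
def SelFor (r : ℕ) : Prop :=
  ∀ C : Submodule (ResidueField 𝒪) (Der ρbar), (∀ d ∈ C, IsInner ρbar d.1 → d = 0) →
    (∀ d ∈ C, d ≠ 0 → 𝒟 (liftOf ρbar d)) → Module.finrank (ResidueField 𝒪) C ≤ r

variable {𝒪 ρbar 𝒟}

/-- `TanFor` and `SelFor` give generators: pad the `finrank C` generators with zeros. -/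
theorem exists_genMax_of_tanFor_selFor {r : ℕ} (hTan : TanFor 𝒪 ρbar 𝒟)
    (hSel : SelFor 𝒪 ρbar 𝒟 r) (DQ : GaloisRep.DeformationRingData 𝒪 ρbar 𝒟) :
    ∃ x : Fin r → DQ.R, GenMax 𝒪 DQ.R x := by
  obtain ⟨C, x, hx, hinn, htype⟩ := hTan DQ
  have hle : Module.finrank (ResidueField 𝒪) C ≤ r := hSel C hinn htype
  refine ⟨fun i => if h : (i : ℕ) < Module.finrank (ResidueField 𝒪) C then x ⟨i, h⟩ else 0, ?_⟩
  have hspan : Ideal.span (Set.range fun i : Fin r =>
      if h : (i : ℕ) < Module.finrank (ResidueField 𝒪) C then x ⟨i, h⟩ else 0) =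
      Ideal.span (Set.range x) := by
    apply le_antisymm
    · rw [Ideal.span_le]
      rintro _ ⟨i, rfl⟩
      by_cases h : (i : ℕ) < Module.finrank (ResidueField 𝒪) C
      · simp only [h, dite_true]
        exact Ideal.subset_span ⟨_, rfl⟩
      · simp only [h, dite_false]
        exact Ideal.zero_mem _
    · rw [Ideal.span_le]
      rintro _ ⟨j, rfl⟩
      refine Ideal.subset_span ⟨⟨j, lt_of_lt_of_le j.2 hle⟩, ?_⟩
      simp
  unfold GenMax at hx ⊢
  rw [hspan]
  exact hx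

end Props

/-- **(TAN-ORD)** the deformation side for the strict-ordinary condition. -/
def TanOrdStatement : Prop :=
  ∀ (𝒪 : Type) [CommRing 𝒪] [IsDomain 𝒪] [IsDiscreteValuationRing 𝒪]
    [IsAdicComplete (maximalIdeal 𝒪) 𝒪] [Finite (ResidueField 𝒪)]
    (p : ℕ) [Fact p.Prime] (ρbar : ResidualGaloisRep (ResidueField 𝒪)) (S Smin : Finset ℕ),
    Hyp 𝒪 p ρbar S Smin → ∀ (r : ℕ) (qv : Fin r → ℕ), TanFor 𝒪 ρbar (condOrd 𝒪 p Smin qv)

/-- **(TAN-FLAT)** the deformation side for the flat condition. -/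
def TanFlatStatement : Prop :=
  ∀ (𝒪 : Type) [CommRing 𝒪] [IsDomain 𝒪] [IsDiscreteValuationRing 𝒪]
    [IsAdicComplete (maximalIdeal 𝒪) 𝒪] [Finite (ResidueField 𝒪)]
    (p : ℕ) [Fact p.Prime] (ρbar : ResidualGaloisRep (ResidueField 𝒪)) (S Smin : Finset ℕ),
    Hyp 𝒪 p ρbar S Smin → ∀ (r : ℕ) (qv : Fin r → ℕ), TanFor 𝒪 ρbar (condFlat 𝒪 p Smin qv)

/-- **(SEL-ORD)** Taylor–Wiles primes and the Selmer bound, strict-ordinary half. -/
def SelOrdStatement : Prop :=
  ∀ (𝒪 : Type) [CommRing 𝒪] [IsDomain 𝒪] [IsDiscreteValuationRing 𝒪]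
    [IsAdicComplete (maximalIdeal 𝒪) 𝒪] [Finite (ResidueField 𝒪)]
    (p : ℕ) [Fact p.Prime] (ρbar : ResidualGaloisRep (ResidueField 𝒪)) (S Smin : Finset ℕ),
    Hyp 𝒪 p ρbar S Smin →
    ∃ r : ℕ, ∀ n : ℕ, ∃ qv : Fin r → ℕ, IsTWSet p ρbar S n qv ∧
      SelFor 𝒪 ρbar (condOrd 𝒪 p Smin qv) r

/-- **(SEL-FLAT)** Taylor–Wiles primes and the Selmer bound, flat half. -/
def SelFlatStatement : Prop :=
  ∀ (𝒪 : Type) [CommRing 𝒪] [IsDomain 𝒪] [IsDiscreteValuationRing 𝒪]
    [IsAdicComplete (maximalIdeal 𝒪) 𝒪] [Finite (ResidueField 𝒪)]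
    (p : ℕ) [Fact p.Prime] (ρbar : ResidualGaloisRep (ResidueField 𝒪)) (S Smin : Finset ℕ),
    Hyp 𝒪 p ρbar S Smin →
    ∃ r : ℕ, ∀ n : ℕ, ∃ qv : Fin r → ℕ, IsTWSet p ρbar S n qv ∧
      SelFor 𝒪 ρbar (condFlat 𝒪 p Smin qv) r

/-- The strict-ordinary half of the top contract from the two sides. -/
theorem genOrd_of_tan_sel (hTan : TanOrdStatement) (hSel : SelOrdStatement) :
    GenOrdStatement := by
  intro 𝒪 _ _ _ _ _ p _ ρbar S Smin hyp
  obtain ⟨r, hr⟩ := hSel 𝒪 p ρbar S Smin hyp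
  refine ⟨r, fun n => ?_⟩
  obtain ⟨qv, hTW, hS⟩ := hr n
  exact ⟨qv, hTW, fun DQ =>
    exists_genMax_of_tanFor_selFor (hTan 𝒪 p ρbar S Smin hyp r qv) hS DQ⟩

/-- The flat half of the top contract from the two sides. -/
theorem genFlat_of_tan_sel (hTan : TanFlatStatement) (hSel : SelFlatStatement) :
    GenFlatStatement := by
  intro 𝒪 _ _ _ _ _ p _ ρbar S Smin hyp
  obtain ⟨r, hr⟩ := hSel 𝒪 p ρbar S Smin hyp
  refine ⟨r, fun n => ?_⟩
  obtain ⟨qv, hTW, hS⟩ := hr n
  exact ⟨qv, hTW, fun DQ =>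
    exists_genMax_of_tanFor_selFor (hTan 𝒪 p ρbar S Smin hyp r qv) hS DQ⟩

/-! ### Suggested split of the deformation side -/

section Core

variable (𝒪 : Type) [CommRing 𝒪] [IsDomain 𝒪] [IsDiscreteValuationRing 𝒪]
  [IsAdicComplete (maximalIdeal 𝒪) 𝒪]
  (𝒟 : ∀ ⦃A : Type⦄ [CommRing A] [IsLocalRing A] [Algebra 𝒪 A], GaloisRepAdic A → Prop)

/-- `𝒟` is stable under base change along SURJECTIVE local `𝒪`-algebra homs onto the dual
numbers of the residue field. -/
def BaseChangeStable : Prop :=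
  ∀ (R : Type) [CommRing R] [IsLocalRing R] [Algebra 𝒪 R] (ρ : GaloisRepAdic R)
    (φ : R →ₐ[𝒪] DualNumber (ResidueField 𝒪))
    (hφ : IsLocalHom (φ : R →+* DualNumber (ResidueField 𝒪))),
    Function.Surjective φ →
      𝒟 ρ → 𝒟 (ρ.baseChangeAlong (φ : R →+* DualNumber (ResidueField 𝒪)) hφ)

/-- `𝒟` is invariant under equivalence of representations over the dual numbers. -/
def EquivStable : Prop :=
  ∀ ρ₁ ρ₂ : GaloisRepAdic (DualNumber (ResidueField 𝒪)), ρ₁.IsEquiv ρ₂ → 𝒟 ρ₁ → 𝒟 ρ₂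

end Core

/-- **(TAN-CORE)** the deformation side for an arbitrary condition which is stable under
surjective base change to the dual numbers and under equivalence. -/
def TanCoreStatement : Prop :=
  ∀ (𝒪 : Type) [CommRing 𝒪] [IsDomain 𝒪] [IsDiscreteValuationRing 𝒪]
    [IsAdicComplete (maximalIdeal 𝒪) 𝒪] (ρbar : ResidualGaloisRep (ResidueField 𝒪))
    (𝒟 : ∀ ⦃A : Type⦄ [CommRing A] [IsLocalRing A] [Algebra 𝒪 A], GaloisRepAdic A → Prop),
    BaseChangeStable 𝒪 𝒟 → EquivStable 𝒪 𝒟 → TanFor 𝒪 ρbar 𝒟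

/-- **(STAB-ORD)** stability of the strict-ordinary condition. -/
def StabOrdStatement : Prop :=
  ∀ (𝒪 : Type) [CommRing 𝒪] [IsDomain 𝒪] [IsDiscreteValuationRing 𝒪]
    [IsAdicComplete (maximalIdeal 𝒪) 𝒪] (p : ℕ) [Fact p.Prime] (Smin : Finset ℕ)
    (r : ℕ) (qv : Fin r → ℕ),
    BaseChangeStable 𝒪 (condOrd 𝒪 p Smin qv) ∧ EquivStable 𝒪 (condOrd 𝒪 p Smin qv)

/-- **(STAB-FLAT)** stability of the flat condition. -/
def StabFlatStatement : Prop :=
  ∀ (𝒪 : Type) [CommRing 𝒪] [IsDomain 𝒪] [IsDiscreteValuationRing 𝒪]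
    [IsAdicComplete (maximalIdeal 𝒪) 𝒪] (p : ℕ) [Fact p.Prime] (Smin : Finset ℕ)
    (r : ℕ) (qv : Fin r → ℕ),
    BaseChangeStable 𝒪 (condFlat 𝒪 p Smin qv) ∧ EquivStable 𝒪 (condFlat 𝒪 p Smin qv)

theorem tanOrd_of_core (hCore : TanCoreStatement) (hStab : StabOrdStatement) :
    TanOrdStatement := by
  intro 𝒪 _ _ _ _ _ p _ ρbar S Smin _ r qv
  exact hCore 𝒪 ρbar _ (hStab 𝒪 p Smin r qv).1 (hStab 𝒪 p Smin r qv).2

theorem tanFlat_of_core (hCore : TanCoreStatement) (hStab : StabFlatStatement) :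
    TanFlatStatement := by
  intro 𝒪 _ _ _ _ _ p _ ρbar S Smin _ r qv
  exact hCore 𝒪 ρbar _ (hStab 𝒪 p Smin r qv).1 (hStab 𝒪 p Smin r qv).2

/-- **S56 from the second-level contract** (`Contract.SurjStatement` is a theorem:
`S56/SurjProof.surjStatement`). -/
theorem gen_of_core (hCore : TanCoreStatement) (hStabOrd : StabOrdStatement)
    (hStabFlat : StabFlatStatement) (hSelOrd : SelOrdStatement) (hSelFlat : SelFlatStatement) :
    GenOrdStatement ∧ GenFlatStatement :=
  ⟨genOrd_of_tan_sel (tanOrd_of_core hCore hStabOrd) hSelOrd,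
    genFlat_of_tan_sel (tanFlat_of_core hCore hStabFlat) hSelFlat⟩

end Fermat.Agent.S56.Tangent
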